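import Fermat.Agent.AbelianVar.DivisorModel
import Fermat.Agent.AbelianVar.DivisorTrdeg

/-!
# Finitely many sections with bounded poles along the complement of an affine open
-/

set_option autoImplicit false

open CategoryTheory CategoryTheory.Limits AlgebraicGeometry TopologicalSpace

noncomputable section

universe u

namespace FLTA.AbelianVar.Cube

variable {K : Type u} [Field K] [IsAlgClosed K] {X : Scheme.{u}} [AlgebraicGeometry.IsIntegral X]

open RF

/-- On a proper smooth integral variety, the complement of an affine open `W₀` is cut out locally,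
on a fine enough finite affine cover, by one equation `b i`, and for every `e` the functions on
`W₀` with poles bounded by `b ^ e` form a finite dimensional space. -/
theorem exists_finite_sections (f : X ⟶ Spec (CommRingCat.of K)) [IsProper f] (g : ℕ)
    [SmoothOfRelativeDimension g f] {W₀ : X.Opens} (hW₀ : IsAffineOpen W₀)
    (hne : genericPoint X ∈ W₀) (U : X → X.Opens) (hU : ∀ x, x ∈ U x) :
    ∃ (n : ℕ) (W : Fin n → X.Opens) (p : Fin n → X) (b : ∀ i, Γ(X, W i)),
      (∀ i, IsAffineOpen (W i)) ∧ (⊤ ≤ ⨆ i, W i) ∧ (∀ i, W i ≤ U (p i)) ∧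
      (∀ i, X.basicOpen (b i) = W i ⊓ W₀) ∧
      ∀ e : ℕ, letI := (secAlgMap f W₀).toAlgebra
        ∃ M : Submodule K Γ(X, W₀), Module.Finite K M ∧ ∀ φ : Γ(X, W₀),
          (∀ i, ∃ ψ : Γ(X, W i), rs (inf_le_left : W i ⊓ W₀ ≤ W i) ψ =
            rs inf_le_left (b i) ^ e * rs inf_le_right φ) → φ ∈ M := by
  classical
  let := ffAlgebra f
  obtain ⟨E, hE⟩ := exists_affineDivisor_eq f g hW₀ hne
  subst hE
  -- a finite affine cover refining `U` and the charts of the divisor
  have hex : ∀ x : X, ∃ V : X.Opens, IsAffineOpen V ∧ x ∈ V ∧ V ≤ E.D.U x ⊓ U x := fun x => by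
    obtain ⟨_, ⟨V, hV, rfl⟩, hxV, hVU⟩ := X.isBasis_affineOpens.exists_subset_of_mem_open
      (show x ∈ E.D.U x ⊓ U x from ⟨E.D.mem x, hU x⟩) (E.D.U x ⊓ U x).isOpen
    exact ⟨V, hV, hxV, hVU⟩
  choose V hV hxV hVU using hex
  have : CompactSpace X := QuasiCompact.compactSpace_of_compactSpace f
  obtain ⟨s, hs⟩ := isCompact_univ.elim_finite_subcover (fun x : X => (V x : Set X))
    (fun x => (V x).isOpen) fun y _ => Set.mem_iUnion.2 ⟨y, hxV y⟩
  obtain ⟨n, ⟨ε⟩⟩ : ∃ k, Nonempty (Fin k ≃ s) := ⟨_, ⟨(Fintype.equivFin s).symm⟩⟩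
  let p : Fin n → X := fun i => (ε i : X)
  let W : Fin n → X.Opens := fun i => V (p i)
  have hWE : ∀ i, W i ≤ E.D.U (p i) := fun i => (hVU _).trans inf_le_left
  have hcov : ∀ y, ∃ i, y ∈ W i := fun y => by
    obtain ⟨x, hx, hy⟩ := Set.mem_iUnion₂.1 (hs (Set.mem_univ y))
    exact ⟨ε.symm ⟨x, hx⟩, by simpa [W, p] using hy⟩
  have hreg : ∀ i, E.D.t (p i) ∈ Reg (W i) := fun i => Reg_anti (hWE i) (E.eqn_mem_Reg _)
  let b : ∀ i, Γ(X, W i) := fun i => sec (W i) (E.D.t (p i)) (hreg i)
  -- the algebra structure on `Γ(X, W₀)` through the function field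
  let := (secAlgMap f E.U).toAlgebra
  let ι : Γ(X, E.U) →ₗ[K] X.functionField :=
    { toFun := ff E.genericPoint_mem
      map_add' := map_add _
      map_smul' := fun c s => by
        simp only [Algebra.smul_def, map_mul, RingHom.id_apply]
        congr 1
        exact constHom_eq_ff f E.genericPoint_mem c }
  refine ⟨n, W, p, b, fun i => hV _, fun y _ => Opens.mem_iSup.2 (hcov y),
    fun i => (hVU _).trans inf_le_right, fun i => ?_, fun e => ?_⟩
  · ext y
    rw [SetLike.mem_coe, SetLike.mem_coe]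
    constructor
    · intro hy
      have hyW : y ∈ W i := X.basicOpen_le _ hy
      refine ⟨hyW, mem_of_forall_secFF_mem f E.isAffine E.genericPoint_mem fun s => ?_⟩
      have hu : IsUnit (X.presheaf.germ (W i) y hyW (b i)) := (X.mem_basicOpen _ y hyW).1 hy
      obtain ⟨u, hu⟩ := hu
      have hinv : (E.D.t (p i))⁻¹ ∈ stalkRange y := ⟨↑u⁻¹, by
        rw [map_units_inv, hu, algebraMap_germ, ff_sec]⟩
      have hT : ∀ t ∈ E.T, t ∈ stalkRange y :=
        fun t ht => (E.isEqn _ y (hWE i hyW)).mem_of_inv_mem hinv ht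
      have hmem := E.adjoin _ (ff_mem_Reg E.genericPoint_mem s)
      show ff E.genericPoint_mem s ∈ O y
      generalize ff E.genericPoint_mem s = z at hmem ⊢
      induction hmem using Algebra.adjoin_induction with
      | mem t ht => exact hT t ht
      | algebraMap c => exact constHom_mem_O f c y
      | add a b _ _ ha hb => exact add_mem ha hb
      | mul a b _ _ ha hb => exact mul_mem ha hb
    · rintro ⟨hyW, hyU⟩
      rw [X.mem_basicOpen _ y hyW]
      have hinv : (E.D.t (p i))⁻¹ ∈ stalkRange y := by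
        have h1 := E.D.ratio_mem_O (x := y) (y := p i) (z := y) (E.D.mem y) (hWE i hyW)
        rwa [(E.eq_one y hyU).2, one_mul] at h1
      obtain ⟨v, hv⟩ := hinv
      refine IsUnit.of_mul_eq_one v ?_
      apply IsFractionRing.injective (X.presheaf.stalk y) X.functionField
      rw [map_mul, map_one, algebraMap_germ, ff_sec, hv, mul_inv_cancel₀ (E.D.t_ne _)]
  · have := essFiniteType_functionField f g
    obtain ⟨C, hC⟩ := (E.model g).finite_and_finrank_space_le
    have hfin : Module.Finite K ((E.model g).space e) := (hC e).1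
    refine ⟨((E.model g).space e).comap ι, ?_, fun φ hφ => ?_⟩
    · refine Module.Finite.of_injective
        ((ι.comp (((E.model g).space e).comap ι).subtype).codRestrict ((E.model g).space e)
          fun z => z.2) fun z z' h => ?_
      apply Subtype.ext
      exact sec_ext fun x hx => congrArg Subtype.val h
    · rw [Submodule.mem_comap, E.model_space_eq g e]
      intro x
      obtain ⟨i, hi⟩ := hcov x
      obtain ⟨ψ, hψ⟩ := hφ i
      have hη : genericPoint X ∈ W i ⊓ E.U := ⟨RF.genericPoint_mem hi, E.genericPoint_mem⟩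
      have h1 := congrArg (ff hη) hψ
      rw [map_mul, map_pow, ff_rs, ff_rs, ff_rs, ff_sec] at h1
      have h2 := mem_Reg.1 (ff_mem_Reg hi ψ) x hi
      rw [ff_congr hi (y := genericPoint X) hη.1, h1] at h2
      have h3 := pow_mem (E.D.ratio_mem_O (E.D.mem x) (hWE i hi)) e
      have h4 := mul_mem h3 h2
      rwa [mul_pow, inv_pow, mul_assoc, inv_mul_cancel_left₀ (pow_ne_zero e (E.D.t_ne _))] at h4

end FLTA.AbelianVar.Cube
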