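import Fermat.Agent.AbelianVar.Cube.Transition
import Fermat.Agent.AbelianVar.Cube.FiniteSections

/-! # A finite dimensional space containing all formal sections -/

set_option autoImplicit false

universe u

open CategoryTheory CategoryTheory.Limits AlgebraicGeometry TopologicalSpace TensorProduct

noncomputable section

namespace FLTA.AbelianVar.Cube

open LB

variable {K : Type u} [Field K]

section Alg

variable {R R' C : Type u} [CommRing R] [Algebra K R] [CommRing R'] [Algebra K R'] [CommRing C]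
  [Algebra K C]

lemma evC_eq_rid (e : C →ₐ[K] K) (z : R ⊗[K] C) :
    evC R e z = TensorProduct.rid K R (e.toLinearMap.lTensor R z) := by
  induction z with
  | zero => simp
  | tmul r c => simp
  | add x y hx hy => simp [map_add, hx, hy]

lemma rid_lTensor_ext (φ : R →ₐ[K] R') (g : C →ₗ[K] K) (z : R ⊗[K] C) :
    TensorProduct.rid K R' (g.lTensor R' (CechDatum.ext C φ z)) =
      φ (TensorProduct.rid K R (g.lTensor R z)) := by
  induction z with
  | zero => simp
  | tmul r c => simp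
  | add x y hx hy => simp [map_add, hx, hy]

lemma rid_lTensor_tmul_one_mul (r : R) (g : C →ₗ[K] K) (z : R ⊗[K] C) :
    TensorProduct.rid K R (g.lTensor R ((r ⊗ₜ 1) * z)) =
      r * TensorProduct.rid K R (g.lTensor R z) := by
  induction z with
  | zero => simp
  | tmul s c => simp [Algebra.TensorProduct.tmul_mul_tmul]
  | add x y hx hy => simp [mul_add, map_add, hx, hy]

end Alg

variable {X T : Scheme.{u}} [X.Over (Spec (CommRingCat.of K))] [T.Over (Spec (CommRingCat.of K))]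

lemma ext_rs_rs {C : Type u} [CommRing C] [Algebra K C] {U U' U'' : X.Opens} (h : U' ≤ U)
    (h' : U'' ≤ U') (z : Γ(X, U) ⊗[K] C) :
    CechDatum.ext C (rsAlg (K := K) h') (CechDatum.ext C (rsAlg (K := K) h) z) =
      CechDatum.ext C (rsAlg (K := K) (h'.trans h)) z := by
  induction z with
  | zero => simp
  | tmul r c => simp [rs_rs]
  | add x y hx hy => simp [map_add, hx, hy]

lemma boxHom_ext {U U' : X.Opens} {V : T.Opens} (h : U' ≤ U) (z : Γ(X, U) ⊗[K] Γ(T, V)) :
    boxHom K U' V (CechDatum.ext Γ(T, V) (rsAlg (K := K) h) z) =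
      rs (box_mono h le_rfl) (boxHom K U V z) := by
  induction z with
  | zero => simp
  | tmul a b =>
    rw [Algebra.TensorProduct.map_tmul, boxHom_tmul, boxHom_tmul, map_mul, rs_pb, rs_pb,
      rsAlg_apply, pb_rs]
    rfl
  | add x y hx hy => simp only [map_add, hx, hy]

lemma boxHom_tmul_one {U : X.Opens} {V : T.Opens} (r : Γ(X, U)) :
    boxHom K U V (r ⊗ₜ 1) = pb (p₁ K X T) (box_le_left U V) r := by
  rw [boxHom_tmul, map_one, mul_one]

section Components

variable {ι κ : Type} [Finite ι] [Finite κ] {R : ι → Type u} [∀ i, CommRing (R i)]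
  [∀ i, Algebra K (R i)] {R' : κ → Type u} [∀ i, CommRing (R' i)] [∀ i, Algebra K (R' i)]
  {B C : Type u} [CommRing B] [Algebra K B] [CommRing C] [Algebra K C]

omit [Finite ι] in
lemma compHom_coe' (π : B →ₐ[K] C) (P : (∀ i, R i) ⊗[K] B) (i : ι) :
    compHom K C (coe' (∀ i, R i) π P) i = coe' (R i) π (compHom K B P i) := by
  induction P with
  | zero => simp only [map_zero, Pi.zero_apply]
  | tmul r c => rfl
  | add x y hx hy => simp only [map_add, Pi.add_apply, hx, hy]

omit [Finite ι] [Finite κ] in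
lemma compHom_ext (σ : κ → ι) (ψ : ∀ j, R (σ j) →ₐ[K] R' j) (a : (∀ i, R i) ⊗[K] C) (j : κ) :
    compHom K C (CechDatum.ext C (Pi.algHom K _ fun j => (ψ j).comp (Pi.evalAlgHom K R (σ j))) a)
        j = CechDatum.ext C (ψ j) (compHom K C a (σ j)) := by
  induction a with
  | zero => simp only [map_zero, Pi.zero_apply]
  | tmul r c => rfl
  | add x y hx hy => simp only [map_add, Pi.add_apply, hx, hy]

end Components

variable [IsAlgClosed K]

set_option maxHeartbeats 1000000 in
/-- The coefficients of all formal sections over one member of the cover have bounded poles. -/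
theorem exists_bound_component [AlgebraicGeometry.IsIntegral X] (g : ℕ)
    [IsProper (X ↘ Spec (CommRingCat.of K))]
    [SmoothOfRelativeDimension g (X ↘ Spec (CommRingCat.of K))]
    {t₀ : Spec (CommRingCat.of K) ⟶ T} {ht₀ : t₀ ≫ (T ↘ Spec (CommRingCat.of K)) = 𝟙 _}
    {L : LB (prod K X T)} {ι : Type} [Finite ι] {W : ι → X.Opens} (hW : ∀ i, IsAffineOpen (W i))
    (hcov : ⊤ ≤ ⨆ i, W i) {V : T.Opens} (hV : IsAffineOpen V) (h₀ : ⊤ ≤ t₀ ⁻¹ᵁ V)
    (t : ∀ i, Sec L (box K (W i) V)) (t' : ∀ i, Sec L.inv (box K (W i) V))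
    (h1 : ∀ i, pb (axisLeft (X := X) K t₀ ht₀) (le_axisLeft_preimage (U := W i) h₀)
      (Sec.pair (t i) (t' i)) = 1)
    (P Q : (coverDatum K W).R₁ ⊗[K] Γ(T, V)) (hP : secs K (inter₂ W) V P = crossPair t t')
    (hQ : secs K (inter₂ W) V Q = selfPair t t') (k : ι) :
    ∃ M : Submodule K Γ(X, W k), Module.Finite K M ∧
      ∀ (n : ℕ) (a : (coverDatum K W).R₀ ⊗[K] (Γ(T, V) ⧸ RingHom.ker (evPt K t₀ ht₀ h₀) ^ (n + 1))),
        (coverDatum K W).IsSolution _
          (coe' (coverDatum K W).R₁ (Ideal.Quotient.mkₐ K _) P)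
          (coe' (coverDatum K W).R₁ (Ideal.Quotient.mkₐ K _) Q) a →
        ∀ φ : (Γ(T, V) ⧸ RingHom.ker (evPt K t₀ ht₀ h₀) ^ (n + 1)) →ₗ[K] K,
          TensorProduct.rid K Γ(X, W k) (φ.lTensor _
            (compHom K _ (R := fun i => Γ(X, W i)) a k)) ∈ M := by
  classical
  rcases (W k : Set X).eq_empty_or_nonempty with hke | hkne
  · have hbot : W k = ⊥ := SetLike.coe_injective hke
    have : Subsingleton Γ(X, W k) := by rw [hbot]; infer_instance
    exact ⟨⊤, Module.Finite.of_finite, fun n a _ φ => trivial⟩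
  have hηk : genericPoint X ∈ W k := RF.genericPoint_mem hkne.choose_spec
  choose c hc using fun x : X => Opens.mem_iSup.1 (hcov (Opens.mem_top x))
  obtain ⟨m, W', p, b, hW', hcov', hle, hbo, hfin⟩ :=
    exists_finite_sections (X ↘ Spec (CommRingCat.of K)) g (hW k) hηk (fun x => W (c x)) hc
  -- a uniform power killing the poles of `t' k`
  let bb : ∀ i, Γ(prod K X T, box K (W' i) V) := fun i => pb (p₁ K X T) (box_le_left _ _) (b i)
  have hbb : ∀ i, (prod K X T).basicOpen (bb i) =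
      box K (W' i) V ⊓ (p₁ K X T) ⁻¹ᵁ (W' i ⊓ W k) := fun i => by
    rw [← hbo i]
    exact Scheme.basicOpen_appLE _ _ _ _ _
  have hbk : ∀ i, (prod K X T).basicOpen (bb i) ≤ box K (W k) V := fun i => by
    rw [hbb i]
    exact le_inf (inf_le_right.trans ((p₁ K X T).preimage_mono inf_le_right))
      (inf_le_left.trans (box_le_right _ _))
  choose e τ₀ hτ₀ using fun i => Sec.exists_pow_smul_eq_res (isAffineOpen_box (hW' i) hV) (bb i)
    (Sec.res (hbk i) (t' k))
  let N := Finset.univ.sup e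
  obtain ⟨M, hM, hmem⟩ := hfin N
  refine ⟨M, hM, fun n a ha φ => hmem _ fun i => ?_⟩
  let j := c (p i)
  let π : Γ(T, V) →ₐ[K] Γ(T, V) ⧸ RingHom.ker (evPt K t₀ ht₀ h₀) ^ (n + 1) :=
    Ideal.Quotient.mkₐ K _
  let τ : Sec L.inv (box K (W' i) V) := bb i ^ (N - e i) • τ₀ i
  let O : X.Opens := W' i ⊓ W k
  have hOW : O ≤ W' i := inf_le_left
  have hij : W' i ≤ W j := hle i
  have hO₂ : O ≤ inter₂ W (j, k) := le_inf (hOW.trans hij) inf_le_right
  have hOaff : IsAffineOpen O := by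
    rw [show O = X.basicOpen (b i) from (hbo i).symm]
    exact (hW' i).basicOpen _
  have hOb : box K O V ≤ (prod K X T).basicOpen (bb i) := by
    rw [hbb i]
    exact le_inf (box_mono hOW le_rfl) (box_le_left _ _)
  -- lift the two pairings to tensors
  let E := boxEquiv (K := K) (T := T) (hW' i) hV
  let u : Γ(X, W' i) ⊗[K] Γ(T, V) :=
    E.symm (Sec.pair (Sec.res (box_mono hij le_rfl) (t j)) τ)
  let A : Γ(X, W' i) ⊗[K] Γ(T, V) :=
    E.symm (rs (box_mono hij le_rfl) (Sec.pair (t j) (t' j)))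
  have hu : boxHom K (W' i) V u = Sec.pair (Sec.res (box_mono hij le_rfl) (t j)) τ :=
    E.apply_symm_apply _
  have hA : boxHom K (W' i) V A = rs (box_mono hij le_rfl) (Sec.pair (t j) (t' j)) :=
    E.apply_symm_apply _
  let P' := compHom K Γ(T, V) (R := fun q : ι × ι => Γ(X, inter₂ W q)) P (j, k)
  let Q' := compHom K Γ(T, V) (R := fun q : ι × ι => Γ(X, inter₂ W q)) Q (j, k)
  have hP' : boxHom K (inter₂ W (j, k)) V P' = crossPair t t' (j, k) := congrFun hP (j, k)
  have hQ' : boxHom K (inter₂ W (j, k)) V Q' = selfPair t t' (j, k) := congrFun hQ (j, k)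
  have hQA : CechDatum.ext Γ(T, V) (rsAlg (K := K) hOW) A =
      CechDatum.ext Γ(T, V) (rsAlg (K := K) hO₂) Q' := by
    apply (boxHom_bijective_of_isAffineOpen hOaff hV).1
    rw [boxHom_ext, boxHom_ext, hA, hQ', selfPair, rs_rs, rs_rs]
  have hPu : CechDatum.ext Γ(T, V) (rsAlg (K := K) hOW) u =
      (rs (inf_le_left : O ≤ W' i) (b i) ^ N) ⊗ₜ 1 *
        CechDatum.ext Γ(T, V) (rsAlg (K := K) hO₂) P' := by
    apply (boxHom_bijective_of_isAffineOpen hOaff hV).1
    rw [boxHom_ext, map_mul, boxHom_ext, hu, hP', boxHom_tmul_one, Sec.rs_pair]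
    have hτ : Sec.res (box_mono hOW le_rfl) τ =
        pb (p₁ K X T) (box_le_left O V) (rs (inf_le_left : O ≤ W' i) (b i) ^ N) •
          Sec.res (box_mono (inf_le_right : O ≤ W k) le_rfl) (t' k) := by
      have h2 := congrArg (Sec.res hOb) (hτ₀ i)
      rw [Sec.res_smul, Sec.res_res, Sec.res_res, rs_rs] at h2
      show Sec.res _ (bb i ^ (N - e i) • τ₀ i) = _
      rw [Sec.res_smul, h2, ← mul_smul, ← map_mul, ← pow_add,
        Nat.sub_add_cancel (Finset.le_sup (f := e) (Finset.mem_univ i)), map_pow, map_pow, rs_pb,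
        pb_rs]
    rw [hτ, Sec.pair_smul_right, crossPair, Sec.rs_pair, Sec.res_res, Sec.res_res, Sec.res_res]
  -- the value of `A` at the origin is `1`
  have hA1 : evC Γ(X, W' i) (evPt K t₀ ht₀ h₀) A = 1 := by
    rw [evC_eq_rid, ← pb_axisLeft_boxHom h₀, hA, pb_rs]
    have h2 := congrArg (rs hij) (h1 j)
    rw [map_one, rs_pb] at h2
    exact h2
  obtain ⟨w, hw⟩ : ∃ w, coe' Γ(X, W' i) π A * w = 1 := by
    refine IsUnit.exists_right_inv (isUnit_of_evC_eq_one (Ideal.Quotient.liftₐ _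
      (evPt K t₀ ht₀ h₀) (Ideal.pow_le_self n.succ_ne_zero)) ?_ ?_)
    · intro z hz
      obtain ⟨y, rfl⟩ := Ideal.Quotient.mk_surjective z
      exact ⟨n + 1, by
        rw [← map_pow, Ideal.Quotient.eq_zero_iff_mem]
        exact Ideal.pow_mem_pow (show y ∈ RingHom.ker (evPt K t₀ ht₀ h₀) from hz) _⟩
    · rw [evC_coe']
      exact hA1
  -- the system at `(j, k)`
  let aj := compHom K _ (R := fun i => Γ(X, W i)) a j
  let ak := compHom K _ (R := fun i => Γ(X, W i)) a k
  have hsol : coe' Γ(X, inter₂ W (j, k)) π P' *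
        CechDatum.ext _ (rsAlg (K := K) (U := W j) (V := inter₂ W (j, k)) inf_le_left) aj =
      coe' Γ(X, inter₂ W (j, k)) π Q' *
        CechDatum.ext _ (rsAlg (K := K) (U := W k) (V := inter₂ W (j, k)) inf_le_right) ak := by
    have h2 := congrArg (fun z => compHom K _ (R := fun q : ι × ι => Γ(X, inter₂ W q)) z (j, k)) ha
    have e1 := congrFun (map_mul (compHom K _ (R := fun q : ι × ι => Γ(X, inter₂ W q)))
      (coe' (coverDatum K W).R₁ π P) (CechDatum.ext _ (coverDatum K W).α a)) (j, k)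
    have e2 := congrFun (map_mul (compHom K _ (R := fun q : ι × ι => Γ(X, inter₂ W q)))
      (coe' (coverDatum K W).R₁ π Q) (CechDatum.ext _ (coverDatum K W).β a)) (j, k)
    exact ((congrArg₂ (· * ·) (compHom_coe' (R := fun q : ι × ι => Γ(X, inter₂ W q)) π P (j, k)) (compHom_ext (R := fun i => Γ(X, W i)) (R' := fun q : ι × ι => Γ(X, inter₂ W q)) Prod.fst
        (fun q => rsAlg (K := K) inf_le_left) a (j, k))).symm.trans
      (e1.symm.trans h2)).trans (e2.trans (congrArg₂ (· * ·) (compHom_coe' (R := fun q : ι × ι => Γ(X, inter₂ W q)) π Q (j, k))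
        (compHom_ext (R := fun i => Γ(X, W i)) (R' := fun q : ι × ι => Γ(X, inter₂ W q)) Prod.snd
        (fun q => rsAlg (K := K) inf_le_right) a (j, k))))
  -- the section with bounded poles
  refine ⟨TensorProduct.rid K Γ(X, W' i) (φ.lTensor _
    (coe' Γ(X, W' i) π u * CechDatum.ext _ (rsAlg (K := K) hij) aj * w)), ?_⟩
  rw [← rsAlg_apply (K := K) (inf_le_left : O ≤ W' i), ← rid_lTensor_ext,
    ← rsAlg_apply (K := K) (inf_le_right : O ≤ W k), ← rid_lTensor_ext,
    ← rid_lTensor_tmul_one_mul]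
  congr 2
  have h2 := congrArg (CechDatum.ext _ (rsAlg (K := K) hO₂)) hsol
  rw [map_mul, map_mul, ext_rs_rs, ext_rs_rs, ext_coe', ext_coe', ← hQA] at h2
  have h3 := congrArg (coe' Γ(X, O) π) hPu
  rw [map_mul, Algebra.TensorProduct.map_tmul, map_one, AlgHom.coe_id, id_eq] at h3
  have h4 := congrArg (CechDatum.ext _ (rsAlg (K := K) hOW)) hw
  rw [map_one, map_mul, ext_coe'] at h4
  rw [map_mul, map_mul, ext_rs_rs, ext_coe', h3, mul_assoc _ (coe' _ π _), h2]
  linear_combination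
    ((rs (inf_le_left : O ≤ W' i) (b i) ^ N) ⊗ₜ 1 *
      CechDatum.ext _ (rsAlg (K := K) (inf_le_right : O ≤ W k)) ak) * h4

theorem exists_bound [AlgebraicGeometry.IsIntegral X] (g : ℕ)
    [IsProper (X ↘ Spec (CommRingCat.of K))]
    [SmoothOfRelativeDimension g (X ↘ Spec (CommRingCat.of K))]
    [IsSeparated (T ↘ Spec (CommRingCat.of K))]
    {t₀ : Spec (CommRingCat.of K) ⟶ T} {ht₀ : t₀ ≫ (T ↘ Spec (CommRingCat.of K)) = 𝟙 _}
    {L : LB (prod K X T)} {ι : Type} [Finite ι] {W : ι → X.Opens} (hW : ∀ i, IsAffineOpen (W i))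
    (hW₂ : ∀ p, IsAffineOpen (inter₂ W p))
    (hcov : ⊤ ≤ ⨆ i, W i) {V : T.Opens} (hV : IsAffineOpen V) (h₀ : ⊤ ≤ t₀ ⁻¹ᵁ V)
    (t : ∀ i, Sec L (box K (W i) V)) (t' : ∀ i, Sec L.inv (box K (W i) V))
    (h1 : ∀ i, pb (axisLeft (X := X) K t₀ ht₀) (le_axisLeft_preimage (U := W i) h₀)
      (Sec.pair (t i) (t' i)) = 1)
    (P Q : (coverDatum K W).R₁ ⊗[K] Γ(T, V)) (hP : secs K (inter₂ W) V P = crossPair t t')
    (hQ : secs K (inter₂ W) V Q = selfPair t t') :
    ∃ M : Submodule K (coverDatum K W).R₀, Module.Finite K M ∧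
      ∀ (n : ℕ) (a : (coverDatum K W).R₀ ⊗[K] (Γ(T, V) ⧸ RingHom.ker (evPt K t₀ ht₀ h₀) ^ (n + 1))),
        (coverDatum K W).IsSolution _
          (coe' (coverDatum K W).R₁ (Ideal.Quotient.mkₐ K _) P)
          (coe' (coverDatum K W).R₁ (Ideal.Quotient.mkₐ K _) Q) a →
        a ∈ LinearMap.range (M.subtype.rTensor
          (Γ(T, V) ⧸ RingHom.ker (evPt K t₀ ht₀ h₀) ^ (n + 1))) := by
  choose Mk hMk hmem using fun k => exists_bound_component g hW hcov hV h₀ t t' h1 P Q hP hQ k
  have := hMk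
  let M : Submodule K (∀ i, Γ(X, W i)) := Submodule.pi Set.univ Mk
  have hfin : Module.Finite K M := Module.Finite.of_injective
    (LinearMap.pi fun i => ((LinearMap.proj i).comp M.subtype).codRestrict (Mk i)
      fun z => z.2 i trivial) fun z z' h => Subtype.ext (funext fun i =>
        congrArg Subtype.val (congrFun h i))
  refine ⟨M, hfin, fun n a ha => mem_range_subtype_of_forall (R := ∀ i, Γ(X, W i)) M a
    fun φ i _ => ?_⟩
  exact (rid_lTensor_compHom (R := fun i => Γ(X, W i)) φ a i).symm ▸ hmem i n a ha φ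

end FLTA.AbelianVar.Cube
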