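import Fermat.Agent.AbelianVar.Pic
import Fermat.Agent.AbelianVar.Divisor
import Mathlib.AlgebraicGeometry.Morphisms.Flat
import Mathlib.Algebra.Category.Ring.Constructions

/-!
# Sections over boxes in a product over a field

For `X`, `T` over `Spec K`, sections over `U × V` are `Γ(X, U) ⊗ Γ(T, V)`
(`V` affine, `U` quasi-compact quasi-separated), naturally.
-/

set_option autoImplicit false

universe u

open CategoryTheory CategoryTheory.Limits AlgebraicGeometry TopologicalSpace TensorProduct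

noncomputable section

namespace FLTA.AbelianVar.Cube

variable {K : Type u} [Field K]

/-- Sections of a `K`-scheme form a `K`-algebra. -/
scoped instance sectionsAlgebra {X : Scheme.{u}} [X.Over (Spec (CommRingCat.of K))] (U : X.Opens) : Algebra K Γ(X, U) :=
  (secAlgMap (X ↘ (Spec (CommRingCat.of K))) U).toAlgebra

lemma sectionsAlgebra_algebraMap {X : Scheme.{u}} [X.Over (Spec (CommRingCat.of K))] (U : X.Opens) :
    algebraMap K Γ(X, U) = secAlgMap (X ↘ (Spec (CommRingCat.of K))) U := rfl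

lemma rs_algebraMap {X : Scheme.{u}} [X.Over (Spec (CommRingCat.of K))] {U V : X.Opens} (h : V ≤ U) (r : K) :
    rs h (algebraMap K Γ(X, U) r) = algebraMap K Γ(X, V) r := by
  simp only [sectionsAlgebra_algebraMap, secAlgMap, CommRingCat.hom_comp, RingHom.comp_apply]
  exact ConcreteCategory.congr_hom (Scheme.Hom.appLE_map (X ↘ (Spec (CommRingCat.of K))) (U := ⊤) (V := U) (V' := V)
    le_top (homOfLE h).op) _

/-- Restriction as an algebra map. -/
def rsAlg {X : Scheme.{u}} [X.Over (Spec (CommRingCat.of K))] {U V : X.Opens} (h : V ≤ U) : Γ(X, U) →ₐ[K] Γ(X, V) :=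
  { rs h with commutes' := rs_algebraMap h }

@[simp] lemma rsAlg_apply {X : Scheme.{u}} [X.Over (Spec (CommRingCat.of K))] {U V : X.Opens} (h : V ≤ U)
    (a : Γ(X, U)) : rsAlg (K := K) h a = rs h a := rfl

lemma pb_algebraMap {X Y : Scheme.{u}} [X.Over (Spec (CommRingCat.of K))] [Y.Over (Spec (CommRingCat.of K))] (f : X ⟶ Y) [f.IsOver (Spec (CommRingCat.of K))]
    {W : Y.Opens} {V : X.Opens} (h : V ≤ f ⁻¹ᵁ W) (r : K) :
    pb f h (algebraMap K Γ(Y, W) r) = algebraMap K Γ(X, V) r := by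
  simp only [sectionsAlgebra_algebraMap, secAlgMap, CommRingCat.hom_comp, RingHom.comp_apply, pb]
  refine (ConcreteCategory.congr_hom (Scheme.Hom.appLE_comp_appLE f (Y ↘ (Spec (CommRingCat.of K)))
    ⊤ W V le_top h) _).trans ?_
  simp only [comp_over]

/-- Pullback as an algebra map. -/
def pbAlg {X Y : Scheme.{u}} [X.Over (Spec (CommRingCat.of K))] [Y.Over (Spec (CommRingCat.of K))] (f : X ⟶ Y) [f.IsOver (Spec (CommRingCat.of K))]
    {W : Y.Opens} {V : X.Opens} (h : V ≤ f ⁻¹ᵁ W) : Γ(Y, W) →ₐ[K] Γ(X, V) :=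
  { pb f h with commutes' := pb_algebraMap f h }

@[simp] lemma pbAlg_apply {X Y : Scheme.{u}} [X.Over (Spec (CommRingCat.of K))] [Y.Over (Spec (CommRingCat.of K))] (f : X ⟶ Y) [f.IsOver (Spec (CommRingCat.of K))]
    {W : Y.Opens} {V : X.Opens} (h : V ≤ f ⁻¹ᵁ W) (a : Γ(Y, W)) :
    pbAlg (K := K) f h a = pb f h a := rfl

variable (K) in
/-- The product over `Spec K`. -/
abbrev prod (X T : Scheme.{u}) [X.Over (Spec (CommRingCat.of K))] [T.Over (Spec (CommRingCat.of K))] : Scheme.{u} := pullback (X ↘ (Spec (CommRingCat.of K))) (T ↘ (Spec (CommRingCat.of K)))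

variable {X T : Scheme.{u}} [X.Over (Spec (CommRingCat.of K))] [T.Over (Spec (CommRingCat.of K))]

scoped instance prodOver : (prod K X T).Over (Spec (CommRingCat.of K)) := ⟨pullback.fst (X ↘ (Spec (CommRingCat.of K))) (T ↘ (Spec (CommRingCat.of K))) ≫ (X ↘ (Spec (CommRingCat.of K)))⟩

variable (K) in
/-- The first projection. -/
abbrev p₁ (X T : Scheme.{u}) [X.Over (Spec (CommRingCat.of K))] [T.Over (Spec (CommRingCat.of K))] : prod K X T ⟶ X :=
  pullback.fst (X ↘ (Spec (CommRingCat.of K))) (T ↘ (Spec (CommRingCat.of K)))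

variable (K) in
/-- The second projection. -/
abbrev p₂ (X T : Scheme.{u}) [X.Over (Spec (CommRingCat.of K))] [T.Over (Spec (CommRingCat.of K))] : prod K X T ⟶ T :=
  pullback.snd (X ↘ (Spec (CommRingCat.of K))) (T ↘ (Spec (CommRingCat.of K)))

scoped instance : (p₁ K X T).IsOver (Spec (CommRingCat.of K)) where comp_over := rfl
scoped instance : (p₂ K X T).IsOver (Spec (CommRingCat.of K)) where comp_over := pullback.condition.symm

variable (K) in
/-- A box `U × V`. -/
def box (U : X.Opens) (V : T.Opens) : (prod K X T).Opens := (p₁ K X T) ⁻¹ᵁ U ⊓ (p₂ K X T) ⁻¹ᵁ V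

lemma box_le_left (U : X.Opens) (V : T.Opens) : box K U V ≤ (p₁ K X T) ⁻¹ᵁ U := inf_le_left
lemma box_le_right (U : X.Opens) (V : T.Opens) : box K U V ≤ (p₂ K X T) ⁻¹ᵁ V := inf_le_right

lemma box_mono {U U' : X.Opens} {V V' : T.Opens} (hU : U' ≤ U) (hV : V' ≤ V) :
    box K U' V' ≤ box K U V :=
  inf_le_inf ((p₁ K X T).preimage_mono hU) ((p₂ K X T).preimage_mono hV)

lemma box_inf (U U' : X.Opens) (V V' : T.Opens) :
    box K U V ⊓ box K U' V' = box K (U ⊓ U') (V ⊓ V') := by
  simp only [box, Scheme.Hom.preimage_inf]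
  exact inf_inf_inf_comm _ _ _ _

lemma isAffineOpen_box {U : X.Opens} {V : T.Opens} (hU : IsAffineOpen U) (hV : IsAffineOpen V) :
    IsAffineOpen (box K U V) := by
  have : IsAffine _ := hU
  have : IsAffine _ := hV
  have : IsAffine _ := isAffineOpen_top (Spec (CommRingCat.of K))
  exact .of_isIso (Scheme.Hom.isPullback_resLE (IsPullback.of_hasPullback (X ↘ (Spec (CommRingCat.of K))) (T ↘ (Spec (CommRingCat.of K))))
    (US := (⊤ : ((Spec (CommRingCat.of K))).Opens)) (UT := V) (UX := U) (UY := box K U V) le_top le_top rfl).isoPullback.hom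

variable (K) in
/-- `a ⊗ b ↦ p₁^* a · p₂^* b`. -/
def boxHom (U : X.Opens) (V : T.Opens) :
    Γ(X, U) ⊗[K] Γ(T, V) →ₐ[K] Γ(prod K X T, box K U V) :=
  Algebra.TensorProduct.lift (pbAlg (p₁ K X T) (box_le_left U V))
    (pbAlg (p₂ K X T) (box_le_right U V)) fun _ _ => Commute.all _ _

@[simp] lemma boxHom_tmul (U : X.Opens) (V : T.Opens) (a : Γ(X, U)) (b : Γ(T, V)) :
    boxHom K U V (a ⊗ₜ b) =
      pb (p₁ K X T) (box_le_left U V) a * pb (p₂ K X T) (box_le_right U V) b :=
  Algebra.TensorProduct.lift_tmul _ _ _ _ _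

/-- Naturality in both boxes. -/
lemma rs_boxHom {U U' : X.Opens} {V V' : T.Opens} (hU : U' ≤ U) (hV : V' ≤ V)
    (z : Γ(X, U) ⊗[K] Γ(T, V)) :
    rs (box_mono hU hV) (boxHom K U V z) =
      boxHom K U' V' (Algebra.TensorProduct.map (rsAlg (K := K) hU) (rsAlg (K := K) hV) z) := by
  induction z with
  | zero => simp
  | tmul a b =>
    rw [boxHom_tmul, Algebra.TensorProduct.map_tmul, boxHom_tmul, map_mul, rs_pb, rs_pb,
      rsAlg_apply, rsAlg_apply, pb_rs, pb_rs]
  | add x y hx hy => simp only [map_add, hx, hy]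

/-- Naturality under morphisms of both factors. -/
lemma pb_boxHom {X' T' : Scheme.{u}} [X'.Over (Spec (CommRingCat.of K))] [T'.Over (Spec (CommRingCat.of K))] (φ : X' ⟶ X) [φ.IsOver (Spec (CommRingCat.of K))]
    (ψ : T' ⟶ T) [ψ.IsOver (Spec (CommRingCat.of K))] (χ : prod K X' T' ⟶ prod K X T)
    (h₁ : χ ≫ p₁ K X T = p₁ K X' T' ≫ φ) (h₂ : χ ≫ p₂ K X T = p₂ K X' T' ≫ ψ)
    {U : X.Opens} {V : T.Opens} {U' : X'.Opens} {V' : T'.Opens}
    (hU : U' ≤ φ ⁻¹ᵁ U) (hV : V' ≤ ψ ⁻¹ᵁ V) (h : box K U' V' ≤ χ ⁻¹ᵁ box K U V)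
    (z : Γ(X, U) ⊗[K] Γ(T, V)) :
    pb χ h (boxHom K U V z) =
      boxHom K U' V' (Algebra.TensorProduct.map (pbAlg (K := K) φ hU) (pbAlg (K := K) ψ hV) z) := by
  induction z with
  | zero => simp
  | tmul a b =>
    rw [boxHom_tmul, Algebra.TensorProduct.map_tmul, boxHom_tmul, map_mul, pbAlg_apply,
      pbAlg_apply]
    simp only [pb, ← CommRingCat.comp_apply, Scheme.Hom.appLE_comp_appLE]
    congr 2 <;> simp [h₁, h₂]
  | add x y hx hy => simp only [map_add, hx, hy]

lemma flat_over (Y : Scheme.{u}) [Y.Over (Spec (CommRingCat.of K))] : Flat (Y ↘ (Spec (CommRingCat.of K))) := by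
  infer_instance

/-- Sections over a box are the tensor product. -/
theorem boxHom_bijective {U : X.Opens} {V : T.Opens} (hV : IsAffineOpen V)
    (hU : IsCompact (X := X) U) (hU' : IsQuasiSeparated (α := X) U) :
    Function.Bijective (boxHom K U V) := by
  have H : IsPullback (p₁ K X T) (p₂ K X T) (X ↘ (Spec (CommRingCat.of K))) (T ↘ (Spec (CommRingCat.of K))) := IsPullback.of_hasPullback _ _
  have := flat_over (K := K) T
  have hiso := isIso_pushoutSection_of_isQuasiSeparated_of_flat_right H (US := (⊤ : ((Spec (CommRingCat.of K))).Opens))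
    (UT := V) (UX := U) le_top le_top (UY := box K U V) rfl (isAffineOpen_top (Spec (CommRingCat.of K))) hV hU hU'
  have hpo := (isIso_pushoutSection_iff H _ _ _).mp hiso
  have hpo' : IsPushout (CommRingCat.ofHom (algebraMap K Γ(X, U)))
      (CommRingCat.ofHom (algebraMap K Γ(T, V)))
      (CommRingCat.ofHom (pb (p₁ K X T) (box_le_left U V)))
      (CommRingCat.ofHom (pb (p₂ K X T) (box_le_right U V))) := by
    refine hpo.of_iso (Scheme.ΓSpecIso (CommRingCat.of K)) (Iso.refl _) (Iso.refl _) (Iso.refl _)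
      ?_ ?_ ?_ ?_
    · simp [sectionsAlgebra_algebraMap, secAlgMap]
    · simp [sectionsAlgebra_algebraMap, secAlgMap]
    · simp [pb]
    · simp [pb]
  let e := (CommRingCat.isPushout_tensorProduct K Γ(X, U) Γ(T, V)).isoPushout ≪≫ hpo'.isoPushout.symm
  have he : ∀ z, boxHom K U V z = e.hom z := by
    have hl : CommRingCat.ofHom Algebra.TensorProduct.includeLeftRingHom ≫ e.hom =
        CommRingCat.ofHom (pb (p₁ K X T) (box_le_left U V)) := by simp [e]
    have hr : CommRingCat.ofHom (Algebra.TensorProduct.includeRight (R := K) (A := Γ(X, U))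
          (B := Γ(T, V))).toRingHom ≫ e.hom =
        CommRingCat.ofHom (pb (p₂ K X T) (box_le_right U V)) := by simp [e]
    intro z
    induction z with
    | zero => simp
    | tmul a b =>
      have ha := ConcreteCategory.congr_hom hl a
      have hb := ConcreteCategory.congr_hom hr b
      simp only [CommRingCat.comp_apply, CommRingCat.hom_ofHom] at ha hb
      rw [boxHom_tmul, ← ha, ← hb, ← map_mul]
      congr 1
      simp
    | add x y hx hy => simp only [map_add, hx, hy]
  have := e.commRingCatIsoToRingEquiv.bijective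
  exact (funext he : (boxHom K U V : _ → _) = e.hom) ▸ this

theorem boxHom_bijective_of_isAffineOpen {U : X.Opens} {V : T.Opens} (hU : IsAffineOpen U)
    (hV : IsAffineOpen V) : Function.Bijective (boxHom K U V) :=
  boxHom_bijective hV hU.isCompact hU.isQuasiSeparated

/-- The tensor description of sections over an affine box. -/
def boxEquiv {U : X.Opens} {V : T.Opens} (hU : IsAffineOpen U) (hV : IsAffineOpen V) :
    Γ(X, U) ⊗[K] Γ(T, V) ≃ₐ[K] Γ(prod K X T, box K U V) :=
  AlgEquiv.ofBijective (boxHom K U V) (boxHom_bijective_of_isAffineOpen hU hV)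

end FLTA.AbelianVar.Cube
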