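import Mathlib.RingTheory.TensorProduct.Maps
import Mathlib.RingTheory.Flat.Basic
import Mathlib.RingTheory.Filtration
import Mathlib.RingTheory.Ideal.Quotient.Operations
import Mathlib.RingTheory.Nilpotent.Lemmas
import Mathlib.RingTheory.Noetherian.Basic
import Mathlib.LinearAlgebra.TensorProduct.RightExactness
import Mathlib.LinearAlgebra.TensorProduct.Basis
import Mathlib.LinearAlgebra.Matrix.NonsingularInverse
import Mathlib.LinearAlgebra.Matrix.ToLinearEquiv
import Mathlib.LinearAlgebra.Dual.Lemmas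
import Mathlib.RingTheory.Nilpotent.Basic
import Mathlib.Tactic.LinearCombination
import Mathlib.Tactic.Ring
import Mathlib.RingTheory.Localization.FractionRing

/-!
# Unit cocycles with coefficients: formal triviality and algebraisation

A truncated semi-cosimplicial `K`-algebra `D` (functions on a finite affine cover and on its
double and triple intersections), a coefficient `K`-algebra `B` with a rational point `ev`, and
a multiplicative cocycle `u ∈ R₁ ⊗ B`.

* `exists_trivialisation_mod`: if `H¹` is detected on the faces and `u` is trivial on the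
  faces, then `u` is trivial modulo every power of `ker ev`.
* `exists_solution`: if all these formal trivialisations lie in a fixed finite dimensional space,
  the cocycle has a nonzero global section over `B`.
-/

set_option autoImplicit false

universe u

open TensorProduct Algebra.TensorProduct

namespace FLTA.AbelianVar.Cube

variable (K : Type u) [Field K]

/-- Functions on a cover and on its double and triple intersections. -/
structure CechDatum where
  R₀ : Type u
  R₁ : Type u
  R₂ : Type u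
  [cr₀ : CommRing R₀]
  [cr₁ : CommRing R₁]
  [cr₂ : CommRing R₂]
  [al₀ : Algebra K R₀]
  [al₁ : Algebra K R₁]
  [al₂ : Algebra K R₂]
  α : R₀ →ₐ[K] R₁
  β : R₀ →ₐ[K] R₁
  d₀₁ : R₁ →ₐ[K] R₂
  d₁₂ : R₁ →ₐ[K] R₂
  d₀₂ : R₁ →ₐ[K] R₂
  h₀ : d₀₁.comp α = d₀₂.comp α
  h₁ : d₀₁.comp β = d₁₂.comp α
  h₂ : d₁₂.comp β = d₀₂.comp β

attribute [instance] CechDatum.cr₀ CechDatum.cr₁ CechDatum.cr₂ CechDatum.al₀ CechDatum.al₁
  CechDatum.al₂

variable {K}

namespace CechDatum

variable (D : CechDatum K)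

/-- An additive `1`-cocycle. -/
def IsAddCocycle (c : D.R₁) : Prop := D.d₀₁ c + D.d₁₂ c = D.d₀₂ c

/-- An additive coboundary. -/
def IsAddCoboundary (c : D.R₁) : Prop := ∃ a, c = D.α a - D.β a

/-- All global functions are constants. -/
def GlobalConst : Prop := ∀ a, D.α a = D.β a → ∃ r : K, a = algebraMap K D.R₀ r

/-- A map of data. -/
structure Hom (D' : CechDatum K) where
  f₀ : D.R₀ →ₐ[K] D'.R₀
  f₁ : D.R₁ →ₐ[K] D'.R₁
  hα : f₁.comp D.α = D'.α.comp f₀
  hβ : f₁.comp D.β = D'.β.comp f₀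

variable (C : Type u) [CommRing C] [Algebra K C]

/-- Extension of coefficients of a map. -/
noncomputable abbrev ext {R R' : Type u} [CommRing R] [Algebra K R] [CommRing R'] [Algebra K R']
    (φ : R →ₐ[K] R') : R ⊗[K] C →ₐ[K] R' ⊗[K] C :=
  Algebra.TensorProduct.map φ (AlgHom.id K C)

/-- A multiplicative cocycle with coefficients. -/
def IsUnitCocycle (u : D.R₁ ⊗[K] C) : Prop :=
  ext C D.d₀₁ u * ext C D.d₁₂ u = ext C D.d₀₂ u

/-- `a` is a section of the line bundle defined by `u`. -/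
def IsSection (u : D.R₁ ⊗[K] C) (a : D.R₀ ⊗[K] C) : Prop :=
  ext C D.α a = u * ext C D.β a

/-- `a` solves the homogeneous system `p · α a = q · β a`. -/
def IsSolution (p q : D.R₁ ⊗[K] C) (a : D.R₀ ⊗[K] C) : Prop :=
  p * ext C D.α a = q * ext C D.β a

end CechDatum

section Coeff

variable {R R' : Type u} [CommRing R] [Algebra K R] [CommRing R'] [Algebra K R']
  {C C' : Type u} [CommRing C] [Algebra K C] [CommRing C'] [Algebra K C']

/-- Change of coefficients. -/
noncomputable abbrev coe' (R : Type u) [CommRing R] [Algebra K R] (π : C →ₐ[K] C') :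
    R ⊗[K] C →ₐ[K] R ⊗[K] C' :=
  Algebra.TensorProduct.map (AlgHom.id K R) π

/-- Evaluation of coefficients at a rational point. -/
noncomputable def evC (R : Type u) [CommRing R] [Algebra K R] (e : C →ₐ[K] K) :
    R ⊗[K] C →ₐ[K] R :=
  (Algebra.TensorProduct.rid K K R).toAlgHom.comp (coe' R e)

@[simp] lemma evC_tmul (e : C →ₐ[K] K) (r : R) (c : C) : evC R e (r ⊗ₜ c) = e c • r := by
  simp [evC]

lemma ext_coe' (φ : R →ₐ[K] R') (π : C →ₐ[K] C') (x : R ⊗[K] C) :
    CechDatum.ext C' φ (coe' R π x) = coe' R' π (CechDatum.ext C φ x) := by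
  induction x with
  | zero => simp
  | tmul r c => simp
  | add x y hx hy => simp [map_add, hx, hy]

lemma evC_ext (φ : R →ₐ[K] R') (e : C →ₐ[K] K) (x : R ⊗[K] C) :
    evC R' e (CechDatum.ext C φ x) = φ (evC R e x) := by
  induction x with
  | zero => simp
  | tmul r c => simp
  | add x y hx hy => simp [map_add, hx, hy]

lemma evC_coe' (π : C →ₐ[K] C') (e' : C' →ₐ[K] K) (x : R ⊗[K] C) :
    evC R e' (coe' R π x) = evC R (e'.comp π) x := by
  induction x with
  | zero => simp
  | tmul r c => simp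
  | add x y hx hy => simp [map_add, hx, hy]

/-- An element congruent to `1` modulo nilpotent coefficients is a unit. -/
lemma isUnit_of_evC_eq_one (e : C →ₐ[K] K) (he : ∀ c, e c = 0 → IsNilpotent c) {x : R ⊗[K] C}
    (hx : evC R e x = 1) : IsUnit x := by
  have key : ∀ y : R ⊗[K] C, IsNilpotent (y - evC R e y ⊗ₜ 1) := by
    intro y
    induction y with
    | zero => simp
    | tmul r c =>
      rw [evC_tmul, TensorProduct.smul_tmul, ← TensorProduct.tmul_sub]
      obtain ⟨n, hn⟩ := he (c - e c • 1) (by simp)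
      exact ⟨n, by rw [Algebra.TensorProduct.tmul_pow, hn, TensorProduct.tmul_zero]⟩
    | add y z hy hz =>
      rw [map_add, TensorProduct.add_tmul, add_sub_add_comm]
      exact (Commute.all _ _).isNilpotent_add hy hz
  have h := key x
  rw [hx, ← Algebra.TensorProduct.one_def] at h
  simpa using h.isUnit_add_one

/-- Kernel of a change of coefficients along a small extension. -/
lemma exists_eq_tmul_of_coe'_eq_zero (π : C →ₐ[K] C') (hπ : Function.Surjective π) (ε : C)
    (hε : ∀ c, π c = 0 → ∃ r : K, c = r • ε) {x : R ⊗[K] C} (hx : coe' R π x = 0) :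
    ∃ r : R, x = r ⊗ₜ ε := by
  obtain ⟨s, hs⟩ := π.toLinearMap.exists_rightInverse_of_surjective (LinearMap.range_eq_top.mpr hπ)
  have hs' : ∀ c', π (s c') = c' := fun c' => LinearMap.congr_fun hs c'
  choose r hr using fun c : C => hε (c - s (π c)) (by rw [map_sub, hs', sub_self])
  have main : ∀ y : R ⊗[K] C, ∃ t : R, y = t ⊗ₜ ε + LinearMap.lTensor R s (coe' R π y) := by
    intro y
    induction y with
    | zero => exact ⟨0, by simp⟩
    | tmul a c =>
      refine ⟨r c • a, ?_⟩
      simp only [Algebra.TensorProduct.map_tmul, AlgHom.coe_id, id_eq, LinearMap.lTensor_tmul]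
      rw [TensorProduct.smul_tmul, ← TensorProduct.tmul_add, ← hr, sub_add_cancel]
    | add y z hy hz =>
      obtain ⟨t₁, h₁⟩ := hy
      obtain ⟨t₂, h₂⟩ := hz
      refine ⟨t₁ + t₂, ?_⟩
      rw [map_add, map_add, TensorProduct.add_tmul]
      conv_lhs => rw [h₁, h₂]
      abel
  obtain ⟨t, ht⟩ := main x
  exact ⟨t, by rw [hx, map_zero, add_zero] at ht; exact ht⟩

lemma tmul_left_injective_of_ne_zero {ε : C} (hε : ε ≠ 0) :
    Function.Injective fun r : R => r ⊗ₜ[K] ε := by
  intro a b hab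
  obtain ⟨φ, hφ⟩ := Module.Projective.exists_dual_ne_zero K hε
  have := congrArg (fun z => (TensorProduct.rid K R) (LinearMap.lTensor R φ z)) hab
  simp only [LinearMap.lTensor_tmul, TensorProduct.rid_tmul] at this
  exact smul_right_injective R hφ this

/-- Multiplication against a socle element only sees the value at the rational point. -/
lemma tmul_mul_eq (e : C →ₐ[K] K) (ε : C) (hε : ∀ c, ε * c = e c • ε) (r : R) (x : R ⊗[K] C) :
    r ⊗ₜ ε * x = (r * evC R e x) ⊗ₜ ε := by
  induction x with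
  | zero => simp
  | tmul a c =>
    rw [Algebra.TensorProduct.tmul_mul_tmul, hε, evC_tmul, mul_smul_comm, TensorProduct.smul_tmul]
  | add x y hx hy => rw [mul_add, hx, hy, map_add, mul_add, TensorProduct.add_tmul]

/-- Coordinates commute with multiplication by a coefficient. -/
lemma coord_one_tmul_mul {κ : Type*} [DecidableEq κ] (c : Module.Basis κ K R) (v : C')
    (f : C →ₐ[K] C') (z : R ⊗[K] C) (r : κ) :
    TensorProduct.equivFinsuppOfBasisLeft c ((1 ⊗ₜ v) * coe' R f z) r =
      f (TensorProduct.equivFinsuppOfBasisLeft c z r) * v := by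
  induction z with
  | zero => simp
  | tmul p q =>
    rw [Algebra.TensorProduct.map_tmul, AlgHom.coe_id, id_eq, Algebra.TensorProduct.tmul_mul_tmul,
      one_mul, TensorProduct.equivFinsuppOfBasisLeft_apply_tmul_apply,
      TensorProduct.equivFinsuppOfBasisLeft_apply_tmul_apply, map_smul, smul_mul_assoc, mul_comm v]
  | add p q hp hq =>
    rw [map_add, mul_add, map_add, map_add, Finsupp.add_apply, Finsupp.add_apply, hp, hq, map_add,
      add_mul]

end Coeff

/-- A family of rows with only the trivial relation has a non-degenerate square subfamily. -/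
theorem exists_det_ne_zero {B : Type u} [CommRing B] [IsDomain B] {κ : Type*} {d : ℕ}
    (η : κ → Fin d → B) (hinj : ∀ v : Fin d → B, (∀ r, ∑ i, η r i * v i = 0) → v = 0) :
    ∃ a : Fin d → κ, (Matrix.of fun j i => η (a j) i).det ≠ 0 := by
  classical
  let F := FractionRing B
  let rows : κ → Fin d → F := fun r i => algebraMap B F (η r i)
  have hspan : Submodule.span F (Set.range rows) = ⊤ := by
    by_contra hne
    obtain ⟨φ, hφ0, hφ⟩ := Submodule.exists_le_ker_of_lt_top _ (lt_top_iff_ne_top.mpr hne)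
    let w : Fin d → F := fun i => φ (Pi.single i 1)
    obtain ⟨e, he⟩ := IsLocalization.exist_integer_multiples_of_finite (nonZeroDivisors B) w
    choose v hv using he
    have hv0 : v = 0 := hinj v fun r => by
      apply IsFractionRing.injective B F
      have hr : φ (rows r) = 0 := hφ (Submodule.subset_span ⟨r, rfl⟩)
      have hexp : φ (rows r) = ∑ i, rows r i * w i := by
        conv_lhs => rw [pi_eq_sum_univ' (rows r)]
        simp [map_sum, w]
      rw [map_sum, map_zero]
      rw [hexp] at hr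
      calc ∑ i, algebraMap B F (η r i * v i)
          = ∑ i, algebraMap B F (e : B) * (rows r i * w i) :=
            Finset.sum_congr rfl fun i _ => by
              rw [map_mul, hv i, Algebra.smul_def]; simp only [rows]; ring
        _ = 0 := by rw [← Finset.mul_sum, hr, mul_zero]
    refine hφ0 ((Pi.basisFun F _).ext fun i => ?_)
    have hwi := hv i
    rw [hv0, Pi.zero_apply, map_zero, Algebra.smul_def] at hwi
    rcases mul_eq_zero.mp hwi.symm with h | h
    · exact absurd h ((map_ne_zero_iff _ (IsFractionRing.injective B F)).mpr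
        (nonZeroDivisors.ne_zero e.2))
    · simpa [w] using h
  obtain ⟨ι, a, -, hsp, hli⟩ := exists_linearIndependent' F rows
  have hbas : Module.Basis ι F (Fin d → F) := Module.Basis.mk hli (by rw [hsp, hspan])
  let σ : Fin d ≃ ι := (Pi.basisFun F _).indexEquiv hbas
  refine ⟨a ∘ σ, fun h0 => ?_⟩
  set N : Matrix (Fin d) (Fin d) B := Matrix.of fun j i => η ((a ∘ σ) j) i with hN
  have h1 : (N.map (algebraMap B F)).det = 0 := by
    rw [← RingHom.mapMatrix_apply, ← RingHom.map_det, h0, map_zero]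
  have h2 : LinearIndependent F (N.map (algebraMap B F)).row := (linearIndependent_equiv σ).mpr hli
  exact ((Matrix.isUnit_iff_isUnit_det _).mp
    (Matrix.linearIndependent_rows_iff_isUnit.mp h2)).ne_zero h1

namespace CechDatum

variable {D : CechDatum K}

/-- Global functions with coefficients are coefficients. -/
lemma GlobalConst.exists_eq_one_tmul (h : D.GlobalConst) {C : Type u} [CommRing C] [Algebra K C]
    {a : D.R₀ ⊗[K] C} (ha : ext C D.α a = ext C D.β a) : ∃ c : C, a = 1 ⊗ₜ c := by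
  let d : D.R₀ →ₗ[K] D.R₁ := D.α.toLinearMap - D.β.toLinearMap
  have hex : Function.Exact (Algebra.linearMap K D.R₀) d := by
    intro x
    constructor
    · intro hx
      obtain ⟨r, hr⟩ := h x (sub_eq_zero.mp hx)
      exact ⟨r, hr.symm⟩
    · rintro ⟨r, rfl⟩
      simp [d, AlgHom.commutes]
  have hd : ∀ y : D.R₀ ⊗[K] C, LinearMap.rTensor C d y = ext C D.α y - ext C D.β y := by
    intro y
    induction y with
    | zero => simp
    | tmul r c => simp [d, TensorProduct.sub_tmul]
    | add y z hy hz => simp only [map_add, hy, hz]; abel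
  obtain ⟨y, hy⟩ := ((Module.Flat.rTensor_exact C hex) a).mp (by rw [hd, ha, sub_self])
  refine ⟨TensorProduct.lid K C y, ?_⟩
  rw [← hy]
  clear hy ha a
  induction y with
  | zero => simp
  | tmul r c =>
    rw [LinearMap.rTensor_tmul, TensorProduct.lid_tmul, Algebra.linearMap_apply,
      Algebra.algebraMap_eq_smul_one, TensorProduct.smul_tmul]
  | add y z hy hz => rw [map_add, map_add, TensorProduct.tmul_add, ← hy, ← hz]

variable {B : Type u} [CommRing B] [Algebra K B]

/-- One step along a small extension. -/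
theorem exists_section_step {Dl Dr : CechDatum K} (φl : D.Hom Dl) (φr : D.Hom Dr)
    (hl : Dl.GlobalConst) (hr : Dr.GlobalConst)
    (hK : ∀ c, D.IsAddCocycle c → Dl.IsAddCoboundary (φl.f₁ c) →
      Dr.IsAddCoboundary (φr.f₁ c) → D.IsAddCoboundary c)
    {C C' : Type u} [CommRing C] [Algebra K C] [CommRing C'] [Algebra K C']
    (π : C →ₐ[K] C') (hπ : Function.Surjective π) (e : C →ₐ[K] K) (e' : C' →ₐ[K] K)
    (hee : e'.comp π = e) (henil : ∀ c, e c = 0 → IsNilpotent c)
    (ε : C) (hε0 : ε ≠ 0) (hεe : e ε = 0) (hεm : ∀ c, ε * c = e c • ε)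
    (hεk : ∀ c, π c = 0 → ∃ r : K, c = r • ε) (hπε : π ε = 0)
    (u : D.R₁ ⊗[K] C) (hu : D.IsUnitCocycle C u) (hu1 : evC D.R₁ e u = 1)
    (wl : Dl.R₀ ⊗[K] C) (hwl : Dl.IsSection C (ext C φl.f₁ u) wl) (hwl1 : evC Dl.R₀ e wl = 1)
    (wr : Dr.R₀ ⊗[K] C) (hwr : Dr.IsSection C (ext C φr.f₁ u) wr) (hwr1 : evC Dr.R₀ e wr = 1)
    (a' : D.R₀ ⊗[K] C') (ha' : D.IsSection C' (coe' D.R₁ π u) a') (ha'1 : evC D.R₀ e' a' = 1) :
    ∃ a : D.R₀ ⊗[K] C, D.IsSection C u a ∧ evC D.R₀ e a = 1 := by
  obtain ⟨s, hs⟩ := π.toLinearMap.exists_rightInverse_of_surjective (LinearMap.range_eq_top.mpr hπ)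
  obtain ⟨a, ha⟩ : ∃ a : D.R₀ ⊗[K] C, coe' D.R₀ π a = a' := by
    refine ⟨LinearMap.lTensor _ s a', ?_⟩
    clear ha' ha'1
    induction a' using TensorProduct.induction_on with
    | zero => simp
    | tmul r c =>
      simp only [LinearMap.lTensor_tmul, Algebra.TensorProduct.map_tmul, AlgHom.coe_id, id_eq]
      rw [show π (s c) = c from LinearMap.congr_fun hs c]
    | add x y hx hy => rw [map_add, map_add, hx, hy]
  have ha1 : evC D.R₀ e a = 1 := by rw [← hee, ← evC_coe', ha, ha'1]
  obtain ⟨c, hc⟩ : ∃ c, ext C D.α a - u * ext C D.β a = c ⊗ₜ ε := by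
    refine exists_eq_tmul_of_coe'_eq_zero π hπ ε hεk ?_
    rw [map_sub, map_mul, ← ext_coe', ← ext_coe', ha, ha', sub_self]
  -- `c` is an additive cocycle
  have hcc : D.IsAddCocycle c := by
    refine tmul_left_injective_of_ne_zero (K := K) hε0 ?_
    show (D.d₀₁ c + D.d₁₂ c) ⊗ₜ[K] ε = D.d₀₂ c ⊗ₜ[K] ε
    have key : ∀ d : D.R₁ →ₐ[K] D.R₂,
        d c ⊗ₜ[K] ε = ext C d (ext C D.α a) - ext C d u * ext C d (ext C D.β a) := fun d => by
      rw [← map_mul, ← map_sub, hc]; simp
    have comp : ∀ (d : D.R₁ →ₐ[K] D.R₂) (γ : D.R₀ →ₐ[K] D.R₁),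
        ext C d (ext C γ a) = ext C (d.comp γ) a := fun d γ => by
      have : ∀ x, ext C d (ext C γ x) = ext C (d.comp γ) x := fun x => by
        induction x with
        | zero => simp
        | tmul r c => simp
        | add x y hx hy => simp [map_add, hx, hy]
      exact this a
    have hd : evC D.R₂ e (ext C D.d₀₁ u) = 1 := by rw [evC_ext, hu1, map_one]
    have h12 : D.d₁₂ c ⊗ₜ[K] ε = D.d₁₂ c ⊗ₜ ε * ext C D.d₀₁ u := by
      rw [tmul_mul_eq e ε hεm, hd, mul_one]
    rw [TensorProduct.add_tmul, h12, key D.d₀₁, key D.d₁₂, key D.d₀₂, comp, comp, comp, comp,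
      comp, comp, D.h₀, D.h₁, D.h₂, ← hu]
    ring
  -- it is a coboundary on each face
  have hface : ∀ {D' : CechDatum K} (φ : D.Hom D') (_ : D'.GlobalConst) (w : D'.R₀ ⊗[K] C),
      D'.IsSection C (ext C φ.f₁ u) w → evC D'.R₀ e w = 1 →
      D'.IsAddCoboundary (φ.f₁ c) := by
    intro D' φ hD' w hw hw1
    have hwu : IsUnit w := isUnit_of_evC_eq_one e henil hw1
    have comm : ∀ (γ : D.R₀ →ₐ[K] D.R₁) (γ' : D'.R₀ →ₐ[K] D'.R₁),
        φ.f₁.comp γ = γ'.comp φ.f₀ → ext C γ' (ext C φ.f₀ a) = ext C φ.f₁ (ext C γ a) := by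
      intro γ γ' hγ
      have : ∀ x, ext C γ' (ext C φ.f₀ x) = ext C φ.f₁ (ext C γ x) := fun x => by
        induction x with
        | zero => simp
        | tmul r c =>
          simp only [Algebra.TensorProduct.map_tmul, AlgHom.coe_id, id_eq]
          rw [show φ.f₁ (γ r) = γ' (φ.f₀ r) from AlgHom.congr_fun hγ r]
        | add x y hx hy => simp [map_add, hx, hy]
      exact this a
    obtain ⟨v, hv⟩ := hwu.exists_right_inv
    let z := ext C φ.f₀ a * v
    -- modulo `ε` the ratio is a global function, hence a constant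
    obtain ⟨c', hc'⟩ : ∃ c', coe' D'.R₀ π z = 1 ⊗ₜ c' := by
      refine hD'.exists_eq_one_tmul ?_
      have hfa : coe' D'.R₁ π (ext C D'.α (ext C φ.f₀ a)) =
          coe' D'.R₁ π (ext C φ.f₁ u * ext C D'.β (ext C φ.f₀ a)) := by
        rw [comm _ _ φ.hα, comm _ _ φ.hβ, ← map_mul, ← sub_eq_zero, ← map_sub, ← map_sub, hc]
        simp [hπε]
      have hvv : ext C D'.α v * ext C φ.f₁ u = ext C D'.β v := by
        have h1 : ext C D'.α w * ext C D'.α v = 1 := by rw [← map_mul, hv, map_one]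
        have h2 : ext C D'.β w * ext C D'.β v = 1 := by rw [← map_mul, hv, map_one]
        rw [hw] at h1
        linear_combination (ext C D'.β v) * h1 - (ext C D'.α v * ext C φ.f₁ u) * h2
      rw [ext_coe', ext_coe', map_mul, map_mul, map_mul, hfa, map_mul, ← hvv]
      simp only [map_mul]
      ring
    obtain ⟨cl, hcl⟩ := hπ c'
    obtain ⟨t, ht⟩ : ∃ t, ext C φ.f₀ a - (1 ⊗ₜ cl) * w = t ⊗ₜ ε := by
      refine exists_eq_tmul_of_coe'_eq_zero π hπ ε hεk ?_
      have : ext C φ.f₀ a = z * w := by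
        simp only [z]; rw [mul_assoc, mul_comm v, hv, mul_one]
      rw [this, ← sub_mul, map_mul, map_sub, hc']
      simp [hcl]
    refine ⟨t, tmul_left_injective_of_ne_zero (K := K) hε0 ?_⟩
    show φ.f₁ c ⊗ₜ[K] ε = (D'.α t - D'.β t) ⊗ₜ[K] ε
    have h1 : φ.f₁ c ⊗ₜ[K] ε = ext C D'.α (ext C φ.f₀ a) -
        ext C φ.f₁ u * ext C D'.β (ext C φ.f₀ a) := by
      rw [comm _ _ φ.hα, comm _ _ φ.hβ, ← map_mul, ← map_sub, hc]; simp
    have h2 : D'.α t ⊗ₜ[K] ε = ext C D'.α (ext C φ.f₀ a) - (1 ⊗ₜ cl) * ext C D'.α w := by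
      have := congrArg (ext C D'.α) ht
      simpa using this.symm
    have h3 : D'.β t ⊗ₜ[K] ε = ext C D'.β (ext C φ.f₀ a) - (1 ⊗ₜ cl) * ext C D'.β w := by
      have := congrArg (ext C D'.β) ht
      simpa using this.symm
    have h4 : D'.β t ⊗ₜ[K] ε = D'.β t ⊗ₜ ε * ext C φ.f₁ u := by
      rw [tmul_mul_eq e ε hεm, evC_ext, hu1, map_one, mul_one]
    rw [TensorProduct.sub_tmul, h1, h2, h4, h3, hw]
    ring
  obtain ⟨t, ht⟩ := hK c hcc (hface φl hl wl hwl hwl1) (hface φr hr wr hwr hwr1)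
  refine ⟨a - t ⊗ₜ ε, ?_, ?_⟩
  · show ext C D.α (a - t ⊗ₜ ε) = u * ext C D.β (a - t ⊗ₜ ε)
    have h4 : u * D.β t ⊗ₜ[K] ε = D.β t ⊗ₜ ε := by
      rw [mul_comm, tmul_mul_eq e ε hεm, hu1, mul_one]
    simp only [map_sub, Algebra.TensorProduct.map_tmul, AlgHom.coe_id, id_eq, mul_sub, h4]
    rw [ht, TensorProduct.sub_tmul] at hc
    linear_combination hc
  · rw [map_sub, ha1, evC_tmul, hεe, zero_smul, sub_zero]

/-- Formal triviality. -/
theorem exists_trivialisation_mod [IsNoetherianRing B] {Dl Dr : CechDatum K}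
    (φl : D.Hom Dl) (φr : D.Hom Dr) (hl : Dl.GlobalConst) (hr : Dr.GlobalConst)
    (hK : ∀ c, D.IsAddCocycle c → Dl.IsAddCoboundary (φl.f₁ c) →
      Dr.IsAddCoboundary (φr.f₁ c) → D.IsAddCoboundary c)
    (ev : B →ₐ[K] K) (u : D.R₁ ⊗[K] B) (hu : D.IsUnitCocycle B u) (hu1 : evC D.R₁ ev u = 1)
    (wl : Dl.R₀ ⊗[K] B) (hwl : Dl.IsSection B (ext B φl.f₁ u) wl) (hwl1 : evC Dl.R₀ ev wl = 1)
    (wr : Dr.R₀ ⊗[K] B) (hwr : Dr.IsSection B (ext B φr.f₁ u) wr) (hwr1 : evC Dr.R₀ ev wr = 1)
    (n : ℕ) (J : Ideal B) (hJn : RingHom.ker ev ^ n ≤ J) (hJ : J ≤ RingHom.ker ev) :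
    ∃ a : D.R₀ ⊗[K] (B ⧸ J), D.IsSection (B ⧸ J) (coe' D.R₁ (Ideal.Quotient.mkₐ K J) u) a ∧
      evC D.R₀ (Ideal.Quotient.liftₐ J ev hJ) a = 1 := by
  revert hJn hJ
  apply IsNoetherian.induction (R := B) (M := B) (P := fun J => RingHom.ker ev ^ n ≤ J →
    ∀ hJ : J ≤ RingHom.ker ev,
    ∃ a : D.R₀ ⊗[K] (B ⧸ J), D.IsSection (B ⧸ J) (coe' D.R₁ (Ideal.Quotient.mkₐ K J) u) a ∧
      evC D.R₀ (Ideal.Quotient.liftₐ J ev hJ) a = 1) ?_ J
  intro I ih hIn hI
  set m := RingHom.ker ev with hm
  set e := Ideal.Quotient.liftₐ I ev hI with he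
  have he_mk : e.comp (Ideal.Quotient.mkₐ K I) = ev := AlgHom.ext fun x => rfl
  rcases eq_or_lt_of_le hI with heq | hlt
  · -- coefficients `K`: take `1`
    refine ⟨1, ?_, map_one _⟩
    show ext _ D.α 1 = coe' D.R₁ (Ideal.Quotient.mkₐ K I) u * ext _ D.β 1
    rw [map_one, map_one, mul_one]
    obtain ⟨c, hc⟩ := exists_eq_tmul_of_coe'_eq_zero (R := D.R₁) e
      (fun r => ⟨algebraMap K _ r, e.commutes r⟩) 0 (fun x hx => ⟨0, by
        obtain ⟨y, rfl⟩ := Ideal.Quotient.mk_surjective x
        rw [smul_zero, Ideal.Quotient.eq_zero_iff_mem, heq]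
        exact hx⟩) (x := coe' D.R₁ (Ideal.Quotient.mkₐ K I) u - 1) (by
        apply (Algebra.TensorProduct.rid K K D.R₁).injective
        rw [map_sub, map_sub, map_zero, map_one, map_one, sub_eq_zero]
        show evC D.R₁ e (coe' D.R₁ (Ideal.Quotient.mkₐ K I) u) = 1
        rw [evC_coe', he_mk, hu1])
    rw [TensorProduct.tmul_zero, sub_eq_zero] at hc
    exact hc.symm
  · -- a socle element
    obtain ⟨k, hk, hk'⟩ : ∃ k, m ^ (k + 1) ≤ I ∧ ¬ m ^ k ≤ I := by
      classical
      have hex : ∃ k, m ^ k ≤ I := ⟨n, hIn⟩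
      obtain ⟨k, hk⟩ : ∃ k, Nat.find hex = k + 1 := by
        refine Nat.exists_eq_succ_of_ne_zero fun h0 => ?_
        have h1 := Nat.find_spec hex
        rw [h0, pow_zero, Ideal.one_eq_top] at h1
        exact hlt.not_ge (le_top.trans h1)
      exact ⟨k, hk ▸ Nat.find_spec hex, Nat.find_min hex (by lia)⟩
    have hk0 : k ≠ 0 := by
      rintro rfl
      rw [zero_add, pow_one] at hk
      exact hlt.not_ge hk
    obtain ⟨ε, hεk, hεI⟩ := Set.not_subset.mp hk'
    have hεm : ε ∈ m := Ideal.pow_le_self hk0 hεk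
    have hsoc : ∀ x, ε * x - ev x • ε ∈ I := fun x => by
      have hxm : x - algebraMap K B (ev x) ∈ m := by simp [hm]
      have : ε * (x - algebraMap K B (ev x)) ∈ I := hk (pow_succ m k ▸ Ideal.mul_mem_mul hεk hxm)
      rwa [mul_sub, mul_comm ε (algebraMap K B _), ← Algebra.smul_def] at this
    set I' := I ⊔ Ideal.span {ε}
    have hlt' : I < I' := lt_of_le_of_ne le_sup_left fun h => hεI
      (h ▸ Ideal.mem_sup_right (Ideal.mem_span_singleton_self ε))
    have hI' : I' ≤ m := sup_le hI ((Ideal.span_singleton_le_iff_mem _).mpr hεm)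
    obtain ⟨a', ha', ha'1⟩ := ih I' hlt' (hIn.trans le_sup_left) hI'
    set π := Ideal.Quotient.factorₐ K (le_sup_left : I ≤ I')
    have hcomp : π.comp (Ideal.Quotient.mkₐ K I) = Ideal.Quotient.mkₐ K I' :=
      AlgHom.ext fun x => rfl
    refine exists_section_step φl φr hl hr hK π
      (Ideal.Quotient.factor_surjective le_sup_left) e (Ideal.Quotient.liftₐ I' ev hI') ?_ ?_
      (Ideal.Quotient.mk I ε) (fun h => hεI (Ideal.Quotient.eq_zero_iff_mem.mp h)) hεm ?_ ?_ ?_
      (coe' D.R₁ (Ideal.Quotient.mkₐ K I) u) ?_ ?_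
      (coe' Dl.R₀ (Ideal.Quotient.mkₐ K I) wl) ?_ ?_
      (coe' Dr.R₀ (Ideal.Quotient.mkₐ K I) wr) ?_ ?_ a' ?_ ha'1
    · exact Ideal.Quotient.algHom_ext K (AlgHom.ext fun x => rfl)
    · intro c hc
      obtain ⟨x, rfl⟩ := Ideal.Quotient.mk_surjective c
      exact ⟨n, by rw [← map_pow, Ideal.Quotient.eq_zero_iff_mem]
                   exact hIn (Ideal.pow_mem_pow hc n)⟩
    · intro c
      obtain ⟨x, rfl⟩ := Ideal.Quotient.mk_surjective c
      rw [← map_mul]
      exact (Ideal.Quotient.eq.mpr (hsoc x))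
    · intro c hc
      obtain ⟨x, rfl⟩ := Ideal.Quotient.mk_surjective c
      obtain ⟨y, hy, z, hz, rfl⟩ := Submodule.mem_sup.mp (Ideal.Quotient.eq_zero_iff_mem.mp hc)
      obtain ⟨q, rfl⟩ := Ideal.mem_span_singleton'.mp hz
      refine ⟨ev q, ?_⟩
      rw [map_add, Ideal.Quotient.eq_zero_iff_mem.mpr hy, zero_add, mul_comm]
      exact Ideal.Quotient.eq.mpr (hsoc q)
    · exact Ideal.Quotient.eq_zero_iff_mem.mpr
        (Ideal.mem_sup_right (Ideal.mem_span_singleton_self ε))
    · show ext _ D.d₀₁ (coe' _ _ u) * ext _ D.d₁₂ (coe' _ _ u) = ext _ D.d₀₂ (coe' _ _ u)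
      rw [ext_coe', ext_coe', ext_coe', ← map_mul, hu]
    · rw [evC_coe', he_mk, hu1]
    · show ext _ Dl.α (coe' _ _ wl) = ext _ φl.f₁ (coe' _ _ u) * ext _ Dl.β (coe' _ _ wl)
      rw [ext_coe', ext_coe', ext_coe', hwl, map_mul]
    · rw [evC_coe', he_mk, hwl1]
    · show ext _ Dr.α (coe' _ _ wr) = ext _ φr.f₁ (coe' _ _ u) * ext _ Dr.β (coe' _ _ wr)
      rw [ext_coe', ext_coe', ext_coe', hwr, map_mul]
    · rw [evC_coe', he_mk, hwr1]
    · have hc2 : coe' D.R₁ π (coe' D.R₁ (Ideal.Quotient.mkₐ K I) u) =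
          coe' D.R₁ (Ideal.Quotient.mkₐ K I') u := by
        rw [← AlgHom.comp_apply, ← Algebra.TensorProduct.map_comp, AlgHom.comp_id, hcomp]
      rw [hc2]
      exact ha'

/-- Algebraisation: formal sections inside a finite dimensional space give an actual section. -/
theorem exists_solution [IsNoetherianRing B] [IsDomain B] (ev : B →ₐ[K] K)
    (p q : D.R₁ ⊗[K] B) (M : Submodule K D.R₀) [Module.Finite K M]
    (h : ∀ n : ℕ, ∃ a : M ⊗[K] (B ⧸ RingHom.ker ev ^ (n + 1)),
      D.IsSolution _ (coe' D.R₁ (Ideal.Quotient.mkₐ K _) p)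
        (coe' D.R₁ (Ideal.Quotient.mkₐ K _) q) (LinearMap.rTensor _ M.subtype a) ∧
      evC D.R₀ (Ideal.Quotient.liftₐ _ ev (Ideal.pow_le_self n.succ_ne_zero))
        (LinearMap.rTensor _ M.subtype a) ≠ 0) :
    ∃ a : D.R₀ ⊗[K] B, a ≠ 0 ∧ D.IsSolution B p q a := by
  classical
  set m := RingHom.ker ev with hm
  let b := Module.finBasis K M
  let c := Module.Basis.ofVectorSpace K D.R₁
  let g : Fin (Module.finrank K M) → D.R₁ ⊗[K] B := fun i =>
    p * (D.α (b i : D.R₀)) ⊗ₜ 1 - q * (D.β (b i : D.R₀)) ⊗ₜ 1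
  let coord : D.R₁ ⊗[K] B →ₗ[K] _ →₀ B := (TensorProduct.equivFinsuppOfBasisLeft c).toLinearMap
  let η : _ → Fin (Module.finrank K M) → B := fun r i => coord (g i) r
  by_contra hcon
  push Not at hcon
  -- no relation over `B` among the columns
  have hinj : ∀ v : Fin (Module.finrank K M) → B, (∀ r, ∑ i, η r i * v i = 0) → v = 0 := by
    intro v hv
    by_contra hv0
    refine hcon (∑ i, (b i : D.R₀) ⊗ₜ v i) ?_ ?_
    · intro h0
      refine hv0 (funext fun i => ?_)
      have hbi : LinearIndependent K (fun i => (b i : D.R₀)) :=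
        b.linearIndependent.map' M.subtype M.ker_subtype
      obtain ⟨φ, hφ⟩ := LinearMap.exists_leftInverse_of_injective
        (Fintype.linearCombination K fun i => (b i : D.R₀))
        (LinearMap.ker_eq_bot.mpr hbi.fintypeLinearCombination_injective)
      have h1 := congrArg (fun z => TensorProduct.lid K B
        (LinearMap.rTensor B ((LinearMap.proj i).comp φ) z)) h0
      simp only [map_sum, LinearMap.rTensor_tmul, map_zero, TensorProduct.lid_tmul,
        LinearMap.comp_apply, LinearMap.proj_apply] at h1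
      have hb : ∀ j, φ (b j : D.R₀) = Pi.single j 1 := fun j => by
        have := LinearMap.congr_fun hφ (Pi.single j 1)
        simpa [Fintype.linearCombination_apply, Pi.single_apply] using this
      simpa [hb, Pi.single_apply] using h1
    · show p * ext B D.α _ = q * ext B D.β _
      rw [← sub_eq_zero]
      apply (TensorProduct.equivFinsuppOfBasisLeft c).injective
      rw [map_zero]
      ext r
      have : p * ext B D.α (∑ i, (b i : D.R₀) ⊗ₜ v i) - q * ext B D.β (∑ i, (b i : D.R₀) ⊗ₜ v i)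
          = ∑ i, (1 ⊗ₜ v i) * g i := by
        simp only [map_sum, Algebra.TensorProduct.map_tmul, AlgHom.coe_id, id_eq, Finset.mul_sum,
          ← Finset.sum_sub_distrib]
        refine Finset.sum_congr rfl fun i _ => ?_
        simp only [g, mul_sub]
        rw [mul_left_comm (1 ⊗ₜ v i) p, mul_left_comm (1 ⊗ₜ v i) q]
        simp [Algebra.TensorProduct.tmul_mul_tmul]
      rw [this, map_sum, Finsupp.coe_finsetSum, Finset.sum_apply, Finsupp.zero_apply]
      refine (Finset.sum_congr rfl fun i _ => ?_).trans (hv r)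
      have h1 := coord_one_tmul_mul c (v i) (AlgHom.id K B) (g i) r
      rw [show coe' D.R₁ (AlgHom.id K B) (g i) = g i from AlgHom.congr_fun
        Algebra.TensorProduct.map_id (g i)] at h1
      exact h1
  -- so some square submatrix is non-degenerate
  obtain ⟨a, hdet⟩ := exists_det_ne_zero η hinj
  set N : Matrix (Fin (Module.finrank K M)) (Fin (Module.finrank K M)) B :=
    Matrix.of fun j i => η (a j) i with hN
  -- but it kills the formal sections
  have hdm : N.det ∈ ⨅ n : ℕ, m ^ n := by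
    rw [Submodule.mem_iInf]
    intro n
    obtain ⟨x, hx, hx0⟩ := h n
    let mk := Ideal.Quotient.mkₐ K (m ^ (n + 1))
    let v : Fin (Module.finrank K M) → B ⧸ m ^ (n + 1) :=
      fun i => TensorProduct.equivFinsuppOfBasisLeft b x i
    have hxv : x = ∑ i, b i ⊗ₜ v i := by
      apply (TensorProduct.equivFinsuppOfBasisLeft b).injective
      ext j
      simp [map_sum, v]
    have hNv : (N.map mk).mulVec v = 0 := by
      funext j
      have := congrArg (fun z => (TensorProduct.equivFinsuppOfBasisLeft c) z (a j))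
        (sub_eq_zero.mpr hx)
      simp only [map_zero, Finsupp.zero_apply] at this
      rw [Pi.zero_apply, ← this]
      have hg : coe' D.R₁ mk p * ext _ D.α (LinearMap.rTensor _ M.subtype x) -
          coe' D.R₁ mk q * ext _ D.β (LinearMap.rTensor _ M.subtype x)
            = ∑ i, (1 ⊗ₜ v i) * coe' D.R₁ mk (g i) := by
        rw [hxv]
        simp only [map_sum, LinearMap.rTensor_tmul, Submodule.subtype_apply,
          Algebra.TensorProduct.map_tmul, AlgHom.coe_id, id_eq, Finset.mul_sum,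
          ← Finset.sum_sub_distrib]
        refine Finset.sum_congr rfl fun i _ => ?_
        simp only [g, map_sub, map_mul, mul_sub, Algebra.TensorProduct.map_tmul, AlgHom.coe_id,
          id_eq, map_one]
        rw [mul_left_comm (1 ⊗ₜ v i) (coe' D.R₁ mk p), mul_left_comm (1 ⊗ₜ v i) (coe' D.R₁ mk q)]
        simp [Algebra.TensorProduct.tmul_mul_tmul]
      rw [hg, map_sum, Finsupp.coe_finsetSum, Finset.sum_apply]
      simp only [Matrix.mulVec, dotProduct]
      refine Finset.sum_congr rfl fun i _ => ?_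
      exact (coord_one_tmul_mul c (v i) mk (g i) (a j)).symm
    have hdv : ∀ i, mk N.det * v i = 0 := fun i => by
      have h1 := congrArg ((N.map mk).adjugate.mulVec) hNv
      rw [Matrix.mulVec_mulVec, Matrix.adjugate_mul, Matrix.mulVec_zero] at h1
      have h2 := congrFun h1 i
      rw [Matrix.smul_mulVec, Matrix.one_mulVec, Pi.smul_apply, Pi.zero_apply,
        smul_eq_mul] at h2
      rwa [AlgHom.map_det, AlgHom.mapMatrix_apply]
    set e' := Ideal.Quotient.liftₐ (m ^ (n + 1)) ev (Ideal.pow_le_self n.succ_ne_zero) with he'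
    obtain ⟨i, hi⟩ : ∃ i, e' (v i) ≠ 0 := by
      by_contra! hall
      refine hx0 ?_
      rw [hxv, map_sum, map_sum]
      exact Finset.sum_eq_zero fun i _ => by simp [hall i]
    have hnil : IsNilpotent (v i - algebraMap K _ (e' (v i))) := by
      obtain ⟨y, hy⟩ := Ideal.Quotient.mk_surjective (v i - algebraMap K _ (e' (v i)))
      have hym : ev y = 0 := by
        have h1 := congrArg e' hy
        rw [map_sub, AlgHom.commutes, Algebra.algebraMap_self_apply, sub_self] at h1
        exact h1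
      exact ⟨n + 1, by rw [← hy, ← map_pow, Ideal.Quotient.eq_zero_iff_mem]
                       exact Ideal.pow_mem_pow hym _⟩
    have hu' : IsUnit (v i) := by
      have := hnil.isUnit_add_left_of_commute
        ((isUnit_iff_ne_zero.mpr hi).map (algebraMap K (B ⧸ m ^ (n + 1)))) (Commute.all _ _)
      rwa [add_sub_cancel] at this
    exact Ideal.pow_le_pow_right n.le_succ (Ideal.Quotient.eq_zero_iff_mem.mp
      (hu'.mul_left_eq_zero.mp (hdv i)))
  rw [Ideal.iInf_pow_eq_bot_of_isDomain m (RingHom.ker_ne_top ev), Ideal.mem_bot] at hdm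
  exact hdet hdm

end CechDatum

end FLTA.AbelianVar.Cube
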