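import Fermat.Agent.AbelianVar.Pic

/-!
# Frames of line bundles: gluing, ratios, pullback, lifting along closed immersions

Interface for the theorem of the cube.
-/

set_option autoImplicit false

open CategoryTheory AlgebraicGeometry TopologicalSpace

noncomputable section

universe u

namespace FLTA.AbelianVar.LB

variable {X Y : Scheme.{u}}

/-- Functions agreeing on an open cover agree. -/
theorem rs_ext_cover {T : X.Opens} {ι : Type*} (V : ι → X.Opens) (hV : ∀ i, V i ≤ T)
    (hcov : T ≤ ⨆ i, V i) {a b : Γ(X, T)} (h : ∀ i, rs (hV i) a = rs (hV i) b) : a = b :=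
  X.sheaf.eq_of_locally_eq' V T (fun i => homOfLE (hV i)) hcov a b h

/-- Functions glue. -/
theorem exists_rs_glue {T : X.Opens} {ι : Type*} (V : ι → X.Opens) (hV : ∀ i, V i ≤ T)
    (hcov : T ≤ ⨆ i, V i) (a : ∀ i, Γ(X, V i))
    (h : ∀ i j, rs (inf_le_left (b := V j)) (a i) = rs inf_le_right (a j)) :
    ∃ b : Γ(X, T), ∀ i, rs (hV i) b = a i := by
  obtain ⟨b, hb, -⟩ :=
    X.sheaf.existsUnique_gluing' V T (fun i => homOfLE (hV i)) hcov a fun i j => h i j
  exact ⟨b, hb⟩

/-- A function which is locally a unit is a unit. -/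
theorem isUnit_of_cover {T : X.Opens} {ι : Type*} (V : ι → X.Opens) (hV : ∀ i, V i ≤ T)
    (hcov : T ≤ ⨆ i, V i) {a : Γ(X, T)} (h : ∀ i, IsUnit (rs (hV i) a)) : IsUnit a := by
  refine RingedSpace.isUnit_of_isUnit_germ X.toRingedSpace T a fun x hx => ?_
  obtain ⟨i, hi⟩ := Opens.mem_iSup.1 (hcov hx)
  have := (h i).map (X.presheaf.germ (V i) x hi).hom
  rwa [show (X.presheaf.germ (V i) x hi).hom (rs (hV i) a) = X.presheaf.germ T x hx a from
    TopCat.Presheaf.germ_res_apply X.presheaf (homOfLE (hV i)) x hi a] at this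

lemma cover_inf {T W : X.Opens} {ι : Type*} {V : ι → X.Opens} (hT : T ≤ W) (hcov : W ≤ ⨆ i, V i) :
    T ≤ ⨆ i, T ⊓ V i := by
  rw [← inf_iSup_eq]
  exact le_inf le_rfl (hT.trans hcov)

lemma Sec.res_res {L : LB X} {W W' W'' : X.Opens} (h : W' ≤ W) (h' : W'' ≤ W') (s : Sec L W) :
    Sec.res h' (Sec.res h s) = Sec.res (h'.trans h) s := rfl

/-- Two sections agreeing on an open cover agree. -/
theorem Sec.ext_of_cover {L : LB X} {W : X.Opens} {ι : Type*} (V : ι → X.Opens)
    (hV : ∀ i, V i ≤ W) (hcov : W ≤ ⨆ i, V i) {s t : Sec L W}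
    (h : ∀ i, Sec.res (hV i) s = Sec.res (hV i) t) : s = t := by
  ext x T hT hx
  refine rs_ext_cover (fun i => T ⊓ V i) (fun i => inf_le_left) (cover_inf hT hcov) fun i => ?_
  rw [s.f_res, t.f_res]
  exact congrArg (fun u : Sec L (V i) => u.f x (T ⊓ V i) inf_le_right (inf_le_left.trans hx)) (h i)

/-- Sections glue. -/
theorem Sec.exists_glue {L : LB X} {W : X.Opens} {ι : Type*} (V : ι → X.Opens)
    (hV : ∀ i, V i ≤ W) (hcov : W ≤ ⨆ i, V i) (s : ∀ i, Sec L (V i))
    (h : ∀ i j, Sec.res (inf_le_left (b := V j)) (s i) = Sec.res inf_le_right (s j)) :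
    ∃ t : Sec L W, ∀ i, Sec.res (hV i) t = s i := by
  have compat : ∀ (x : X) (i j : ι) (T : X.Opens) (hi : T ≤ V i) (hj : T ≤ V j) (hx : T ≤ L.U x),
      (s i).f x T hi hx = (s j).f x T hj hx := fun x i j T hi hj hx => by
    have h1 := congrArg (fun u : Sec L (V i ⊓ V j) => u.f x T (le_inf hi hj) hx) (h i j)
    exact h1
  have hex : ∀ (x : X) (T : X.Opens) (hT : T ≤ W) (hx : T ≤ L.U x), ∃ b : Γ(X, T), ∀ i,
      rs (inf_le_left : T ⊓ V i ≤ T) b = (s i).f x (T ⊓ V i) inf_le_right (inf_le_left.trans hx) :=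
    fun x T hT hx => exists_rs_glue (fun i => T ⊓ V i) (fun i => inf_le_left) (cover_inf hT hcov)
      _ fun i j => by
        rw [(s i).f_res, (s j).f_res]
        exact compat x i j _ _ _ _
  choose b hb using hex
  have hb' : ∀ (x : X) (T : X.Opens) (hT : T ≤ W) (hx : T ≤ L.U x) (i : ι) (T' : X.Opens)
      (h' : T' ≤ T) (hi : T' ≤ V i), rs h' (b x T hT hx) = (s i).f x T' hi (h'.trans hx) := by
    intro x T hT hx i T' h' hi
    rw [← rs_rs inf_le_left (le_inf h' hi), hb, (s i).f_res]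
  let t : Sec L W :=
    { f := b
      f_res := fun x T T' hT hx h' => rs_ext_cover (fun i => T' ⊓ V i) (fun i => inf_le_left)
        (cover_inf (h'.trans hT) hcov) fun i => by
          rw [rs_rs, hb' x T hT hx i _ _ inf_le_right, hb]
      comm := fun x y T hT hx hy => rs_ext_cover (fun i => T ⊓ V i) (fun i => inf_le_left)
        (cover_inf hT hcov) fun i => by
          rw [map_mul, L.g_res, hb, hb]
          exact (s i).comm x y _ _ _ _ }
  refine ⟨t, fun i => ?_⟩
  ext x T hT hx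
  exact (rs_self le_rfl _).symm.trans (hb' x T (hT.trans (hV i)) hx i T le_rfl hT)

/-- Every section is a unique multiple of a nowhere vanishing one. -/
theorem Sec.existsUnique_eq_smul {L : LB X} {W : X.Opens} (s : Sec L W) (hs : s.Nowhere0)
    (t : Sec L W) : ∃! φ : Γ(X, W), t = φ • s := by
  let T : X → X.Opens := fun x => W ⊓ L.U x
  have hcov : W ≤ ⨆ x, T x := fun p hp => Opens.mem_iSup.2 ⟨p, hp, L.mem p⟩
  let a : ∀ x, Γ(X, T x) := fun x =>
    ↑(hs x (T x) inf_le_left inf_le_right).unit⁻¹ * t.f x (T x) inf_le_left inf_le_right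
  have ha : ∀ x, a x * s.f x (T x) inf_le_left inf_le_right = t.f x _ inf_le_left inf_le_right :=
    fun x => by
      rw [mul_comm, ← mul_assoc, IsUnit.mul_val_inv, one_mul]
  have hkey : ∀ (x : X) (V : X.Opens) (hVW : V ≤ W) (hx : V ≤ L.U x),
      rs (le_inf hVW hx) (a x) * s.f x V hVW hx = t.f x V hVW hx := fun x V hVW hx => by
    rw [← s.f_res x (T x) V inf_le_left inf_le_right (le_inf hVW hx),
      ← t.f_res x (T x) V inf_le_left inf_le_right (le_inf hVW hx), ← map_mul, ha]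
  obtain ⟨φ, hφ⟩ := exists_rs_glue T (fun x => inf_le_left) hcov a fun x y => by
    have hW : T x ⊓ T y ≤ W := inf_le_left.trans inf_le_left
    have hx : T x ⊓ T y ≤ L.U x := inf_le_left.trans inf_le_right
    have hy : T x ⊓ T y ≤ L.U y := inf_le_right.trans inf_le_right
    have h1 : rs (inf_le_left : T x ⊓ T y ≤ T x) (a x) * s.f x _ hW hx = t.f x _ hW hx :=
      hkey x _ hW hx
    have h2 : rs (inf_le_right : T x ⊓ T y ≤ T y) (a y) * s.f y _ hW hy = t.f y _ hW hy :=
      hkey y _ hW hy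
    refine (hs y _ hW hy).mul_left_injective ?_
    have hg := L.isUnit_g hx hy
    refine hg.mul_right_injective ?_
    show _ * (_ * _) = _ * (_ * _)
    rw [h2, mul_left_comm, s.comm x y _ hW hx hy, t.comm x y _ hW hx hy]
    exact h1
  refine ⟨φ, ?_, fun ψ hψ => ?_⟩
  · ext x V hVW hx
    rw [smul_f, ← hkey x V hVW hx, ← hφ x, rs_rs]
  · refine rs_ext_cover T (fun x => inf_le_left) hcov fun x => ?_
    refine (hs x (T x) inf_le_left inf_le_right).mul_left_injective ?_
    show _ * _ = _ * _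
    rw [hφ x, ha x, hψ, smul_f]

theorem Sec.nowhere0_smul_iff {L : LB X} {W : X.Opens} (s : Sec L W) (hs : s.Nowhere0)
    (φ : Γ(X, W)) : (φ • s).Nowhere0 ↔ IsUnit φ := by
  constructor
  · intro h
    refine isUnit_of_cover (fun x => W ⊓ L.U x) (fun x => inf_le_left)
      (fun p hp => Opens.mem_iSup.2 ⟨p, hp, L.mem p⟩) fun x => ?_
    have h1 := h x (W ⊓ L.U x) inf_le_left inf_le_right
    rw [smul_f] at h1
    exact isUnit_of_mul_isUnit_left h1
  · intro h x V hV hx
    rw [smul_f]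
    exact (h.map _).mul (hs x V hV hx)

/-- A line bundle is trivial iff it has a nowhere vanishing global section. -/
theorem pic_mk_eq_zero_iff (L : LB X) : Pic.mk L = 0 ↔ ∃ s : Sec L ⊤, s.Nowhere0 := by
  rw [Pic.zero_def, Pic.mk_eq_mk]
  constructor
  · rintro ⟨e⟩
    have hu : ∀ (x y : X) (T : X.Opens) (hx : T ≤ e.V x) (hy : T ≤ e.V y),
        L.g x y T (hx.trans (e.leL x)) (hy.trans (e.leL y)) * rs hy (e.u y) = rs hx (e.u x) :=
      fun x y T hx hy => (e.comm x y T hx hy).trans (mul_one _)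
    let s : ∀ y, Sec L (e.V y) := fun y =>
      { f := fun x T hT hx => L.g x y T hx (hT.trans (e.leL y)) * rs hT (e.u y)
        f_res := fun x T T' hT hx h => by rw [map_mul, L.g_res, rs_rs]
        comm := fun x z T hT hx hz => by rw [← mul_assoc, L.g_comp] }
    obtain ⟨t, ht⟩ := Sec.exists_glue e.V (fun y => le_top)
      (fun p _ => Opens.mem_iSup.2 ⟨p, e.mem p⟩) s fun y z => by
        ext x T hT hx
        show L.g x y T hx _ * rs _ (e.u y) = L.g x z T hx _ * rs _ (e.u z)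
        rw [← hu y z T (hT.trans inf_le_left) (hT.trans inf_le_right), ← mul_assoc, L.g_comp]
    refine ⟨t, fun x T hT hx => isUnit_of_cover (fun y => T ⊓ e.V y) (fun y => inf_le_left)
      (fun p hp => Opens.mem_iSup.2 ⟨p, hp, e.mem p⟩) fun y => ?_⟩
    rw [t.f_res x T (T ⊓ e.V y) hT hx inf_le_left]
    have h1 := congrArg (fun u : Sec L (e.V y) => u.f x (T ⊓ e.V y) inf_le_right
      (inf_le_left.trans hx)) (ht y)
    rw [show t.f x (T ⊓ e.V y) _ _ = (s y).f x _ inf_le_right (inf_le_left.trans hx) from h1]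
    exact (L.isUnit_g _ _).mul ((e.isUnit y).map _)
  · rintro ⟨s, hs⟩
    exact ⟨{ V := L.U, mem := L.mem, leL := fun x => le_rfl, leM := fun x => le_top,
             u := fun x => s.f x (L.U x) le_top le_rfl, isUnit := fun x => hs x _ _ _,
             comm := fun x y T hx hy => by
               rw [s.f_res, s.f_res]
               exact (s.comm x y T le_top hx hy).trans (mul_one _).symm }⟩

lemma le_preimage_of_inf (f : X ⟶ Y) {A W : Y.Opens} {V T : X.Opens} (hVW : V ≤ f ⁻¹ᵁ W)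
    (hT : T ≤ V) (hA : T ≤ f ⁻¹ᵁ A) : T ≤ f ⁻¹ᵁ (W ⊓ A) :=
  le_preimage_inf f (hT.trans hVW) hA

/-- Pullback of sections. -/
def Sec.pull (f : X ⟶ Y) {L : LB Y} {W : Y.Opens} {V : X.Opens} (h : V ≤ f ⁻¹ᵁ W)
    (s : Sec L W) : Sec (L.pull f) V where
  f x T hT hx := pb f (le_preimage_of_inf f h hT hx)
    (s.f (f.base x) (W ⊓ L.U (f.base x)) inf_le_left inf_le_right)
  f_res x T T' hT hx i := rs_pb f _ i _
  comm x y T hT hx hy := by
    have hW : T ≤ f ⁻¹ᵁ (W ⊓ L.U (f.base x) ⊓ L.U (f.base y)) :=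
      le_preimage_inf f (le_preimage_of_inf f h hT hx) hy
    have h1 := congrArg (pb f hW) (s.comm (f.base x) (f.base y)
      (W ⊓ L.U (f.base x) ⊓ L.U (f.base y)) (inf_le_left.trans inf_le_left)
      (inf_le_left.trans inf_le_right) inf_le_right)
    rw [map_mul] at h1
    rw [pull_g_eq f L _ _ hW (inf_le_left.trans inf_le_right) inf_le_right]
    rw [← s.f_res (f.base x) (W ⊓ L.U (f.base x)) _ inf_le_left inf_le_right inf_le_left,
      ← s.f_res (f.base y) (W ⊓ L.U (f.base y)) _ inf_le_left inf_le_right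
        (le_inf (inf_le_left.trans inf_le_left) inf_le_right), pb_rs, pb_rs] at h1
    exact h1

theorem Sec.pull_res (f : X ⟶ Y) {L : LB Y} {W W' : Y.Opens} {V V' : X.Opens}
    (hW : W' ≤ W) (hV : V' ≤ V) (h : V ≤ f ⁻¹ᵁ W) (h' : V' ≤ f ⁻¹ᵁ W') (s : Sec L W) :
    Sec.pull f h' (Sec.res hW s) = Sec.res hV (Sec.pull f h s) := by
  ext x T hT hx
  show pb f _ (s.f _ (W' ⊓ L.U (f.base x)) _ _) = pb f _ (s.f _ (W ⊓ L.U (f.base x)) _ _)
  rw [← s.f_res (f.base x) (W ⊓ L.U (f.base x)) (W' ⊓ L.U (f.base x)) inf_le_left inf_le_right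
    (inf_le_inf_right _ hW), pb_rs]

theorem Sec.pull_smul (f : X ⟶ Y) {L : LB Y} {W : Y.Opens} {V : X.Opens} (h : V ≤ f ⁻¹ᵁ W)
    (φ : Γ(Y, W)) (s : Sec L W) : Sec.pull f h (φ • s) = pb f h φ • Sec.pull f h s := by
  ext x T hT hx
  show pb f _ (rs _ φ * s.f _ _ _ _) = rs _ (pb f h φ) * pb f _ (s.f _ _ _ _)
  rw [map_mul, pb_rs, rs_pb]

theorem Sec.nowhere0_pull (f : X ⟶ Y) {L : LB Y} {W : Y.Opens} {V : X.Opens} (h : V ≤ f ⁻¹ᵁ W)
    {s : Sec L W} (hs : s.Nowhere0) : (Sec.pull f h s).Nowhere0 :=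
  fun x T _ _ => (hs (f.base x) _ inf_le_left inf_le_right).map _

theorem pullG_mul_symm (f : X ⟶ Y) (L : LB Y) {a b : Y} {T : X.Opens} (ha : T ≤ f ⁻¹ᵁ L.U a)
    (hb : T ≤ f ⁻¹ᵁ L.U b) : pullG f L a b T ha hb * pullG f L b a T hb ha = 1 := by
  have hV : T ≤ f ⁻¹ᵁ (L.U a ⊓ L.U b) := le_preimage_inf f ha hb
  rw [pullG_eq f L ha hb hV inf_le_left inf_le_right,
    pullG_eq f L hb ha hV inf_le_right inf_le_left, ← map_mul, L.g_comp, L.g_self, map_one]

/-- An affine open is covered by finitely many basic opens inside the trivialising opens. -/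
theorem exists_basicOpen_cover (L : LB X) {W : X.Opens} (hW : IsAffineOpen W) :
    ∃ (n : ℕ) (r : Fin n → Γ(X, W)) (x : Fin n → X),
      (∀ k, X.basicOpen (r k) ≤ L.U (x k)) ∧ W ≤ ⨆ k, X.basicOpen (r k) := by
  classical
  choose r hr hrx using fun p : W => hW.exists_basicOpen_le (V := L.U p) ⟨p, L.mem p⟩ p.2
  obtain ⟨t, ht⟩ := hW.isCompact.elim_finite_subcover (fun p : W => (X.basicOpen (r p) : Set X))
    (fun p => (X.basicOpen (r p)).isOpen) fun p hp => Set.mem_iUnion.2 ⟨⟨p, hp⟩, hrx ⟨p, hp⟩⟩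
  refine ⟨_, fun k => r ((Fintype.equivFin t).symm k), fun k => ((Fintype.equivFin t).symm k).1,
    fun k => hr _, fun p hp => ?_⟩
  obtain ⟨q, hq, hpq⟩ := Set.mem_iUnion₂.1 (ht hp)
  exact Opens.mem_iSup.2 ⟨Fintype.equivFin t ⟨q, hq⟩, by simpa using hpq⟩

/-- A function on an affine open vanishing on `D(r)` is killed by a power of `r`. -/
theorem exists_pow_mul_eq_zero {V : X.Opens} (hV : IsAffineOpen V) (r : Γ(X, V)) (a : Γ(X, V))
    (h : rs (X.basicOpen_le r) a = 0) : ∃ n, r ^ n * a = 0 := by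
  have := hV.isLocalization_basicOpen r
  obtain ⟨⟨_, n, rfl⟩, hn⟩ := (IsLocalization.map_eq_zero_iff (Submonoid.powers r)
    Γ(X, X.basicOpen r) a).1 h
  exact ⟨n, hn⟩

/-- A section over an affine open vanishing on `D(r)` is killed by a power of `r`. -/
theorem Sec.exists_pow_smul_eq_zero {L : LB X} {W : X.Opens} (hW : IsAffineOpen W) (r : Γ(X, W))
    {σ : Sec L W} (h : Sec.res (X.basicOpen_le r) σ = 0) : ∃ n, r ^ n • σ = 0 := by
  obtain ⟨m, q, x, hq, hcov⟩ := exists_basicOpen_cover L hW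
  have hk : ∀ k, ∃ n, rs (X.basicOpen_le (q k)) r ^ n *
      σ.f (x k) (X.basicOpen (q k)) (X.basicOpen_le _) (hq k) = 0 := fun k => by
    refine exists_pow_mul_eq_zero (hW.basicOpen (q k)) _ _ ?_
    rw [σ.f_res]
    have hle : X.basicOpen (rs (X.basicOpen_le (q k)) r) ≤ X.basicOpen r := by
      rw [rs, Scheme.basicOpen_res]
      exact inf_le_right
    exact congrArg (fun u : Sec L (X.basicOpen r) => u.f (x k) _ hle
      ((X.basicOpen_le _).trans (hq k))) h
  choose n hn using hk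
  refine ⟨Finset.univ.sup n, Sec.ext_of_cover _ (fun k => X.basicOpen_le (q k)) hcov fun k => ?_⟩
  ext y T hT hy
  rw [res_smul, smul_f, map_zero, zero_f, res_f, map_pow, map_pow,
    ← σ.comm y (x k) T (hT.trans (X.basicOpen_le _)) hy (hT.trans (hq k)), mul_left_comm]
  obtain ⟨d, hd⟩ := Nat.exists_eq_add_of_le (Finset.le_sup (f := n) (Finset.mem_univ k))
  have h1 := congrArg (rs hT) (hn k)
  rw [map_zero, map_mul, map_pow, σ.f_res] at h1
  rw [hd, pow_add, mul_comm (rs hT _ ^ n k), mul_assoc, h1, mul_zero, mul_zero]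

/-- A section over `D(r)` times a power of `r` extends to the affine open. -/
theorem Sec.exists_extend {L : LB X} {W : X.Opens} (hW : IsAffineOpen W) (r : Γ(X, W))
    (σ : Sec L (X.basicOpen r)) :
    ∃ (n : ℕ) (τ : Sec L W), Sec.res (X.basicOpen_le r) τ = rs (X.basicOpen_le r) r ^ n • σ := by
  obtain ⟨m, q, x, hq, hcov⟩ := exists_basicOpen_cover L hW
  let V : Fin m → X.Opens := fun k => X.basicOpen (q k)
  let r' : ∀ k, Γ(X, V k) := fun k => rs (X.basicOpen_le (q k)) r
  have hr' : ∀ k, X.basicOpen (r' k) ≤ X.basicOpen r := fun k => by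
    rw [show r' k = rs (X.basicOpen_le (q k)) r from rfl, rs, Scheme.basicOpen_res]
    exact inf_le_right
  have hk : ∀ k, ∃ (n : ℕ) (a : Γ(X, V k)), rs (X.basicOpen_le (r' k)) a =
      rs (X.basicOpen_le (r' k)) (r' k) ^ n *
        σ.f (x k) _ (hr' k) ((X.basicOpen_le _).trans (hq k)) := fun k => by
    have := (hW.basicOpen (q k)).isLocalization_basicOpen (r' k)
    obtain ⟨⟨a, _, n, rfl⟩, ha⟩ := IsLocalization.surj (Submonoid.powers (r' k))
      (σ.f (x k) _ (hr' k) ((X.basicOpen_le _).trans (hq k)))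
    exact ⟨n, a, by rw [← map_pow, mul_comm]; exact ha.symm⟩
  choose n a ha using hk
  let N := Finset.univ.sup n
  let e : ∀ k, Sec L (V k) := fun k =>
    { f := fun y T hT hy => L.g y (x k) T hy (hT.trans (hq k)) * rs hT (r' k ^ (N - n k) * a k)
      f_res := fun y T T' hT hy h => by rw [map_mul, L.g_res, rs_rs]
      comm := fun y z T hT hy hz => by rw [← mul_assoc, L.g_comp] }
  have he : ∀ k (y : X) (T : X.Opens) (hT : T ≤ V k) (hr : T ≤ X.basicOpen r) (hy : T ≤ L.U y),
      (e k).f y T hT hy =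
        rs (hT.trans (X.basicOpen_le (q k))) r ^ N * σ.f y T hr hy := fun k y T hT hr hy => by
    have hT' : T ≤ X.basicOpen (r' k) := by
      rw [show r' k = rs (X.basicOpen_le (q k)) r from rfl, rs, Scheme.basicOpen_res]
      exact le_inf hT hr
    have h1 := congrArg (rs hT') (ha k)
    rw [map_mul, map_pow, rs_rs, rs_rs, σ.f_res] at h1
    show L.g y (x k) T hy _ * rs hT (r' k ^ (N - n k) * a k) = _
    rw [map_mul, map_pow, h1, ← mul_assoc (rs hT (r' k) ^ _), ← pow_add,
      Nat.sub_add_cancel (Finset.le_sup (f := n) (Finset.mem_univ k)), mul_left_comm,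
      σ.comm y (x k) T hr hy (hT.trans (hq k))]
    simp only [r', rs_rs, N]
  have hd : ∀ k l, ∃ M, rs (inf_le_left.trans (X.basicOpen_le (q k)) : V k ⊓ V l ≤ W) r ^ M •
      (Sec.res inf_le_left (e k) - Sec.res (inf_le_right : V k ⊓ V l ≤ V l) (e l)) = 0 := fun k l => by
    have hA : IsAffineOpen (V k ⊓ V l) := by
      rw [show V k ⊓ V l = X.basicOpen (q k * q l) from (Scheme.basicOpen_mul X (q k) (q l)).symm]
      exact hW.basicOpen _
    refine Sec.exists_pow_smul_eq_zero hA _ ?_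
    ext y T hT hy
    have hTr : T ≤ X.basicOpen r := hT.trans (by rw [rs, Scheme.basicOpen_res]; exact inf_le_right)
    rw [res_f, zero_f, sub_eq_add_neg, add_f, neg_f, res_f, res_f, he k y T _ hTr hy,
      he l y T _ hTr hy, add_neg_cancel]
  choose M hM using hd
  let M₀ := (Finset.univ : Finset (Fin m × Fin m)).sup fun p => M p.1 p.2
  obtain ⟨τ, hτ⟩ := Sec.exists_glue V (fun k => X.basicOpen_le (q k)) hcov
    (fun k => r' k ^ M₀ • e k) fun k l => by
      obtain ⟨d, hd⟩ := Nat.exists_eq_add_of_le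
        (Finset.le_sup (f := fun p : Fin m × Fin m => M p.1 p.2) (Finset.mem_univ (k, l)))
      rw [res_smul, res_smul, map_pow, map_pow]
      simp only [r', rs_rs]
      rw [← sub_eq_zero, ← smul_sub, show M₀ = M k l + d from hd, pow_add, mul_comm, mul_smul, hM,
        smul_zero]
  refine ⟨M₀ + N, τ, Sec.ext_of_cover (fun k => X.basicOpen r ⊓ V k) (fun k => inf_le_left)
    (cover_inf (X.basicOpen_le r) hcov) fun k => ?_⟩
  ext y T hT hy
  have hTk := hT.trans (inf_le_right : X.basicOpen r ⊓ V k ≤ V k)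
  have hTr := hT.trans (inf_le_left : X.basicOpen r ⊓ V k ≤ X.basicOpen r)
  have h1 := congrArg (fun u : Sec L (V k) => u.f y T hTk hy) (hτ k)
  simp only [res_f, smul_f] at h1
  rw [res_f, res_f, res_f, smul_f, h1, he k y T hTk hTr hy, map_pow, map_pow, rs_rs, rs_rs,
    ← mul_assoc, ← pow_add]

/-- Sections lift along closed immersions over affine opens. -/
theorem Sec.exists_pull_eq (i : X ⟶ Y) [IsClosedImmersion i] {L : LB Y} {W : Y.Opens}
    (hW : IsAffineOpen W) (s : Sec (L.pull i) (i ⁻¹ᵁ W)) :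
    ∃ t : Sec L W, Sec.pull i le_rfl t = s := by
  classical
  obtain ⟨m, r, z, hr, hcov⟩ := exists_basicOpen_cover L hW
  have hWX : IsAffineOpen (i ⁻¹ᵁ W) := hW.preimage i
  let V : Fin m → Y.Opens := fun k => Y.basicOpen (r k)
  let r' : Fin m → Γ(X, i ⁻¹ᵁ W) := fun k => pb i le_rfl (r k)
  have hbo : ∀ k, i ⁻¹ᵁ V k = X.basicOpen (r' k) := fun k => by
    rw [Scheme.preimage_basicOpen]
    simp [r', pb, Scheme.Hom.appLE]
  -- local lifts
  have hlift : ∀ k, ∃ σ : Sec L (V k),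
      Sec.pull i le_rfl σ = Sec.res (i.preimage_mono (Y.basicOpen_le (r k))) s := fun k => by
    let U : X.Opens := i ⁻¹ᵁ V k
    -- the value of `s` in the frame of `z k`
    have hex : ∃ b : Γ(X, U), ∀ (p : X) (T : X.Opens) (hT : T ≤ U)
        (hp : T ≤ (L.pull i).U p), pullG i L (i.base p) (z k) T hp
          (hT.trans (i.preimage_mono (hr k))) * rs hT b =
            s.f p T (hT.trans (i.preimage_mono (Y.basicOpen_le (r k)))) hp := by
      let T₀ : X → X.Opens := fun p => U ⊓ (L.pull i).U p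
      obtain ⟨b, hb⟩ := exists_rs_glue T₀ (fun p => inf_le_left)
        (fun p hp => Opens.mem_iSup.2 ⟨p, hp, (L.pull i).mem p⟩)
        (fun p => pullG i L (z k) (i.base p) (T₀ p) (inf_le_left.trans (i.preimage_mono (hr k)))
          inf_le_right * s.f p (T₀ p)
            (inf_le_left.trans (i.preimage_mono (Y.basicOpen_le (r k)))) inf_le_right)
        fun p p' => by
          have hp : T₀ p ⊓ T₀ p' ≤ (L.pull i).U p := inf_le_left.trans inf_le_right
          have hp' : T₀ p ⊓ T₀ p' ≤ (L.pull i).U p' := inf_le_right.trans inf_le_right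
          have hz : T₀ p ⊓ T₀ p' ≤ i ⁻¹ᵁ L.U (z k) :=
            (inf_le_left.trans inf_le_left).trans (i.preimage_mono (hr k))
          rw [map_mul, map_mul, s.f_res, s.f_res]
          simp only [pullG, rs_pb]
          rw [← s.comm p p' _ _ hp hp', ← mul_assoc]
          congr 1
          have hV : T₀ p ⊓ T₀ p' ≤ i ⁻¹ᵁ (L.U (z k) ⊓ L.U (i.base p) ⊓ L.U (i.base p')) :=
            le_preimage_inf i (le_preimage_inf i hz hp) hp'
          rw [pull_g_eq i L hp hp' hV (inf_le_left.trans inf_le_right) inf_le_right]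
          show pullG i L (z k) (i.base p) _ hz hp * _ = pullG i L (z k) (i.base p') _ hz hp'
          rw [pullG_eq i L hz hp hV (inf_le_left.trans inf_le_left) (inf_le_left.trans inf_le_right),
            pullG_eq i L hz hp' hV (inf_le_left.trans inf_le_left) inf_le_right, ← map_mul,
            L.g_comp]
      refine ⟨b, fun p T hT hp => ?_⟩
      have h1 : T ≤ T₀ p := le_inf hT hp
      rw [← rs_rs (inf_le_left : T₀ p ≤ U) h1, hb, map_mul, s.f_res, ← mul_assoc]
      simp only [pullG, rs_pb]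
      exact (congrArg (· * _) (pullG_mul_symm i L hp
        (hT.trans (i.preimage_mono (hr k))))).trans (one_mul _)
    obtain ⟨b, hb⟩ := hex
    obtain ⟨a, ha⟩ := i.app_surjective (V k) (hW.basicOpen (r k)) b
    refine ⟨{
      f := fun y T hT hy => L.g y (z k) T hy (hT.trans (hr k)) * rs hT a
      f_res := fun y T T' hT hy h => by rw [map_mul, L.g_res, rs_rs]
      comm := fun y y' T hT hy hy' => by rw [← mul_assoc, L.g_comp] }, ?_⟩
    ext p T hT hp
    show pb i _ (L.g (i.base p) (z k) _ _ _ * rs _ a) = s.f p T _ hp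
    rw [map_mul, pb_rs, ← hb p T hT hp]
    refine congrArg₂ (· * ·) ?_ ?_
    · exact (pullG_eq i L hp _ _ inf_le_right (inf_le_left.trans (hr k))).symm
    · rw [← ha]
      show (i.appLE (V k) T _).hom a = rs hT ((i.app (V k)).hom a)
      rw [Scheme.Hom.app_eq_appLE]
      exact (rs_pb i le_rfl hT a).symm
  choose σ hσ using hlift
  -- extend each of them
  choose n τ hτ using fun k => Sec.exists_extend hW (r k) (σ k)
  have hkill : ∀ k, ∃ M, r' k ^ M • (Sec.pull i le_rfl (τ k) - r' k ^ n k • s) = 0 := fun k => by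
    refine Sec.exists_pow_smul_eq_zero hWX _ ?_
    have hle : X.basicOpen (r' k) ≤ i ⁻¹ᵁ V k := (hbo k).ge
    rw [map_sub, sub_eq_zero, res_smul, map_pow]
    have h1 := congrArg (Sec.res hle) (Sec.pull_res i (Y.basicOpen_le (r k))
      (i.preimage_mono (Y.basicOpen_le (r k))) le_rfl le_rfl (τ k))
    rw [hτ, Sec.pull_smul, res_smul, hσ, Sec.res_res, Sec.res_res, map_pow, map_pow, pb_rs,
      rs_pb] at h1
    rw [← h1]
    simp only [r', rs_pb]
  choose M hM using hkill
  -- combine them by a partition of unity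
  have hspan : Ideal.span (Set.range fun k => r k ^ (n k + M k)) = ⊤ := by
    have h1 : Ideal.span (Set.range r) = ⊤ := hW.self_le_iSup_basicOpen_iff.1 <|
      hcov.trans (iSup_le fun k => le_iSup_of_le (⟨r k, k, rfl⟩ : Set.range r) le_rfl)
    have h2 := Ideal.span_pow_eq_top (Set.range r) h1 (Finset.univ.sup fun k => n k + M k)
    rw [← top_le_iff, ← h2, Ideal.span_le]
    rintro _ ⟨_, ⟨k, rfl⟩, rfl⟩
    obtain ⟨d, hd⟩ := Nat.exists_eq_add_of_le
      (Finset.le_sup (f := fun k => n k + M k) (Finset.mem_univ k))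
    show r k ^ _ ∈ _
    rw [hd, pow_add]
    exact Ideal.mul_mem_right _ _ (Ideal.subset_span ⟨k, rfl⟩)
  obtain ⟨c, hc⟩ := Ideal.mem_span_range_iff_exists_fun.1
    (hspan.ge (Submodule.mem_top : (1 : Γ(Y, W)) ∈ (⊤ : Ideal Γ(Y, W))))
  refine ⟨∑ k, (c k * r k ^ M k) • τ k, ?_⟩
  let pullHom : Sec L W →+ Sec (L.pull i) (i ⁻¹ᵁ W) :=
    AddMonoidHom.mk' (Sec.pull i le_rfl) fun u v => by
      ext p T hT hp
      exact map_add _ _ _
  show pullHom (∑ k, (c k * r k ^ M k) • τ k) = s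
  rw [map_sum]
  have hterm : ∀ k, pullHom ((c k * r k ^ M k) • τ k) =
      pb i le_rfl (c k * r k ^ (n k + M k)) • s := fun k => by
    show Sec.pull i le_rfl _ = _
    have h1 := hM k
    rw [smul_sub, sub_eq_zero, ← mul_smul] at h1
    rw [Sec.pull_smul, map_mul, mul_smul, map_pow, h1, ← mul_smul, map_mul, map_pow, pow_add,
      mul_comm (r' k ^ M k)]
  rw [Finset.sum_congr rfl fun k _ => hterm k, ← Finset.sum_smul, ← map_sum, hc, map_one, one_smul]

/-- The locus where a section does not vanish. -/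
theorem Sec.exists_nowhere0_nhds {L : LB X} {W : X.Opens} (s : Sec L W) :
    ∃ V : X.Opens, ∃ hV : V ≤ W, (Sec.res hV s).Nowhere0 ∧
      ∀ x ∈ W, (∃ (T : X.Opens) (hW : T ≤ W) (hx : T ≤ L.U x), x ∈ T ∧
        IsUnit (s.f x T hW hx)) → x ∈ V := by
  let ι := {T : X.Opens // ∃ hT : T ≤ W, (Sec.res hT s).Nowhere0}
  refine ⟨⨆ i : ι, i.1, iSup_le fun i => i.2.1, fun y T' hT' hy => ?_, ?_⟩
  · refine isUnit_of_cover (fun i : ι => T' ⊓ i.1) (fun i => inf_le_left) (cover_inf hT' le_rfl)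
      fun i => ?_
    rw [res_f, s.f_res]
    exact i.2.2 y _ inf_le_right (inf_le_left.trans hy)
  · rintro x - ⟨T, hW, hx, hxT, hu⟩
    refine Opens.mem_iSup.2 ⟨⟨T, hW, fun y T' hT' hy => ?_⟩, hxT⟩
    rw [res_f, ← s.comm y x T' (hT'.trans hW) hy (hT'.trans hx)]
    refine (L.isUnit_g _ _).mul ?_
    rw [← s.f_res x T T' hW hx hT']
    exact hu.map _

/-- A section over a basic open of an affine open extends after multiplying by a power of the
function defining the basic open. -/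
theorem Sec.exists_pow_smul_eq_res {L : LB X} {W : X.Opens} (hW : IsAffineOpen W) (c : Γ(X, W))
    (s : Sec L (X.basicOpen c)) :
    ∃ (n : ℕ) (t : Sec L W),
      Sec.res (X.basicOpen_le c) t = rs (X.basicOpen_le c) (c ^ n) • s := by
  obtain ⟨n, t, ht⟩ := Sec.exists_extend hW c s
  exact ⟨n, t, by rw [ht, map_pow]⟩

/-- The local product of a section of `L` and a section of `L⁻¹`. -/
theorem Sec.exists_pair {L : LB X} {W : X.Opens} (s : Sec L W) (s' : Sec L.inv W) :
    ∃ φ : Γ(X, W), ∀ (x : X) (T : X.Opens) (hT : T ≤ W) (hx : T ≤ L.U x),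
      rs hT φ = s.f x T hT hx * s'.f x T hT hx := by
  let T : X → X.Opens := fun x => W ⊓ L.U x
  have hcov : W ≤ ⨆ x, T x := fun p hp => Opens.mem_iSup.2 ⟨p, hp, L.mem p⟩
  have key : ∀ (x y : X) (V : X.Opens) (hV : V ≤ W) (hx : V ≤ L.U x) (hy : V ≤ L.U y),
      s.f x V hV hx * s'.f x V hV hx = s.f y V hV hy * s'.f y V hV hy := fun x y V hV hx hy => by
    have h1 := s.comm x y V hV hx hy
    have h2 : L.g y x V hy hx * s'.f y V hV hy = s'.f x V hV hx := s'.comm x y V hV hx hy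
    rw [← h1, ← h2]
    calc L.g x y V hx hy * s.f y V hV hy * (L.g y x V hy hx * s'.f y V hV hy)
        = (L.g x y V hx hy * L.g y x V hy hx) * (s.f y V hV hy * s'.f y V hV hy) := by ring
      _ = _ := by rw [L.g_mul_g_symm, one_mul]
  obtain ⟨φ, hφ⟩ := exists_rs_glue T (fun x => inf_le_left) hcov
    (fun x => s.f x (T x) inf_le_left inf_le_right * s'.f x (T x) inf_le_left inf_le_right)
    fun x y => by
      rw [map_mul, map_mul, s.f_res, s.f_res]
      erw [s'.f_res, s'.f_res]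
      exact key x y _ _ _ _
  refine ⟨φ, fun x V hV hx => ?_⟩
  rw [← rs_rs (inf_le_left : T x ≤ W) (le_inf hV hx), hφ, map_mul, s.f_res]
  exact congrArg _ (s'.f_res x (T x) V inf_le_left inf_le_right (le_inf hV hx))

/-- The pairing of `L` and `L⁻¹`. -/
def Sec.pair {L : LB X} {W : X.Opens} (s : Sec L W) (s' : Sec L.inv W) : Γ(X, W) :=
  (Sec.exists_pair s s').choose

theorem Sec.pair_spec {L : LB X} {W : X.Opens} (s : Sec L W) (s' : Sec L.inv W) (x : X)
    (T : X.Opens) (hT : T ≤ W) (hx : T ≤ L.U x) :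
    rs hT (Sec.pair s s') = s.f x T hT hx * s'.f x T hT hx :=
  (Sec.exists_pair s s').choose_spec x T hT hx

theorem Sec.pair_ext {L : LB X} {W : X.Opens} {a b : Γ(X, W)}
    (h : ∀ (x : X) (T : X.Opens) (hT : T ≤ W), T ≤ L.U x → rs hT a = rs hT b) : a = b :=
  rs_ext_cover (fun x => W ⊓ L.U x) (fun _ => inf_le_left)
    (fun p hp => Opens.mem_iSup.2 ⟨p, hp, L.mem p⟩) fun x => h x _ inf_le_left inf_le_right

/-- The rank one identity. -/
theorem Sec.pair_mul_pair {L : LB X} {W : X.Opens} (s t : Sec L W) (s' t' : Sec L.inv W) :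
    Sec.pair s s' * Sec.pair t t' = Sec.pair s t' * Sec.pair t s' := by
  refine Sec.pair_ext (L := L) fun x T hT hx => ?_
  rw [map_mul, map_mul, pair_spec s s' x T hT hx, pair_spec t t' x T hT hx,
    pair_spec s t' x T hT hx, pair_spec t s' x T hT hx]
  ring

theorem Sec.rs_pair {L : LB X} {W V : X.Opens} (h : V ≤ W) (s : Sec L W) (s' : Sec L.inv W) :
    rs h (Sec.pair s s') = Sec.pair (Sec.res h s) (Sec.res h s') := by
  refine Sec.pair_ext (L := L) fun x T hT hx => ?_
  rw [rs_rs, pair_spec s s' x T (hT.trans h) hx,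
    pair_spec (Sec.res h s) (Sec.res h s') x T hT hx]
  rfl

theorem Sec.pair_smul_left {L : LB X} {W : X.Opens} (φ : Γ(X, W)) (s : Sec L W)
    (s' : Sec L.inv W) : Sec.pair (φ • s) s' = φ * Sec.pair s s' := by
  refine Sec.pair_ext (L := L) fun x T hT hx => ?_
  rw [map_mul, pair_spec (φ • s) s' x T hT hx, pair_spec s s' x T hT hx, smul_f, mul_assoc]

theorem Sec.pair_smul_right {L : LB X} {W : X.Opens} (φ : Γ(X, W)) (s : Sec L W)
    (s' : Sec L.inv W) : Sec.pair s (φ • s') = φ * Sec.pair s s' := by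
  refine Sec.pair_ext (L := L) fun x T hT hx => ?_
  rw [map_mul, pair_spec s (φ • s') x T hT hx, pair_spec s s' x T hT hx]
  exact mul_left_comm _ _ _

theorem Sec.isUnit_pair_iff {L : LB X} {W : X.Opens} (s : Sec L W) (s' : Sec L.inv W) :
    IsUnit (Sec.pair s s') ↔ s.Nowhere0 ∧ s'.Nowhere0 := by
  constructor
  · intro h
    refine ⟨fun x T hT hx => ?_, fun x T hT hx => ?_⟩
    · exact isUnit_of_mul_isUnit_left (pair_spec s s' x T hT hx ▸ h.map (rs hT))
    · exact isUnit_of_mul_isUnit_right (pair_spec s s' x T hT hx ▸ h.map (rs hT))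
  · rintro ⟨h, h'⟩
    refine isUnit_of_cover (fun x => W ⊓ L.U x) (fun _ => inf_le_left)
      (fun p hp => Opens.mem_iSup.2 ⟨p, hp, L.mem p⟩) fun x => ?_
    rw [pair_spec s s' x _ inf_le_left inf_le_right]
    exact (h x _ _ _).mul (h' x _ _ _)

/-- A nowhere vanishing section has a dual one. -/
theorem Sec.exists_dual {L : LB X} {W : X.Opens} (s : Sec L W) (hs : s.Nowhere0) :
    ∃ s' : Sec L.inv W, Sec.pair s s' = 1 := by
  let s' : Sec L.inv W :=
    { f := fun x T hT hx => ↑(hs x T hT hx).unit⁻¹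
      f_res := fun x T T' hT hx h => by
        refine (hs x T' (h.trans hT) (h.trans hx)).mul_left_injective ?_
        show _ * _ = _ * _
        rw [IsUnit.val_inv_mul]
        rw [← s.f_res x T T' hT hx h, ← map_mul, IsUnit.val_inv_mul, map_one]
      comm := fun x y T hT hx hy => by
        refine (hs x T hT hx).mul_left_injective ?_
        show L.g y x T hy hx * _ * _ = _ * _
        rw [IsUnit.val_inv_mul, mul_right_comm, s.comm y x T hT hy hx, IsUnit.mul_val_inv] }
  refine ⟨s', Sec.pair_ext (L := L) fun x T hT hx => ?_⟩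
  rw [pair_spec s s' x T hT hx, map_one]
  exact IsUnit.mul_val_inv _

/-- `(f^* L)⁻¹ = f^* L⁻¹`, sectionwise. -/
theorem Sec.pull_pair (f : X ⟶ Y) {L : LB Y} {W : Y.Opens} {V : X.Opens} (h : V ≤ f ⁻¹ᵁ W)
    (s : Sec L W) (s' : Sec L.inv W) (x : X) (T : X.Opens) (hT : T ≤ V)
    (hx : T ≤ (L.pull f).U x) :
    rs hT (pb f h (Sec.pair s s')) =
      (Sec.pull f h s).f x T hT hx * (Sec.pull f h s').f x T hT hx := by
  show _ = pb f _ (s.f _ (W ⊓ L.U (f.base x)) inf_le_left inf_le_right) *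
    pb f _ (s'.f _ (W ⊓ L.U (f.base x)) inf_le_left inf_le_right)
  rw [← map_mul, ← pair_spec s s' (f.base x) _ inf_le_left inf_le_right, pb_rs, rs_pb]

end FLTA.AbelianVar.LB
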