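import Fermat.Agent.AbelianVar.Cube.Kunneth
import Fermat.Agent.AbelianVar.Cube.Frames

/-!
# Functions on a product cover as tensors, and pairings of pulled back sections
-/

set_option autoImplicit false

universe u

open CategoryTheory CategoryTheory.Limits AlgebraicGeometry TopologicalSpace TensorProduct

noncomputable section

namespace FLTA.AbelianVar

namespace LB

variable {X Y : Scheme.{u}} (f : X ⟶ Y) {L : LB Y}

/-- `f^* (L⁻¹) = (f^* L)⁻¹` on transition functions. -/
lemma pull_inv_g (x y : X) (W : X.Opens) (hx : W ≤ (L.pull f).U x) (hy : W ≤ (L.pull f).U y) :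
    (L.inv.pull f).g x y W hx hy = (L.pull f).inv.g x y W hx hy :=
  (pull_g_eq f L.inv hx hy (le_preimage_inf f hx hy) inf_le_left inf_le_right).trans
    (pull_g_eq f L hy hx (le_preimage_inf f hx hy) inf_le_right inf_le_left).symm

/-- A section of `f^* (L⁻¹)` as a section of `(f^* L)⁻¹`. -/
def Sec.pullInv {W : X.Opens} (s : Sec (L.inv.pull f) W) : Sec (L.pull f).inv W where
  f := s.f
  f_res := s.f_res
  comm x y T hT hx hy :=
    (congrArg (· * s.f y T hT hy) (pull_inv_g (L := L) f x y T hx hy).symm).trans (s.comm x y T hT hx hy)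

/-- A section of `(f^* L)⁻¹` as a section of `f^* (L⁻¹)`. -/
def Sec.invPull {W : X.Opens} (s : Sec (L.pull f).inv W) : Sec (L.inv.pull f) W where
  f := s.f
  f_res := s.f_res
  comm x y T hT hx hy :=
    (congrArg (· * s.f y T hT hy) (pull_inv_g (L := L) f x y T hx hy)).trans (s.comm x y T hT hx hy)

/-- Pairings pull back. -/
theorem Sec.pb_pair {W : Y.Opens} {V : X.Opens} (h : V ≤ f ⁻¹ᵁ W) (s : Sec L W)
    (s' : Sec L.inv W) :
    pb f h (Sec.pair s s') = Sec.pair (Sec.pull f h s) (Sec.pullInv f (Sec.pull f h s')) := by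
  refine Sec.pair_ext (L := L.pull f) fun x T hT hx => ?_
  rw [Sec.pull_pair f h s s' x T hT hx, Sec.pair_spec _ _ x T hT hx]
  rfl

/-- A section is determined by its pairing with a nowhere vanishing section of the inverse. -/
theorem Sec.pair_left_inj {W : Y.Opens} {s t : Sec L W} {s' : Sec L.inv W} (hs' : s'.Nowhere0)
    (h : Sec.pair s s' = Sec.pair t s') : s = t := by
  ext x T hT hx
  have h1 := congrArg (rs hT) h
  rw [Sec.pair_spec s s' x T hT hx, Sec.pair_spec t s' x T hT hx] at h1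
  exact (hs' x T hT hx).mul_left_injective h1

end LB

namespace Cube

variable {K : Type u} [Field K]

/-- An element of `R ⊗ C` all of whose coordinates lie in `M` comes from `M ⊗ C`. -/
lemma mem_range_subtype_of_forall {R C : Type u} [AddCommGroup R] [Module K R] [AddCommGroup C]
    [Module K C] (M : Submodule K R) (z : R ⊗[K] C)
    (h : ∀ g : C →ₗ[K] K, TensorProduct.rid K R (g.lTensor R z) ∈ M) :
    z ∈ LinearMap.range (M.subtype.rTensor C) := by
  classical
  let b := Module.Free.chooseBasis K C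
  let c := TensorProduct.equivFinsuppOfBasisRight b z
  have hc : ∀ i, c i ∈ M := fun i => by
    convert h (b.coord i) using 1
    simp only [c]
    clear h c
    induction z with
    | zero => simp
    | tmul r x => simp
    | add x y hx hy => simp [map_add, hx, hy]
  have hz : z = c.sum fun i r => r ⊗ₜ[K] b i := by
    conv_lhs => rw [← (TensorProduct.equivFinsuppOfBasisRight b).symm_apply_apply z]
    rw [TensorProduct.equivFinsuppOfBasisRight_symm_apply]
  rw [hz]
  exact Submodule.sum_mem _ fun i _ => ⟨(⟨c i, hc i⟩ : M) ⊗ₜ b i, rfl⟩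

variable {X T : Scheme.{u}} [X.Over (Spec (CommRingCat.of K))] [T.Over (Spec (CommRingCat.of K))]
  {ι : Type} [Finite ι] (W : ι → X.Opens) (V : T.Opens)

variable (K) in
/-- Functions on the boxes `W i × V` from tensors. -/
def secs : (∀ i, Γ(X, W i)) ⊗[K] Γ(T, V) →ₐ[K] ∀ i, Γ(prod K X T, box K (W i) V) :=
  Pi.algHom K _ fun i => (boxHom K (W i) V).comp
    (Algebra.TensorProduct.map (Pi.evalAlgHom K (fun i => Γ(X, W i)) i) (AlgHom.id K Γ(T, V)))

omit [Finite ι] in
lemma secs_apply (z : (∀ i, Γ(X, W i)) ⊗[K] Γ(T, V)) (i : ι) :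
    secs K W V z i = boxHom K (W i) V (compHom K _ (R := fun i => Γ(X, W i)) z i) := rfl

variable {W V}

omit [Finite ι] in
lemma secs_tmul (a : ∀ i, Γ(X, W i)) (b : Γ(T, V)) (i : ι) :
    secs K W V (a ⊗ₜ b) i =
      pb (p₁ K X T) (box_le_left _ _) (a i) * pb (p₂ K X T) (box_le_right _ _) b :=
  boxHom_tmul _ _ (a i) b

lemma secs_bijective (hW : ∀ i, IsAffineOpen (W i)) (hV : IsAffineOpen V) :
    Function.Bijective (secs K W V) :=
  (Function.Bijective.piMap fun i => boxHom_bijective_of_isAffineOpen (hW i) hV).comp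
    (compHom_bijective (K := K) Γ(T, V) (R := fun i => Γ(X, W i)))

omit [Finite ι] in
/-- Naturality for maps of families of opens. -/
lemma secs_reindex {κ : Type} {W' : κ → X.Opens} (σ : κ → ι) (hle : ∀ j, W' j ≤ W (σ j))
    (z : (∀ i, Γ(X, W i)) ⊗[K] Γ(T, V)) (j : κ) :
    secs K W' V (Algebra.TensorProduct.map
        (Pi.algHom K _ fun j => (rsAlg (K := K) (hle j)).comp
          (Pi.evalAlgHom K (fun i => Γ(X, W i)) (σ j))) (AlgHom.id K Γ(T, V)) z) j =
      rs (box_mono (hle j) le_rfl) (secs K W V z (σ j)) := by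
  induction z with
  | zero => simp only [map_zero, Pi.zero_apply]
  | tmul a b =>
    rw [Algebra.TensorProduct.map_tmul, secs_tmul, secs_tmul, map_mul, rs_pb, rs_pb]
    exact congrArg (· * _) (pb_rs (p₁ K X T) (hle j) (box_le_left _ _) (a (σ j)))
  | add x y hx hy => simp only [map_add, Pi.add_apply, hx, hy]

omit [Finite ι] in
lemma secs_α (z : (coverDatum K W).R₀ ⊗[K] Γ(T, V)) (p : ι × ι) :
    secs K (inter₂ W) V (CechDatum.ext Γ(T, V) (coverDatum K W).α z) p =
      rs (box_mono inf_le_left le_rfl) (secs K W V z p.1) :=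
  secs_reindex (W' := inter₂ W) Prod.fst (fun _ => inf_le_left) z p

omit [Finite ι] in
lemma secs_β (z : (coverDatum K W).R₀ ⊗[K] Γ(T, V)) (p : ι × ι) :
    secs K (inter₂ W) V (CechDatum.ext Γ(T, V) (coverDatum K W).β z) p =
      rs (box_mono inf_le_right le_rfl) (secs K W V z p.2) :=
  secs_reindex (W' := inter₂ W) Prod.snd (fun _ => inf_le_right) z p

omit [Finite ι] in
lemma secs_d₀₁ (z : (coverDatum K W).R₁ ⊗[K] Γ(T, V)) (p : ι × ι × ι) :
    secs K (inter₃ W) V (CechDatum.ext Γ(T, V) (coverDatum K W).d₀₁ z) p =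
      rs (box_mono inf_le_left le_rfl) (secs K (inter₂ W) V z (p.1, p.2.1)) :=
  secs_reindex (W := inter₂ W) (W' := inter₃ W) (fun p => (p.1, p.2.1))
    (fun _ => inf_le_left) z p

omit [Finite ι] in
lemma secs_d₁₂ (z : (coverDatum K W).R₁ ⊗[K] Γ(T, V)) (p : ι × ι × ι) :
    secs K (inter₃ W) V (CechDatum.ext Γ(T, V) (coverDatum K W).d₁₂ z) p =
      rs (box_mono (inf_le_inf_right _ inf_le_right) le_rfl)
        (secs K (inter₂ W) V z (p.2.1, p.2.2)) :=
  secs_reindex (W := inter₂ W) (W' := inter₃ W) (fun p => (p.2.1, p.2.2))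
    (fun _ => inf_le_inf_right _ inf_le_right) z p

omit [Finite ι] in
lemma secs_d₀₂ (z : (coverDatum K W).R₁ ⊗[K] Γ(T, V)) (p : ι × ι × ι) :
    secs K (inter₃ W) V (CechDatum.ext Γ(T, V) (coverDatum K W).d₀₂ z) p =
      rs (box_mono (inf_le_inf_right _ inf_le_left) le_rfl)
        (secs K (inter₂ W) V z (p.1, p.2.2)) :=
  secs_reindex (W := inter₂ W) (W' := inter₃ W) (fun p => (p.1, p.2.2))
    (fun _ => inf_le_inf_right _ inf_le_left) z p

section Pull

variable {X' : Scheme.{u}} [X'.Over (Spec (CommRingCat.of K))] (φ : X' ⟶ X)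
  [φ.IsOver (Spec (CommRingCat.of K))]

variable (K T) in
/-- `φ × id`. -/
def mapFst : prod K X' T ⟶ prod K X T :=
  pullback.lift (p₁ K X' T ≫ φ) (p₂ K X' T) (by
    rw [Category.assoc, comp_over]; exact pullback.condition)

@[simp, reassoc] lemma mapFst_p₁ : mapFst K T φ ≫ p₁ K X T = p₁ K X' T ≫ φ :=
  pullback.lift_fst _ _ _

@[simp, reassoc] lemma mapFst_p₂ : mapFst K T φ ≫ p₂ K X T = p₂ K X' T :=
  pullback.lift_snd _ _ _

lemma box_le_mapFst_preimage {U : X.Opens} {U' : X'.Opens} (h : U' ≤ φ ⁻¹ᵁ U) :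
    box K U' V ≤ mapFst K T φ ⁻¹ᵁ box K U V := by
  rw [box, box, Scheme.Hom.preimage_inf, ← Scheme.Hom.comp_preimage,
    ← Scheme.Hom.comp_preimage, mapFst_p₁, mapFst_p₂, Scheme.Hom.comp_preimage]
  exact inf_le_inf_right _ ((p₁ K X' T).preimage_mono h)

omit [Finite ι] in
/-- Naturality under `φ × id`. -/
lemma secs_pull {W' : ι → X'.Opens} (hle : ∀ i, W' i ≤ φ ⁻¹ᵁ W i)
    (z : (∀ i, Γ(X, W i)) ⊗[K] Γ(T, V)) (i : ι) :
    secs K W' V (Algebra.TensorProduct.map
        (Pi.algHom K _ fun i => (pbAlg (K := K) φ (hle i)).comp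
          (Pi.evalAlgHom K (fun i => Γ(X, W i)) i)) (AlgHom.id K Γ(T, V)) z) i =
      pb (mapFst K T φ) (box_le_mapFst_preimage φ (hle i)) (secs K W V z i) := by
  induction z with
  | zero => simp only [map_zero, Pi.zero_apply]
  | tmul a b =>
    rw [Algebra.TensorProduct.map_tmul, secs_tmul, secs_tmul, map_mul, pb_pb, pb_pb,
      pb_congr (mapFst_p₁ φ), pb_congr (mapFst_p₂ φ),
      ← pb_pb (p₁ K X' T) φ (hle i) (box_le_left _ _)]
    rfl
  | add x y hx hy => simp only [map_add, Pi.add_apply, hx, hy]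

omit [Finite ι] in
lemma secs_coverHom_f₀ (z : (coverDatum K W).R₀ ⊗[K] Γ(T, V)) (i : ι) :
    secs K (fun i => φ ⁻¹ᵁ W i) V (CechDatum.ext Γ(T, V) (coverHom K W φ).f₀ z) i =
      pb (mapFst K T φ) (box_le_mapFst_preimage φ le_rfl) (secs K W V z i) :=
  secs_pull φ (fun _ => le_rfl) z i

omit [Finite ι] in
lemma secs_coverHom_f₁ (z : (coverDatum K W).R₁ ⊗[K] Γ(T, V)) (p : ι × ι) :
    secs K (inter₂ fun i => φ ⁻¹ᵁ W i) V (CechDatum.ext Γ(T, V) (coverHom K W φ).f₁ z) p =
      pb (mapFst K T φ) (box_le_mapFst_preimage φ (le_of_eq φ.preimage_inf.symm))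
        (secs K (inter₂ W) V z p) :=
  secs_pull (W := inter₂ W) φ (fun _ => le_of_eq φ.preimage_inf.symm) z p

end Pull

variable {t₀ : Spec (CommRingCat.of K) ⟶ T} {ht₀ : t₀ ≫ (T ↘ Spec (CommRingCat.of K)) = 𝟙 _}

omit [Finite ι] in
/-- The value at the origin is the restriction to `X × {t₀}`. -/
lemma evC_secs [Finite ι] (h : ⊤ ≤ t₀ ⁻¹ᵁ V) (z : (∀ i, Γ(X, W i)) ⊗[K] Γ(T, V)) (i : ι) :
    evC (∀ i, Γ(X, W i)) (evPt K t₀ ht₀ h) z i =
      pb (axisLeft (X := X) K t₀ ht₀) (le_axisLeft_preimage h) (secs K W V z i) := by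
  rw [secs_apply, pb_axisLeft_boxHom h, ← rid_lTensor_compHom (R := fun i => Γ(X, W i))]
  induction z with
  | zero => simp only [map_zero, Pi.zero_apply]
  | tmul a b => simp only [evC_tmul, LinearMap.lTensor_tmul, TensorProduct.rid_tmul,
      AlgHom.toLinearMap_apply]
  | add x y hx hy => simp only [map_add, Pi.add_apply, hx, hy]

section Geometry

variable [IsSeparated (T ↘ Spec (CommRingCat.of K))]

/-- A rational point gives a closed immersion `X ⟶ X × T`. -/
lemma isClosedImmersion_axisLeft : IsClosedImmersion (axisLeft (X := X) K t₀ ht₀) := by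
  have : IsClosedImmersion (axisLeft (X := X) K t₀ ht₀ ≫ p₁ K X T) := by
    rw [axisLeft_p₁]; infer_instance
  exact MorphismProperty.of_postcomp @IsClosedImmersion (W' := @IsSeparated) _ (p₁ K X T)
    inferInstance this

end Geometry

/-- Global functions on a proper integral variety over an algebraically closed field. -/
theorem globalConst_of_proper [IsAlgClosed K] [AlgebraicGeometry.IsIntegral X]
    [IsProper (X ↘ Spec (CommRingCat.of K))] (s : Γ(X, ⊤)) :
    ∃ r : K, s = algebraMap K Γ(X, ⊤) r := by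
  have : IsDomain Γ(X, ⊤) := inferInstance
  have hfin := finite_appTop_of_universallyClosed K (X ↘ Spec (CommRingCat.of K))
  have halg : (algebraMap K Γ(X, ⊤)).Finite := by
    have e : Scheme.Hom.appLE (X ↘ Spec (CommRingCat.of K)) ⊤ ⊤ le_top =
        (X ↘ Spec (CommRingCat.of K)).appTop :=
      (Scheme.Hom.app_eq_appLE (X ↘ Spec (CommRingCat.of K))).symm
    rw [sectionsAlgebra_algebraMap, secAlgMap, CommRingCat.hom_comp, e]
    exact hfin.comp (RingHom.Finite.of_surjective _
      (Scheme.ΓSpecIso (CommRingCat.of K)).symm.commRingCatIsoToRingEquiv.surjective)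
  have : Module.Finite K Γ(X, ⊤) := halg
  obtain ⟨r, hr⟩ :=
    (IsAlgClosed.algebraMap_bijective_of_isIntegral (k := K) (K := Γ(X, ⊤))).2 s
  exact ⟨r, hr.symm⟩

end Cube

end FLTA.AbelianVar
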