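import Fermat.Agent.AbelianVar.Cube.CechAlg
import Fermat.Agent.AbelianVar.Cube.Box
import Mathlib.RingTheory.TensorProduct.Pi

/-!
# The Čech datum of a finite open cover
-/

set_option autoImplicit false

universe u

open CategoryTheory CategoryTheory.Limits AlgebraicGeometry TopologicalSpace TensorProduct

noncomputable section

namespace FLTA.AbelianVar.Cube

variable {K : Type u} [Field K] {X : Scheme.{u}} [X.Over (Spec (CommRingCat.of K))]
  {ι : Type} (W : ι → X.Opens)

/-- Double intersections. -/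
abbrev inter₂ (p : ι × ι) : X.Opens := W p.1 ⊓ W p.2

/-- Triple intersections. -/
abbrev inter₃ (p : ι × ι × ι) : X.Opens := W p.1 ⊓ W p.2.1 ⊓ W p.2.2

variable (K) in
/-- The functions on a cover and on its double and triple intersections. -/
def coverDatum : CechDatum K where
  R₀ := ∀ i, Γ(X, W i)
  R₁ := ∀ p : ι × ι, Γ(X, inter₂ W p)
  R₂ := ∀ p : ι × ι × ι, Γ(X, inter₃ W p)
  α := Pi.algHom K _ fun p => (rsAlg (K := K) (U := W p.1) inf_le_left).comp (Pi.evalAlgHom K _ p.1)
  β := Pi.algHom K _ fun p => (rsAlg (K := K) (U := W p.2) inf_le_right).comp (Pi.evalAlgHom K _ p.2)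
  d₀₁ := Pi.algHom K _ fun p => (rsAlg (K := K) (U := inter₂ W (p.1, p.2.1)) (V := inter₃ W p)
    inf_le_left).comp (Pi.evalAlgHom K _ (p.1, p.2.1))
  d₁₂ := Pi.algHom K _ fun p => (rsAlg (K := K) (U := inter₂ W (p.2.1, p.2.2)) (V := inter₃ W p)
    (inf_le_inf_right _ inf_le_right)).comp (Pi.evalAlgHom K _ (p.2.1, p.2.2))
  d₀₂ := Pi.algHom K _ fun p => (rsAlg (K := K) (U := inter₂ W (p.1, p.2.2)) (V := inter₃ W p)
    (inf_le_inf_right _ inf_le_left)).comp (Pi.evalAlgHom K _ (p.1, p.2.2))
  h₀ := AlgHom.ext fun a => funext fun p => (rs_rs _ _ (a p.1)).trans (rs_rs _ _ (a p.1)).symm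
  h₁ := AlgHom.ext fun a => funext fun p => (rs_rs _ _ (a p.2.1)).trans (rs_rs _ _ (a p.2.1)).symm
  h₂ := AlgHom.ext fun a => funext fun p => (rs_rs _ _ (a p.2.2)).trans (rs_rs _ _ (a p.2.2)).symm

lemma coverDatum_α (a : (coverDatum K W).R₀) (p : ι × ι) :
    (coverDatum K W).α a p = rs (X := X) (W := W p.1) inf_le_left (a p.1) := rfl

lemma coverDatum_β (a : (coverDatum K W).R₀) (p : ι × ι) :
    (coverDatum K W).β a p = rs (X := X) (W := W p.2) inf_le_right (a p.2) := rfl

/-- On a finite cover of a scheme whose global functions are constant, compatible families are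
constant. -/
lemma coverDatum_globalConst (hcov : ⊤ ≤ ⨆ i, W i)
    (hconst : ∀ s : Γ(X, ⊤), ∃ r : K, s = algebraMap K Γ(X, ⊤) r) :
    (coverDatum K W).GlobalConst := by
  intro a ha
  obtain ⟨s, hs, -⟩ := X.sheaf.existsUnique_gluing' W ⊤ (fun i => homOfLE le_top) hcov a
    (fun i j => congrFun ha (i, j))
  obtain ⟨r, rfl⟩ := hconst s
  refine ⟨r, funext fun i => (hs i).symm.trans ?_⟩
  exact rs_algebraMap (X := X) (le_top : W i ≤ ⊤) r

variable {X' : Scheme.{u}} [X'.Over (Spec (CommRingCat.of K))] (φ : X' ⟶ X)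
  [φ.IsOver (Spec (CommRingCat.of K))]

variable (K) in
/-- Pullback to the preimage cover. -/
def coverHom : (coverDatum K W).Hom (coverDatum K fun i => φ ⁻¹ᵁ W i) where
  f₀ := Pi.algHom K _ fun i => (pbAlg (K := K) φ le_rfl).comp (Pi.evalAlgHom K _ i)
  f₁ := Pi.algHom K _ fun p => (pbAlg (K := K) φ (W := inter₂ W p)
    (le_of_eq φ.preimage_inf.symm)).comp (Pi.evalAlgHom K _ p)
  hα := AlgHom.ext fun a => funext fun p =>
    (pb_rs φ inf_le_left _ (a p.1)).trans (rs_pb φ le_rfl inf_le_left (a p.1)).symm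
  hβ := AlgHom.ext fun a => funext fun p =>
    (pb_rs φ inf_le_right _ (a p.2)).trans (rs_pb φ le_rfl inf_le_right (a p.2)).symm

lemma coverHom_f₀ (a : (coverDatum K W).R₀) (i : ι) :
    (coverHom K W φ).f₀ a i = pb φ (W := W i) le_rfl (a i) := rfl

section Components

variable {κ : Type} [Finite κ] {R : κ → Type u} [∀ i, CommRing (R i)] [∀ i, Algebra K (R i)]
  (B : Type u) [CommRing B] [Algebra K B]

variable (K) in
/-- The components of an element of `(∏ Rᵢ) ⊗ B`. -/
def compHom : (∀ i, R i) ⊗[K] B →ₐ[K] ∀ i, R i ⊗[K] B :=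
  Pi.algHom K _ fun i => Algebra.TensorProduct.map (Pi.evalAlgHom K R i) (AlgHom.id K B)

lemma compHom_apply (z : (∀ i, R i) ⊗[K] B) (i : κ) :
    compHom K B z i = Algebra.TensorProduct.map (Pi.evalAlgHom K R i) (AlgHom.id K B) z := rfl

lemma compHom_bijective : Function.Bijective (compHom K B (R := R)) := by
  classical
  cases nonempty_fintype κ
  have h : (compHom K B (R := R) : (∀ i, R i) ⊗[K] B → ∀ i, R i ⊗[K] B)
      = TensorProduct.piLeft K B R := by
    funext z
    induction z with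
    | zero => simp
    | tmul a b => ext i; simp [compHom_apply]
    | add x y hx hy => rw [map_add, map_add, hx, hy]
  rw [h]
  exact (TensorProduct.piLeft K B R).bijective

/-- An element is determined by its components. -/
lemma compHom_injective : Function.Injective (compHom K B (R := R)) := (compHom_bijective B).1

end Components

end FLTA.AbelianVar.Cube
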