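import Fermat.Agent.AbelianVar.Cube.Transition

/-!
# Formal sections, and their algebraisation

A bundle on `X × V` which is trivial on `X × {t₀}` and on two faces, such that `H¹(X, 𝒪)` is
detected on the faces, has formal sections; if these lie in a finite dimensional space, it has a
nonzero coordinate vector.
-/

set_option autoImplicit false

universe u

open CategoryTheory CategoryTheory.Limits AlgebraicGeometry TopologicalSpace TensorProduct

noncomputable section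

namespace FLTA.AbelianVar.Cube

open LB CechDatum

section Abstract

variable {K : Type u} [Field K]

/-- A solution whose value is an invertible constant can be normalised. -/
lemma exists_normalised_solution {D : CechDatum K} {B : Type u} [CommRing B] [Algebra K B]
    (ev : B →ₐ[K] K) {P Q : D.R₁ ⊗[K] B} {w : D.R₀ ⊗[K] B} (hw : D.IsSolution B P Q w) {c : K}
    (hc : evC D.R₀ ev w = algebraMap K D.R₀ c) {r : D.R₀} (hr : evC D.R₀ ev w * r = 1) :
    ∃ w₁, D.IsSolution B P Q w₁ ∧ evC D.R₀ ev w₁ = 1 := by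
  rcases eq_or_ne c 0 with rfl | hc0
  · rw [hc, map_zero, zero_mul] at hr
    exact ⟨w, hw, @Subsingleton.elim _ (subsingleton_of_zero_eq_one hr) _ _⟩
  · refine ⟨c⁻¹ • w, ?_, ?_⟩
    · show _ * _ = _ * _
      rw [map_smul, map_smul, mul_smul_comm, mul_smul_comm]
      exact congrArg (c⁻¹ • ·) hw
    · rw [map_smul, hc, Algebra.algebraMap_eq_smul_one, smul_smul, inv_mul_cancel₀ hc0, one_smul]

/-- Formal triviality of the system `(P, Q)` over an Artinian coefficient algebra. -/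
lemma exists_formal_solution {D Dl Dr : CechDatum K} (φl : D.Hom Dl) (φr : D.Hom Dr)
    (hl : Dl.GlobalConst) (hr : Dr.GlobalConst)
    (hK : ∀ c, D.IsAddCocycle c → Dl.IsAddCoboundary (φl.f₁ c) →
      Dr.IsAddCoboundary (φr.f₁ c) → D.IsAddCoboundary c)
    {B C : Type u} [CommRing B] [Algebra K B] [CommRing C] [Algebra K C] [IsNoetherianRing C]
    (mk : B →ₐ[K] C) (ev : B →ₐ[K] K) (e : C →ₐ[K] K) (he : e.comp mk = ev) (n : ℕ)
    (hker : RingHom.ker e ^ n ≤ (⊥ : Ideal C)) (P Q : D.R₁ ⊗[K] B)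
    (hP1 : evC D.R₁ ev P = 1) (hQ1 : evC D.R₁ ev Q = 1)
    (hcoc : ext B D.d₀₁ Q * ext B D.d₁₂ Q * ext B D.d₀₂ P =
      ext B D.d₀₁ P * ext B D.d₁₂ P * ext B D.d₀₂ Q)
    (wl : Dl.R₀ ⊗[K] B) (hwl : Dl.IsSolution B (ext B φl.f₁ P) (ext B φl.f₁ Q) wl)
    (hwl1 : evC Dl.R₀ ev wl = 1)
    (wr : Dr.R₀ ⊗[K] B) (hwr : Dr.IsSolution B (ext B φr.f₁ P) (ext B φr.f₁ Q) wr)
    (hwr1 : evC Dr.R₀ ev wr = 1) :
    ∃ a : D.R₀ ⊗[K] C, D.IsSolution C (coe' D.R₁ mk P) (coe' D.R₁ mk Q) a ∧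
      evC D.R₀ e a = 1 := by
  have hev : ∀ (R : Type u) [CommRing R] [Algebra K R] (x : R ⊗[K] B),
      evC R e (coe' R mk x) = evC R ev x := fun R _ _ x => by rw [evC_coe', he]
  have hnil : ∀ c, e c = 0 → IsNilpotent c := fun c hc =>
    ⟨n, hker (Ideal.pow_mem_pow (show c ∈ RingHom.ker e from hc) _)⟩
  have hPu : IsUnit (coe' D.R₁ mk P) := isUnit_of_evC_eq_one e hnil (by rw [hev, hP1])
  obtain ⟨u, hPu'⟩ : ∃ u, coe' D.R₁ mk P * u = coe' D.R₁ mk Q :=
    ⟨↑hPu.unit⁻¹ * coe' D.R₁ mk Q, by rw [← mul_assoc, IsUnit.mul_val_inv, one_mul]⟩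
  have hu1 : evC D.R₁ e u = 1 := by
    have h1 := congrArg (evC D.R₁ e) hPu'
    rwa [map_mul, hev, hev, hP1, hQ1, one_mul] at h1
  have hucoc : D.IsUnitCocycle C u := by
    have h1 := congrArg (coe' D.R₂ mk) hcoc
    simp only [map_mul, ← ext_coe', ← hPu'] at h1
    refine ((hPu.map (ext C D.d₀₁)).mul
      ((hPu.map (ext C D.d₁₂)).mul (hPu.map (ext C D.d₀₂)))).mul_left_cancel ?_
    show _ * (ext C D.d₀₁ u * ext C D.d₁₂ u) = _ * ext C D.d₀₂ u
    linear_combination h1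
  have hface : ∀ {D' : CechDatum K} (ψ : D.Hom D') (w : D'.R₀ ⊗[K] B),
      D'.IsSolution B (ext B ψ.f₁ P) (ext B ψ.f₁ Q) w →
      D'.IsSection C (ext C ψ.f₁ u) (coe' D'.R₀ mk w) := by
    intro D' ψ w hw
    have h1 := congrArg (coe' D'.R₁ mk) hw
    simp only [map_mul, ← ext_coe', ← hPu'] at h1
    refine (hPu.map (ext C ψ.f₁)).mul_left_cancel ?_
    rw [← mul_assoc]
    exact h1
  obtain ⟨a, ha, ha1⟩ := exists_trivialisation_mod (B := C) φl φr
    hl hr hK e u hucoc hu1 (coe' _ mk wl) (hface _ wl hwl) (by rw [hev, hwl1])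
    (coe' _ mk wr) (hface _ wr hwr) (by rw [hev, hwr1]) n ⊥ hker bot_le
  let σ : (C ⧸ (⊥ : Ideal C)) →ₐ[K] C :=
    Ideal.Quotient.liftₐ ⊥ (AlgHom.id K C) (fun x hx => hx)
  have hσ : σ.comp (Ideal.Quotient.mkₐ K ⊥) = AlgHom.id K C := AlgHom.ext fun x => rfl
  have hσu : coe' D.R₁ σ (coe' D.R₁ (Ideal.Quotient.mkₐ K ⊥) u) = u := by
    rw [← AlgHom.comp_apply, ← Algebra.TensorProduct.map_comp, AlgHom.comp_id, hσ,
      Algebra.TensorProduct.map_id]
    rfl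
  refine ⟨coe' D.R₀ σ a, ?_, ?_⟩
  · have h1 := congrArg (coe' D.R₁ σ) ha
    rw [map_mul, hσu, ← ext_coe', ← ext_coe'] at h1
    show _ * _ = _ * _
    rw [h1, ← mul_assoc, hPu']
  · rw [evC_coe', show e.comp σ = Ideal.Quotient.liftₐ (⊥ : Ideal C) e (bot_le : (⊥ : Ideal C) ≤ RingHom.ker e) from
      Ideal.Quotient.algHom_ext K (AlgHom.ext fun z => rfl), ha1]

end Abstract

variable {K : Type u} [Field K] {X T : Scheme.{u}} [X.Over (Spec (CommRingCat.of K))]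
  [T.Over (Spec (CommRingCat.of K))] {L : LB (prod K X T)} {ι : Type} [Finite ι]
  {W : ι → X.Opens} {V : T.Opens}
  {t₀ : Spec (CommRingCat.of K) ⟶ T} {ht₀ : t₀ ≫ (T ↘ Spec (CommRingCat.of K)) = 𝟙 _}

omit [Finite ι] in
/-- Pairing does not depend on which of `L`, `L⁻¹` comes first. -/
lemma pair_comm {O : (prod K X T).Opens} (s : Sec L O) (s' : Sec L.inv O) :
    Sec.pair (L := L.inv) s' s = Sec.pair s s' := by
  refine Sec.pair_ext (L := L) fun x U hU hx => ?_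
  rw [Sec.pair_spec s s' x U hU hx, mul_comm]
  exact Sec.pair_spec (L := L.inv) s' s x U hU hx

variable (t : ∀ i, Sec L (box K (W i) V)) (t' : ∀ i, Sec L.inv (box K (W i) V))

/-- The pairings of `t`, `t'` are `1` on `X × {t₀}`. -/
def IsNormalised (h₀ : ⊤ ≤ t₀ ⁻¹ᵁ V) : Prop :=
  ∀ (i j : ι) (U : X.Opens) (hi : U ≤ W i) (hj : U ≤ W j),
    pb (axisLeft (X := X) K t₀ ht₀) (le_axisLeft_preimage (U := U) h₀)
      (Sec.pair (Sec.res (box_mono hi le_rfl) (t i)) (Sec.res (box_mono hj le_rfl) (t' j))) = 1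

variable {t t'}

omit [Finite ι] in
lemma IsNormalised.self {h₀ : ⊤ ≤ t₀ ⁻¹ᵁ V} (h : IsNormalised (ht₀ := ht₀) t t' h₀) (i : ι) :
    pb (axisLeft (X := X) K t₀ ht₀) (le_axisLeft_preimage (U := W i) h₀)
      (Sec.pair (t i) (t' i)) = 1 :=
  h i i (W i) le_rfl le_rfl

omit [Finite ι] in
lemma IsNormalised.swap {h₀ : ⊤ ≤ t₀ ⁻¹ᵁ V} (h : IsNormalised (ht₀ := ht₀) t t' h₀) :
    IsNormalised (ht₀ := ht₀) (L := L.inv) t' t h₀ := fun i j U hi hj => by
  rw [show Sec.pair (L := L.inv) (Sec.res (box_mono hi le_rfl) (t' i))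
    (Sec.res (box_mono hj le_rfl) (t j)) = _ from pair_comm _ _]
  exact h j i U hj hi

/-- The coefficient systems are congruent to `1`. -/
lemma evC_eq_one {h₀ : ⊤ ≤ t₀ ⁻¹ᵁ V} (h : IsNormalised (ht₀ := ht₀) t t' h₀)
    {P Q : (coverDatum K W).R₁ ⊗[K] Γ(T, V)} (hP : secs K (inter₂ W) V P = crossPair t t')
    (hQ : secs K (inter₂ W) V Q = selfPair t t') :
    evC (coverDatum K W).R₁ (evPt K t₀ ht₀ h₀) P = 1 ∧
      evC (coverDatum K W).R₁ (evPt K t₀ ht₀ h₀) Q = 1 := by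
  constructor
  · funext p
    refine (evC_secs (W := inter₂ W) h₀ P p).trans ?_
    rw [hP]
    exact h p.1 p.2 _ inf_le_left inf_le_right
  · funext p
    refine (evC_secs (W := inter₂ W) h₀ Q p).trans ?_
    rw [hQ, selfPair, Sec.rs_pair]
    exact h p.1 p.1 _ inf_le_left inf_le_left

/-- The cocycle identity. -/
lemma cocycle_identity (hW₃ : ∀ p, IsAffineOpen (inter₃ W p)) (hV : IsAffineOpen V)
    {P Q : (coverDatum K W).R₁ ⊗[K] Γ(T, V)} (hP : secs K (inter₂ W) V P = crossPair t t')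
    (hQ : secs K (inter₂ W) V Q = selfPair t t') :
    ext Γ(T, V) (coverDatum K W).d₀₁ Q * ext Γ(T, V) (coverDatum K W).d₁₂ Q *
        ext Γ(T, V) (coverDatum K W).d₀₂ P =
      ext Γ(T, V) (coverDatum K W).d₀₁ P * ext Γ(T, V) (coverDatum K W).d₁₂ P *
        ext Γ(T, V) (coverDatum K W).d₀₂ Q := by
  refine (secs_bijective hW₃ hV).1 (funext fun p => ?_)
  have hm : ∀ (x y : (coverDatum K W).R₂ ⊗[K] Γ(T, V)),
      secs K (inter₃ W) V (x * y) p = secs K (inter₃ W) V x p * secs K (inter₃ W) V y p :=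
    fun x y => congrFun (map_mul (secs K (inter₃ W) V) x y) p
  refine (hm _ _).trans ?_
  rw [hm]
  refine Eq.trans ?_ ((hm _ _).trans (congrArg (· * _) (hm _ _))).symm
  rw [secs_d₀₁, secs_d₁₂, secs_d₀₂, secs_d₀₁, secs_d₁₂, secs_d₀₂, hP, hQ]
  simp only [crossPair, selfPair, Sec.rs_pair, Sec.res_res]
  obtain ⟨i, j, k⟩ := p
  set O := box K (inter₃ W (i, j, k)) V
  have hi : O ≤ box K (W i) V := box_mono (inf_le_left.trans inf_le_left) le_rfl
  have hj : O ≤ box K (W j) V := box_mono (inf_le_left.trans inf_le_right) le_rfl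
  have hk : O ≤ box K (W k) V := box_mono inf_le_right le_rfl
  have key := Sec.pair_mul_pair (Sec.res hj (t j)) (Sec.res hi (t i)) (Sec.res hj (t' j))
    (Sec.res hk (t' k))
  show Sec.pair (Sec.res hi (t i)) (Sec.res hi (t' i)) * Sec.pair (Sec.res hj (t j))
      (Sec.res hj (t' j)) * Sec.pair (Sec.res hi (t i)) (Sec.res hk (t' k)) =
    Sec.pair (Sec.res hi (t i)) (Sec.res hj (t' j)) * Sec.pair (Sec.res hj (t j))
      (Sec.res hk (t' k)) * Sec.pair (Sec.res hi (t i)) (Sec.res hi (t' i))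
  linear_combination (Sec.pair (Sec.res hi (t i)) (Sec.res hi (t' i))) * key

variable {X' : Scheme.{u}} [X'.Over (Spec (CommRingCat.of K))] (φ : X' ⟶ X)
  [φ.IsOver (Spec (CommRingCat.of K))] [IsAffineHom φ]

/-- On a face where the bundle is trivial there is a section congruent to `1`. -/
lemma exists_face_solution (hW : ∀ i, IsAffineOpen (W i)) (hW₂ : ∀ p, IsAffineOpen (inter₂ W p))
    (hV : IsAffineOpen V) {h₀ : ⊤ ≤ t₀ ⁻¹ᵁ V} (h : IsNormalised (ht₀ := ht₀) t t' h₀)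
    {P Q : (coverDatum K W).R₁ ⊗[K] Γ(T, V)} (hP : secs K (inter₂ W) V P = crossPair t t')
    (hQ : secs K (inter₂ W) V Q = selfPair t t')
    (hcF : (coverDatum K fun i => φ ⁻¹ᵁ W i).GlobalConst)
    (hF : Pic.pull (mapFst K T φ) (Pic.mk L) = 0) :
    ∃ w : (coverDatum K fun i => φ ⁻¹ᵁ W i).R₀ ⊗[K] Γ(T, V),
      (coverDatum K fun i => φ ⁻¹ᵁ W i).IsSolution Γ(T, V)
        (ext Γ(T, V) (coverHom K W φ).f₁ P) (ext Γ(T, V) (coverHom K W φ).f₁ Q) w ∧
      evC (coverDatum K fun i => φ ⁻¹ᵁ W i).R₀ (evPt K t₀ ht₀ h₀) w = 1 := by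
  rw [Pic.pull_mk, pic_mk_eq_zero_iff] at hF
  obtain ⟨ρ, hρ⟩ := hF
  obtain ⟨ρ', hρρ'⟩ := Sec.exists_dual ρ hρ
  let m := mapFst K T φ
  let W' : ι → X'.Opens := fun i => φ ⁻¹ᵁ W i
  have hW' : ∀ i, IsAffineOpen (W' i) := fun i => (hW i).preimage φ
  have hW₂' : ∀ p, IsAffineOpen (inter₂ W' p) := fun p => by
    show IsAffineOpen (φ ⁻¹ᵁ W p.1 ⊓ φ ⁻¹ᵁ W p.2)
    rw [← φ.preimage_inf]
    exact (hW₂ p).preimage φ
  let U : ∀ i, Sec (L.pull m) (box K (W' i) V) := fun i =>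
    Sec.pull m (box_le_mapFst_preimage φ le_rfl) (t i)
  let U' : ∀ i, Sec (L.pull m).inv (box K (W' i) V) := fun i =>
    Sec.pullInv m (Sec.pull m (box_le_mapFst_preimage φ le_rfl) (t' i))
  have hcross : ∀ p : ι × ι, crossPair U U' p =
      pb m (box_le_mapFst_preimage φ (le_of_eq φ.preimage_inf.symm))
        (crossPair t t' p) := fun p => by
    rw [crossPair, crossPair, Sec.pb_pair]
    congr 1
    · exact (Sec.pull_res m _ (box_mono inf_le_left le_rfl) _ _ (t p.1)).symm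
    · exact (congrArg (Sec.pullInv m)
        (Sec.pull_res m _ (box_mono inf_le_right le_rfl) _ _ (t' p.2))).symm
  have hself : ∀ p : ι × ι, selfPair U U' p =
      pb m (box_le_mapFst_preimage φ (le_of_eq φ.preimage_inf.symm))
        (selfPair t t' p) := fun p => by
    rw [selfPair, selfPair, pb_rs, ← Sec.pb_pair, rs_pb]
  have hP' : secs K (inter₂ W') V (ext Γ(T, V) (coverHom K W φ).f₁ P) = crossPair U U' :=
    funext fun p => (secs_coverHom_f₁ φ P p).trans ((congrArg _ (congrFun hP p)).trans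
      (hcross p).symm)
  have hQ' : secs K (inter₂ W') V (ext Γ(T, V) (coverHom K W φ).f₁ Q) = selfPair U U' :=
    funext fun p => (secs_coverHom_f₁ φ Q p).trans ((congrArg _ (congrFun hQ p)).trans
      (hself p).symm)
  let σ : ∀ i, Sec (L.pull m) (box K (W' i) V) := fun i => Sec.res le_top ρ
  obtain ⟨w, hw⟩ := (secs_bijective hW' hV).2 fun i => Sec.pair (σ i) (U' i)
  obtain ⟨w', hw'⟩ := (secs_bijective hW' hV).2 fun i => Sec.pair (U i) (Sec.res le_top ρ')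
  obtain ⟨A, hA⟩ := (secs_bijective hW hV).2 fun i => Sec.pair (t i) (t' i)
  have hsol : (coverDatum K W').IsSolution Γ(T, V) (ext Γ(T, V) (coverHom K W φ).f₁ P)
      (ext Γ(T, V) (coverHom K W φ).f₁ Q) w := by
    refine (isSolution_iff U U' hW₂' hV hP' hQ' w).2 ?_
    rw [hw]
    exact isSolOn_pair U U' σ fun p => rfl
  -- the value at `t₀` is a constant
  obtain ⟨c, hc⟩ := hcF (evC _ (evPt K t₀ ht₀ h₀) w) (by
    obtain ⟨hP1, hQ1⟩ := evC_eq_one h hP hQ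
    have h1 := congrArg (evC (coverDatum K W').R₁ (evPt K t₀ ht₀ h₀)) hsol
    rw [map_mul, map_mul, evC_ext (coverHom K W φ).f₁ _ P, evC_ext (coverHom K W φ).f₁ _ Q, hP1, hQ1, map_one, one_mul, one_mul] at h1
    exact (evC_ext _ _ _).symm.trans (h1.trans (evC_ext _ _ _)))
  -- which is not zero
  have hww' : w * w' = ext Γ(T, V) (coverHom K W φ).f₀ A := by
    refine (secs_bijective hW' hV).1 (funext fun i => ?_)
    refine (congrFun (map_mul (secs K W' V) w w') i).trans ?_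
    refine (congrArg₂ (· * ·) (congrFun hw i) (congrFun hw' i)).trans ?_
    refine Eq.trans ?_ (secs_coverHom_f₀ φ A i).symm
    rw [hA, Sec.pb_pair, Sec.pair_mul_pair, ← Sec.rs_pair]
    rw [hρρ']
    rw [map_one, one_mul]
  have hA1 : evC (coverDatum K W).R₀ (evPt K t₀ ht₀ h₀) A = 1 := funext fun i =>
    (evC_secs h₀ A i).trans ((congrArg _ (congrFun hA i)).trans (h.self i))
  have hc1 := congrArg (evC (coverDatum K W').R₀ (evPt K t₀ ht₀ h₀)) hww'
  have h2 : evC (coverDatum K W').R₀ (evPt K t₀ ht₀ h₀)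
      (ext Γ(T, V) (coverHom K W φ).f₀ A) = 1 :=
    (evC_ext _ _ A).trans ((congrArg _ hA1).trans (map_one _))
  replace hc1 : evC (coverDatum K W').R₀ (evPt K t₀ ht₀ h₀) w *
      evC (coverDatum K W').R₀ (evPt K t₀ ht₀ h₀) w' = 1 :=
    (map_mul _ w w').symm.trans (hc1.trans h2)
  exact exists_normalised_solution _ hsol hc hc1

omit φ in
/-- The coordinate system has a nonzero solution over `V`. -/
theorem exists_isSolOn_ne_zero [Nonempty X] (hW : ∀ i, IsAffineOpen (W i))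
    (hW₂ : ∀ p, IsAffineOpen (inter₂ W p)) (hW₃ : ∀ p, IsAffineOpen (inter₃ W p))
    (hcov : ⊤ ≤ ⨆ i, W i) (hV : IsAffineOpen V)
    [IsNoetherianRing Γ(T, V)] [IsDomain Γ(T, V)] {h₀ : ⊤ ≤ t₀ ⁻¹ᵁ V}
    (h : IsNormalised (ht₀ := ht₀) t t' h₀)
    {Xl Xr : Scheme.{u}} [Xl.Over (Spec (CommRingCat.of K))] [Xr.Over (Spec (CommRingCat.of K))]
    (φl : Xl ⟶ X) [φl.IsOver (Spec (CommRingCat.of K))] [IsAffineHom φl]
    (φr : Xr ⟶ X) [φr.IsOver (Spec (CommRingCat.of K))] [IsAffineHom φr]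
    (hcl : (coverDatum K fun i => φl ⁻¹ᵁ W i).GlobalConst)
    (hcr : (coverDatum K fun i => φr ⁻¹ᵁ W i).GlobalConst)
    (hFl : Pic.pull (mapFst K T φl) (Pic.mk L) = 0)
    (hFr : Pic.pull (mapFst K T φr) (Pic.mk L) = 0)
    (hK : ∀ c, (coverDatum K W).IsAddCocycle c →
      (coverDatum K fun i => φl ⁻¹ᵁ W i).IsAddCoboundary ((coverHom K W φl).f₁ c) →
      (coverDatum K fun i => φr ⁻¹ᵁ W i).IsAddCoboundary ((coverHom K W φr).f₁ c) →
      (coverDatum K W).IsAddCoboundary c)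
    (hM : ∀ P Q : (coverDatum K W).R₁ ⊗[K] Γ(T, V), secs K (inter₂ W) V P = crossPair t t' →
      secs K (inter₂ W) V Q = selfPair t t' →
      ∃ M : Submodule K (coverDatum K W).R₀, Module.Finite K M ∧
      ∀ (n : ℕ) (a : (coverDatum K W).R₀ ⊗[K]
          (Γ(T, V) ⧸ RingHom.ker (evPt K t₀ ht₀ h₀) ^ (n + 1))),
        (coverDatum K W).IsSolution _
          (coe' (coverDatum K W).R₁ (Ideal.Quotient.mkₐ K _) P)
          (coe' (coverDatum K W).R₁ (Ideal.Quotient.mkₐ K _) Q) a →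
        a ∈ LinearMap.range (M.subtype.rTensor
          (Γ(T, V) ⧸ RingHom.ker (evPt K t₀ ht₀ h₀) ^ (n + 1)))) :
    ∃ a : ∀ i, Γ(prod K X T, box K (W i) V), IsSolOn t t' a ∧ a ≠ 0 := by
  classical
  obtain ⟨P, hP⟩ := (secs_bijective hW₂ hV).2 (crossPair t t')
  obtain ⟨Q, hQ⟩ := (secs_bijective hW₂ hV).2 (selfPair t t')
  obtain ⟨hP1, hQ1⟩ := evC_eq_one h hP hQ
  obtain ⟨M, hMfin, hM⟩ := hM P Q hP hQ
  obtain ⟨wl, hwl, hwl1⟩ := exists_face_solution φl hW hW₂ hV h hP hQ hcl hFl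
  obtain ⟨wr, hwr, hwr1⟩ := exists_face_solution φr hW hW₂ hV h hP hQ hcr hFr
  let D := coverDatum K W
  let ev := evPt K t₀ ht₀ h₀
  have hnt : Nontrivial D.R₀ := by
    obtain ⟨x⟩ := (inferInstance : Nonempty X)
    obtain ⟨i, hi⟩ := Opens.mem_iSup.1 (hcov (trivial : x ∈ (⊤ : X.Opens)))
    have : Nonempty (W i) := ⟨⟨x, hi⟩⟩
    exact Pi.nontrivial_at (f := fun i => (Γ(X, W i) : Type u)) i
  obtain ⟨a, ha0, ha⟩ := exists_solution ev P Q M fun n => by
    let C := Γ(T, V) ⧸ RingHom.ker ev ^ (n + 1)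
    let mk : Γ(T, V) →ₐ[K] C := Ideal.Quotient.mkₐ K _
    let e : C →ₐ[K] K :=
      Ideal.Quotient.liftₐ _ ev (Ideal.pow_le_self n.succ_ne_zero)
    have he : e.comp mk = ev := AlgHom.ext fun x => rfl
    have hker : RingHom.ker e ^ (n + 1) ≤ (⊥ : Ideal C) := by
      have h1 : RingHom.ker e = (RingHom.ker ev).map mk := by
        ext x
        obtain ⟨y, rfl⟩ := Ideal.Quotient.mk_surjective x
        refine ⟨fun hy => Ideal.mem_map_of_mem mk (show y ∈ RingHom.ker ev from hy), fun hy => ?_⟩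
        exact (Ideal.map_le_iff_le_comap.2 fun z hz =>
          Ideal.mem_comap.2 (RingHom.mem_ker.2 (show e (mk z) = 0 from hz))) hy
      rw [h1, ← Ideal.map_pow, le_bot_iff, Ideal.map_eq_bot_iff_le_ker]
      exact fun x hx => Ideal.Quotient.eq_zero_iff_mem.2 hx
    obtain ⟨a, hsol, ha1⟩ := exists_formal_solution (coverHom K W φl) (coverHom K W φr) hcl hcr hK
      mk ev e he (n + 1) hker P Q hP1 hQ1 (cocycle_identity hW₃ hV hP hQ)
      wl hwl hwl1 wr hwr hwr1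
    obtain ⟨x, hx⟩ := hM n _ hsol
    refine ⟨x, by rw [hx]; exact hsol, ?_⟩
    rw [hx]
    exact fun h1 => one_ne_zero (ha1.symm.trans h1)
  refine ⟨secs K W V a, (isSolution_iff t t' hW₂ hV hP hQ a).1 ha, fun h1 => ha0 ?_⟩
  exact (secs_bijective hW hV).1 (h1.trans (map_zero _).symm)

end FLTA.AbelianVar.Cube
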