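import Fermat.Agent.AbelianVar.Cube.Cover

/-!
# `H¹` of a product is detected on the axes

For a product of two schemes whose global functions are constants, an additive Čech `1`-cocycle
of `𝒪` on a product cover which is a coboundary on both axes is a coboundary.
-/

set_option autoImplicit false

universe u

open CategoryTheory CategoryTheory.Limits AlgebraicGeometry TopologicalSpace TensorProduct

noncomputable section

namespace FLTA.AbelianVar.Cube

variable {K : Type u} [Field K]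

lemma pb_pb {X Y Z : Scheme.{u}} (f : X ⟶ Y) (g : Y ⟶ Z) {U : Z.Opens} {V : Y.Opens}
    {W : X.Opens} (e₁ : V ≤ g ⁻¹ᵁ U) (e₂ : W ≤ f ⁻¹ᵁ V) (a : Γ(Z, U)) :
    pb f e₂ (pb g e₁ a) =
      pb (f ≫ g) (e₂.trans ((f.preimage_mono e₁).trans (le_of_eq (Scheme.Hom.comp_preimage f g U).symm))) a := by
  exact ConcreteCategory.congr_hom (Scheme.Hom.appLE_comp_appLE f g U V W e₁ e₂) a

lemma pb_congr {X Y : Scheme.{u}} {f g : X ⟶ Y} (hfg : f = g) {W : Y.Opens} {V : X.Opens}
    (h : V ≤ f ⁻¹ᵁ W) (a : Γ(Y, W)) : pb f h a = pb g (hfg ▸ h) a := by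
  subst hfg; rfl

lemma pb_id {X : Scheme.{u}} {W V : X.Opens} (h : V ≤ (𝟙 X) ⁻¹ᵁ W) (a : Γ(X, W)) :
    pb (𝟙 X) h a = rs (show V ≤ W from h) a := by
  simp only [pb, Scheme.Hom.appLE, Scheme.Hom.id_app]
  erw [Category.id_comp]
  rfl

/-- An element of `M ⊗ P` killed by all functionals vanishing on the range of `d` is in the range
of `d ⊗ P`. -/
lemma mem_range_rTensor_of_forall {M N P : Type u} [AddCommGroup M] [Module K M] [AddCommGroup N]
    [Module K N] [AddCommGroup P] [Module K P] (d : N →ₗ[K] M) (z : M ⊗[K] P)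
    (h : ∀ φ : M →ₗ[K] K, φ.comp d = 0 → TensorProduct.lid K P (φ.rTensor P z) = 0) :
    z ∈ LinearMap.range (d.rTensor P) := by
  have hex : Function.Exact d d.range.mkQ := d.exact_map_mkQ_range
  refine (rTensor_exact P hex (Submodule.mkQ_surjective _) z).mp ?_
  set w := LinearMap.rTensor P d.range.mkQ z with hw
  let b := Module.Free.chooseBasis K (M ⧸ d.range)
  apply (TensorProduct.equivFinsuppOfBasisLeft b).injective
  rw [map_zero]
  ext i
  have h1 := h ((b.coord i).comp d.range.mkQ) (by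
    rw [LinearMap.comp_assoc, hex.linearMap_comp_eq_zero, LinearMap.comp_zero])
  rw [LinearMap.rTensor_comp_apply, ← hw] at h1
  rw [Finsupp.zero_apply, ← h1]
  clear h1 hw
  induction w with
  | zero => simp
  | tmul q p => simp
  | add x y hx hy => simp [map_add, hx, hy]

variable {X Y : Scheme.{u}} [X.Over (Spec (CommRingCat.of K))] [Y.Over (Spec (CommRingCat.of K))]
  {ι κ : Type} (W : ι → X.Opens) (V : κ → Y.Opens)

variable (K) in
/-- The product cover. -/
abbrev prodCover (p : ι × κ) : (prod K X Y).Opens := box K (W p.1) (V p.2)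

variable (K) in
/-- The axis `X × {y₀}`. -/
def axisLeft (y₀ : Spec (CommRingCat.of K) ⟶ Y)
    (hy₀ : y₀ ≫ (Y ↘ Spec (CommRingCat.of K)) = 𝟙 _) : X ⟶ prod K X Y :=
  pullback.lift (𝟙 X) ((X ↘ Spec (CommRingCat.of K)) ≫ y₀)
    (by rw [Category.id_comp, Category.assoc, hy₀, Category.comp_id])

variable (K) in
/-- The axis `{x₀} × Y`. -/
def axisRight (x₀ : Spec (CommRingCat.of K) ⟶ X)
    (hx₀ : x₀ ≫ (X ↘ Spec (CommRingCat.of K)) = 𝟙 _) : Y ⟶ prod K X Y :=
  pullback.lift ((Y ↘ Spec (CommRingCat.of K)) ≫ x₀) (𝟙 Y)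
    (by rw [Category.id_comp, Category.assoc, hx₀, Category.comp_id])

variable {y₀ : Spec (CommRingCat.of K) ⟶ Y} {hy₀ : y₀ ≫ (Y ↘ Spec (CommRingCat.of K)) = 𝟙 _}
  {x₀ : Spec (CommRingCat.of K) ⟶ X} {hx₀ : x₀ ≫ (X ↘ Spec (CommRingCat.of K)) = 𝟙 _}

@[simp, reassoc] lemma axisLeft_p₁ : axisLeft (X := X) K y₀ hy₀ ≫ p₁ K X Y = 𝟙 X :=
  pullback.lift_fst _ _ _

@[simp, reassoc] lemma axisLeft_p₂ :
    axisLeft (X := X) K y₀ hy₀ ≫ p₂ K X Y = (X ↘ Spec (CommRingCat.of K)) ≫ y₀ :=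
  pullback.lift_snd _ _ _

@[simp, reassoc] lemma axisRight_p₁ :
    axisRight (Y := Y) K x₀ hx₀ ≫ p₁ K X Y = (Y ↘ Spec (CommRingCat.of K)) ≫ x₀ :=
  pullback.lift_fst _ _ _

@[simp, reassoc] lemma axisRight_p₂ : axisRight (Y := Y) K x₀ hx₀ ≫ p₂ K X Y = 𝟙 Y :=
  pullback.lift_snd _ _ _

scoped instance isOver_axisLeft : (axisLeft (X := X) K y₀ hy₀).IsOver (Spec (CommRingCat.of K)) where
  comp_over := by
    show axisLeft (X := X) K y₀ hy₀ ≫ p₁ K X Y ≫ _ = _
    rw [axisLeft_p₁_assoc]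

scoped instance isOver_axisRight :
    (axisRight (Y := Y) K x₀ hx₀).IsOver (Spec (CommRingCat.of K)) where
  comp_over := by
    show axisRight (Y := Y) K x₀ hx₀ ≫ p₁ K X Y ≫ _ = _
    rw [axisRight_p₁_assoc, hx₀, Category.comp_id]

variable (K) in
/-- Evaluation at a rational point. -/
def evPt (y₀ : Spec (CommRingCat.of K) ⟶ Y)
    (hy₀ : y₀ ≫ (Y ↘ Spec (CommRingCat.of K)) = 𝟙 _) {V : Y.Opens} (h : ⊤ ≤ y₀ ⁻¹ᵁ V) :
    Γ(Y, V) →ₐ[K] K :=
  { (Scheme.ΓSpecIso (CommRingCat.of K)).hom.hom.comp (pb y₀ h) with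
    commutes' := fun r => by
      simp only [sectionsAlgebra_algebraMap, secAlgMap, RingHom.toMonoidHom_eq_coe,
        OneHom.toFun_eq_coe, MonoidHom.toOneHom_coe, MonoidHom.coe_coe, RingHom.comp_apply,
        CommRingCat.hom_comp]
      refine (congrArg _ ((pb_pb y₀ (Y ↘ Spec (CommRingCat.of K)) le_top h _).trans
        (pb_congr hy₀ _ _))).trans ?_
      rw [pb_id, rs_self]
      exact Iso.inv_hom_id_apply _ _ }

omit [X.Over (Spec (CommRingCat.of K))] in
lemma evPt_apply {V : Y.Opens} (h : ⊤ ≤ y₀ ⁻¹ᵁ V) (b : Γ(Y, V)) :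
    evPt K y₀ hy₀ h b = (Scheme.ΓSpecIso (CommRingCat.of K)).hom (pb y₀ h b) := rfl

lemma le_axisLeft_preimage {U : X.Opens} {V : Y.Opens} (h : ⊤ ≤ y₀ ⁻¹ᵁ V) :
    U ≤ axisLeft (X := X) K y₀ hy₀ ⁻¹ᵁ box K U V := by
  rw [box, Scheme.Hom.preimage_inf, ← Scheme.Hom.comp_preimage, ← Scheme.Hom.comp_preimage,
    axisLeft_p₁, axisLeft_p₂, Scheme.Hom.comp_preimage, Scheme.Hom.id_preimage]
  exact le_inf le_rfl (le_top.trans ((X ↘ Spec (CommRingCat.of K)).preimage_mono h))

lemma le_axisRight_preimage {U : X.Opens} {V : Y.Opens} (h : ⊤ ≤ x₀ ⁻¹ᵁ U) :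
    V ≤ axisRight (Y := Y) K x₀ hx₀ ⁻¹ᵁ box K U V := by
  rw [box, Scheme.Hom.preimage_inf, ← Scheme.Hom.comp_preimage, ← Scheme.Hom.comp_preimage,
    axisRight_p₁, axisRight_p₂, Scheme.Hom.comp_preimage, Scheme.Hom.id_preimage]
  exact le_inf (le_top.trans ((Y ↘ Spec (CommRingCat.of K)).preimage_mono h)) le_rfl

/-- Restriction of a section on a box to the axis `X × {y₀}` evaluates the second factor. -/
lemma pb_axisLeft_boxHom {U : X.Opens} {V : Y.Opens} (h : ⊤ ≤ y₀ ⁻¹ᵁ V)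
    (z : Γ(X, U) ⊗[K] Γ(Y, V)) :
    pb (axisLeft (X := X) K y₀ hy₀) (le_axisLeft_preimage h) (boxHom K U V z) =
      TensorProduct.rid K Γ(X, U) ((evPt K y₀ hy₀ h).toLinearMap.lTensor _ z) := by
  induction z with
  | zero => simp
  | tmul a b =>
    rw [boxHom_tmul, map_mul, LinearMap.lTensor_tmul, TensorProduct.rid_tmul, AlgHom.toLinearMap_apply,
      Algebra.smul_def, mul_comm]
    congr 1
    · rw [pb_pb, pb_congr axisLeft_p₂, evPt_apply, sectionsAlgebra_algebraMap, secAlgMap]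
      simp only [CommRingCat.hom_comp, RingHom.comp_apply, Iso.hom_inv_id_apply]
      exact (pb_pb _ _ h le_top b).symm
    · rw [pb_pb, pb_congr axisLeft_p₁, pb_id, rs_self]
  | add x y hx hy => simp only [map_add, hx, hy]

variable (K) in
/-- The difference of the two restriction maps. -/
def diffMap : (∀ i, Γ(X, W i)) →ₗ[K] ∀ p : ι × ι, Γ(X, inter₂ W p) :=
  (coverDatum K W).α.toLinearMap - (coverDatum K W).β.toLinearMap

lemma diffMap_apply (a : ∀ i, Γ(X, W i)) (p : ι × ι) :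
    diffMap K W a p = rs (X := X) (W := W p.1) inf_le_left (a p.1) -
      rs (X := X) (W := W p.2) inf_le_right (a p.2) := rfl

/-- Components of `(α - β) ⊗ P` on a cover. -/
lemma compHom_rTensor_sub [Finite ι] {P : Type u} [CommRing P] [Algebra K P]
    (T : (∀ i, Γ(X, W i)) ⊗[K] P) (p : ι × ι) :
    compHom K P (R := fun q : ι × ι => Γ(X, inter₂ W q))
        (LinearMap.rTensor P (diffMap K W) T) p =
      Algebra.TensorProduct.map (rsAlg (K := K) (U := W p.1) (V := inter₂ W p) inf_le_left)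
          (AlgHom.id K P) (compHom K P (R := fun i => Γ(X, W i)) T p.1) -
        Algebra.TensorProduct.map (rsAlg (K := K) (U := W p.2) (V := inter₂ W p) inf_le_right)
          (AlgHom.id K P) (compHom K P (R := fun i => Γ(X, W i)) T p.2) := by
  induction T with
  | zero => simp only [map_zero, Pi.zero_apply, sub_zero]
  | tmul a b =>
    rw [LinearMap.rTensor_tmul, compHom_apply, compHom_apply, compHom_apply]
    simp only [Algebra.TensorProduct.map_tmul, Pi.evalAlgHom_apply, AlgHom.coe_id,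
      id_eq, diffMap_apply, TensorProduct.sub_tmul, rsAlg_apply]
  | add x y hx hy =>
    simp only [map_add, Pi.add_apply, hx, hy]
    abel

/-- An additive cocycle, restricted to an open inside three members of the cover. -/
lemma rs_cocycle {c : (coverDatum K W).R₁} (hc : (coverDatum K W).IsAddCocycle c) {a b d : ι}
    {O : X.Opens} (ha : O ≤ W a) (hb : O ≤ W b) (hd : O ≤ W d) :
    rs (X := X) (le_inf ha hb : O ≤ inter₂ W (a, b)) (c (a, b)) +
        rs (X := X) (le_inf hb hd : O ≤ inter₂ W (b, d)) (c (b, d)) =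
      rs (X := X) (le_inf ha hd : O ≤ inter₂ W (a, d)) (c (a, d)) := by
  have h1 := congrArg (rs (X := X) (le_inf (le_inf ha hb) hd : O ≤ inter₃ W (a, b, d)))
    (congrFun hc (a, b, d))
  have h2 := (map_add (rs (X := X) _) _ _).symm.trans h1
  exact ((congrArg₂ (· + ·) (rs_rs _ _ (c (a, b))).symm (rs_rs _ _ (c (b, d))).symm).trans
    h2).trans (rs_rs _ _ (c (a, d)))

/-- An additive coboundary, restricted. -/
lemma rs_coboundary {c : (coverDatum K W).R₁} {b : (coverDatum K W).R₀}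
    (hb : c = (coverDatum K W).α b - (coverDatum K W).β b) {p : ι × ι} {O : X.Opens}
    (h1 : O ≤ W p.1) (h2 : O ≤ W p.2) :
    rs (X := X) (le_inf h1 h2 : O ≤ inter₂ W p) (c p) = rs h1 (b p.1) - rs h2 (b p.2) := by
  refine ((congrArg (rs (X := X) _) (congrFun hb p)).trans (map_sub (rs (X := X) _) _ _)).trans ?_
  exact congrArg₂ (· - ·) (rs_rs _ _ (b p.1)) (rs_rs _ _ (b p.2))

section Tensor

variable {R : ι → Type u} [∀ i, CommRing (R i)] [∀ i, Algebra K (R i)]
  {P Q : Type u} [CommRing P] [Algebra K P] [CommRing Q] [Algebra K Q]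

/-- Components are natural in the coefficients. -/
lemma compHom_lTensor [Finite ι] (f : P →ₐ[K] Q) (w : (∀ i, R i) ⊗[K] P) (i : ι) :
    compHom K Q (f.toLinearMap.lTensor _ w) i =
      Algebra.TensorProduct.map (AlgHom.id K (R i)) f (compHom K P w i) := by
  induction w with
  | zero => simp only [map_zero, Pi.zero_apply]
  | tmul a b =>
    simp only [LinearMap.lTensor_tmul, compHom_apply, Algebra.TensorProduct.map_tmul,
      AlgHom.toLinearMap_apply, Pi.evalAlgHom_apply, AlgHom.coe_id, id_eq]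
  | add x y hx hy => simp only [map_add, Pi.add_apply, hx, hy]

/-- Evaluating the coefficients componentwise. -/
lemma rid_lTensor_compHom [Finite ι] (g : P →ₗ[K] K) (w : (∀ i, R i) ⊗[K] P) (i : ι) :
    TensorProduct.rid K (∀ i, R i) (g.lTensor _ w) i =
      TensorProduct.rid K (R i) (g.lTensor _ (compHom K P w i)) := by
  induction w with
  | zero => simp only [map_zero, Pi.zero_apply]
  | tmul a b =>
    simp only [LinearMap.lTensor_tmul, compHom_apply, Algebra.TensorProduct.map_tmul,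
      TensorProduct.rid_tmul, Pi.smul_apply, Pi.evalAlgHom_apply, AlgHom.coe_id, id_eq]
  | add x y hx hy => simp only [map_add, Pi.add_apply, hx, hy]

end Tensor

lemma lid_rTensor_lTensor {M P Q : Type u} [AddCommGroup M] [Module K M] [AddCommGroup P]
    [Module K P] [AddCommGroup Q] [Module K Q] (φ : M →ₗ[K] K) (f : P →ₗ[K] Q) (w : M ⊗[K] P) :
    f (TensorProduct.lid K P (φ.rTensor P w)) =
      TensorProduct.lid K Q (φ.rTensor Q (f.lTensor M w)) := by
  induction w with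
  | zero => simp only [map_zero]
  | tmul a b =>
    simp only [LinearMap.lTensor_tmul, LinearMap.rTensor_tmul, TensorProduct.lid_tmul, map_smul]
  | add x y hx hy => simp only [map_add, hx, hy]

lemma apply_lid_rTensor {M P : Type u} [AddCommGroup M] [Module K M] [AddCommGroup P]
    [Module K P] (φ : M →ₗ[K] K) (g : P →ₗ[K] K) (w : M ⊗[K] P) :
    g (TensorProduct.lid K P (φ.rTensor P w)) = φ (TensorProduct.rid K M (g.lTensor M w)) := by
  induction w with
  | zero => simp only [map_zero]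
  | tmul a b =>
    simp only [LinearMap.lTensor_tmul, LinearMap.rTensor_tmul, TensorProduct.lid_tmul, map_smul,
      TensorProduct.rid_tmul, smul_eq_mul, mul_comm]
  | add x y hx hy => simp only [map_add, hx, hy]

variable [Finite ι]

/-- The slices of two neighbouring horizontal components differ by a coboundary. -/
lemma slice_compat (hW₂ : ∀ p, IsAffineOpen (inter₂ W p)) (hW : ∀ i, IsAffineOpen (W i))
    (hV₂ : ∀ q, IsAffineOpen (inter₂ V q))
    (c : (coverDatum K (prodCover K W V)).R₁)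
    (hc : (coverDatum K (prodCover K W V)).IsAddCocycle c)
    (z : ∀ k, (∀ p : ι × ι, Γ(X, inter₂ W p)) ⊗[K] Γ(Y, V k))
    (hz : ∀ k p, boxHom K (inter₂ W p) (V k)
        (compHom K _ (R := fun q : ι × ι => Γ(X, inter₂ W q)) (z k) p) =
      rs (X := prod K X Y) (le_inf (box_mono inf_le_left le_rfl) (box_mono inf_le_right le_rfl) :
        box K (inter₂ W p) (V k) ≤ inter₂ (prodCover K W V) ((p.1, k), (p.2, k)))
        (c ((p.1, k), (p.2, k))))
    (k l : κ) :
    ∃ T, (rsAlg (K := K) (U := V k) (V := V k ⊓ V l) inf_le_left).toLinearMap.lTensor _ (z k) -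
      (rsAlg (K := K) (U := V l) (V := V k ⊓ V l) inf_le_right).toLinearMap.lTensor _ (z l) =
        (diffMap K W).rTensor _ T := by
  have hτ : ∀ i, ∃ t : Γ(X, W i) ⊗[K] Γ(Y, V k ⊓ V l), boxHom K (W i) (V k ⊓ V l) t =
      rs (X := prod K X Y) (le_inf (box_mono le_rfl inf_le_left) (box_mono le_rfl inf_le_right) :
        box K (W i) (V k ⊓ V l) ≤ inter₂ (prodCover K W V) ((i, k), (i, l)))
        (c ((i, k), (i, l))) := fun i =>
    (boxHom_bijective_of_isAffineOpen (hW i) (hV₂ (k, l))).2 _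
  choose t ht using hτ
  obtain ⟨T, hT⟩ := (compHom_bijective (K := K) Γ(Y, V k ⊓ V l)
    (R := fun i => Γ(X, W i))).2 t
  refine ⟨T, compHom_injective (K := K) _ (R := fun q : ι × ι => Γ(X, inter₂ W q)) (funext fun p => ?_)⟩
  rw [map_sub, Pi.sub_apply, compHom_lTensor, compHom_lTensor, compHom_rTensor_sub, congrFun hT,
    congrFun hT]
  apply (boxHom_bijective_of_isAffineOpen (hW₂ p) (hV₂ (k, l))).1
  rw [map_sub, map_sub,
    show AlgHom.id K Γ(X, inter₂ W p) = rsAlg (K := K) (le_refl (inter₂ W p)) from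
      AlgHom.ext fun b => (rs_self _ b).symm,
    show AlgHom.id K Γ(Y, V k ⊓ V l) = rsAlg (K := K) (le_refl (V k ⊓ V l)) from
      AlgHom.ext fun b => (rs_self _ b).symm,
    ← rs_boxHom le_rfl inf_le_left, ← rs_boxHom le_rfl inf_le_right, hz, hz,
    ← rs_boxHom inf_le_left le_rfl, ← rs_boxHom inf_le_right le_rfl, ht, ht,
    rs_rs, rs_rs, rs_rs, rs_rs, sub_eq_sub_iff_add_eq_add]
  exact (rs_cocycle (prodCover K W V) hc (a := (p.1, k)) (b := (p.2, k)) (d := (p.2, l))
    (box_mono inf_le_left inf_le_left) (box_mono inf_le_right inf_le_left)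
    (box_mono inf_le_right inf_le_right)).trans (rs_cocycle (prodCover K W V) hc (a := (p.1, k))
      (b := (p.1, l)) (d := (p.2, l)) (box_mono inf_le_left inf_le_left)
      (box_mono inf_le_left inf_le_right) (box_mono inf_le_right inf_le_right)).symm

/-- Horizontal components of a cocycle which is a coboundary on the axis `X × {y₀}`. -/
lemma exists_horizontal (hW₂ : ∀ p, IsAffineOpen (inter₂ W p)) (hW : ∀ i, IsAffineOpen (W i))
    (hV : ∀ k, IsAffineOpen (V k)) (hV₂ : ∀ q, IsAffineOpen (inter₂ V q))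
    (hcovY : ⊤ ≤ ⨆ k, V k) (hcY : ∀ s : Γ(Y, ⊤), ∃ r : K, s = algebraMap K Γ(Y, ⊤) r)
    (c : (coverDatum K (prodCover K W V)).R₁)
    (hc : (coverDatum K (prodCover K W V)).IsAddCocycle c)
    (hl : (coverDatum K fun i => axisLeft (X := X) K y₀ hy₀ ⁻¹ᵁ prodCover K W V i).IsAddCoboundary
      ((coverHom K (prodCover K W V) (axisLeft K y₀ hy₀)).f₁ c)) :
    ∃ A : (coverDatum K (prodCover K W V)).R₀, ∀ i j k,
      c ((i, k), (j, k)) =
        rs (X := prod K X Y) (W := prodCover K W V (i, k)) inf_le_left (A (i, k)) -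
          rs (X := prod K X Y) (W := prodCover K W V (j, k)) inf_le_right (A (j, k)) := by
  classical
  have hη : ∀ (p : ι × ι) (k : κ), ∃ z : Γ(X, inter₂ W p) ⊗[K] Γ(Y, V k),
      boxHom K (inter₂ W p) (V k) z =
        rs (X := prod K X Y) (le_inf (box_mono inf_le_left le_rfl) (box_mono inf_le_right le_rfl) :
          box K (inter₂ W p) (V k) ≤ inter₂ (prodCover K W V) ((p.1, k), (p.2, k)))
          (c ((p.1, k), (p.2, k))) := fun p k =>
    (boxHom_bijective_of_isAffineOpen (hW₂ p) (hV k)).2 _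
  choose η hη using hη
  choose z hz using fun k => (compHom_bijective (K := K) Γ(Y, V k)
    (R := fun q : ι × ι => Γ(X, inter₂ W q))).2 fun p => η p k
  have hz' := fun k p => (congrArg (boxHom K (inter₂ W p) (V k)) (congrFun (hz k) p)).trans (hη p k)
  have hrange : ∀ k, z k ∈ LinearMap.range ((diffMap K W).rTensor Γ(Y, V k)) := by
    intro k₁
    refine mem_range_rTensor_of_forall _ _ fun φ hφ => ?_
    let g : ∀ k, Γ(Y, V k) := fun k => TensorProduct.lid K _ (φ.rTensor _ (z k))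
    have hcompat : ∀ k l, rs (inf_le_left : V k ⊓ V l ≤ V k) (g k) =
        rs (inf_le_right : V k ⊓ V l ≤ V l) (g l) := by
      intro k l
      obtain ⟨T, hT⟩ := slice_compat W V hW₂ hW hV₂ c hc z hz' k l
      have h1 := congrArg (fun w => TensorProduct.lid K _ (φ.rTensor _ w)) hT
      simp only [map_sub] at h1
      rw [← lid_rTensor_lTensor, ← lid_rTensor_lTensor, ← LinearMap.rTensor_comp_apply, hφ,
        LinearMap.rTensor_zero, LinearMap.zero_apply, map_zero, sub_eq_zero] at h1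
      exact h1
    obtain ⟨s, hs, -⟩ := Y.sheaf.existsUnique_gluing' V ⊤ (fun k => homOfLE le_top) hcovY g
      hcompat
    obtain ⟨r, rfl⟩ := hcY s
    have hgk : ∀ k, g k = algebraMap K _ r := fun k =>
      (hs k).symm.trans (rs_algebraMap (X := Y) (le_top : V k ≤ ⊤) r)
    obtain ⟨k₀, hk₀⟩ : ∃ k₀, (⊤ : (Spec (CommRingCat.of K)).Opens) ≤ y₀ ⁻¹ᵁ V k₀ := by
      obtain ⟨k₀, hk₀⟩ := Opens.mem_iSup.mp (hcovY (show y₀ (default : _) ∈ ⊤ from trivial))
      exact ⟨k₀, fun x _ => by rw [Subsingleton.elim x default]; exact hk₀⟩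
    obtain ⟨b, hb⟩ := hl
    let bX : ∀ i, Γ(X, W i) := fun i =>
      rs (le_axisLeft_preimage (hy₀ := hy₀) hk₀ :
        W i ≤ axisLeft K y₀ hy₀ ⁻¹ᵁ prodCover K W V (i, k₀)) (b (i, k₀))
    have hevz : TensorProduct.rid K _ ((evPt K y₀ hy₀ hk₀).toLinearMap.lTensor _ (z k₀)) =
        diffMap K W bX := by
      funext p
      refine ((rid_lTensor_compHom _ _ p).trans (pb_axisLeft_boxHom hk₀ _).symm).trans ?_
      rw [hz' k₀ p, diffMap_apply, pb_rs]
      have h1 := rs_coboundary (fun i => axisLeft (X := X) K y₀ hy₀ ⁻¹ᵁ prodCover K W V i) hb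
        (p := ((p.1, k₀), (p.2, k₀))) (O := inter₂ W p)
        (inf_le_left.trans (le_axisLeft_preimage hk₀))
        (inf_le_right.trans (le_axisLeft_preimage hk₀))
      refine ((rs_pb (axisLeft K y₀ hy₀)
        (W := inter₂ (prodCover K W V) ((p.1, k₀), (p.2, k₀))) _ _ _).symm.trans h1).trans ?_
      simp only [bX]
      exact congrArg₂ (· - ·) (rs_rs _ _ _).symm (rs_rs _ _ _).symm
    have hr0 : r = 0 := by
      have h1 : evPt K y₀ hy₀ hk₀ (g k₀) = φ (TensorProduct.rid K _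
          ((evPt K y₀ hy₀ hk₀).toLinearMap.lTensor _ (z k₀))) :=
        apply_lid_rTensor φ (evPt K y₀ hy₀ hk₀).toLinearMap (z k₀)
      rw [hgk, AlgHom.commutes, hevz] at h1
      exact h1.trans (LinearMap.congr_fun hφ bX)
    show g k₁ = 0
    rw [hgk, hr0, map_zero]
  choose a ha using hrange
  refine ⟨fun q => boxHom K (W q.1) (V q.2) (compHom K _ (R := fun i => Γ(X, W i)) (a q.2) q.1),
    fun i j k => ?_⟩
  have hO : inter₂ (prodCover K W V) ((i, k), (j, k)) ≤ box K (inter₂ W (i, j)) (V k) := by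
    show box K (W i) (V k) ⊓ box K (W j) (V k) ≤ _
    rw [box_inf, inf_idem]
  have h1 := hη (i, j) k
  rw [← congrFun (hz k) (i, j), ← ha k, compHom_rTensor_sub, map_sub,
    show AlgHom.id K Γ(Y, V k) = rsAlg (K := K) (le_refl (V k)) from
      AlgHom.ext fun b => (rs_self _ b).symm,
    ← rs_boxHom inf_le_left le_rfl, ← rs_boxHom inf_le_right le_rfl] at h1
  have h2 := congrArg (rs (X := prod K X Y) hO) h1
  rw [map_sub, rs_rs, rs_rs, rs_rs, rs_self] at h2
  exact h2.symm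

omit [Finite ι] in
/-- A cocycle without horizontal components comes from the second factor. -/
lemma exists_vertical (hV₂ : ∀ q, IsAffineOpen (inter₂ V q)) (hcovX : ⊤ ≤ ⨆ i, W i)
    [CompactSpace X] [QuasiSeparatedSpace X]
    (hcX : ∀ s : Γ(X, ⊤), ∃ r : K, s = algebraMap K Γ(X, ⊤) r)
    (c : (coverDatum K (prodCover K W V)).R₁)
    (hc : (coverDatum K (prodCover K W V)).IsAddCocycle c)
    (hvert : ∀ i j k, c ((i, k), (j, k)) = 0)
    (hr : (coverDatum K fun i => axisRight (Y := Y) K x₀ hx₀ ⁻¹ᵁ prodCover K W V i).IsAddCoboundary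
      ((coverHom K (prodCover K W V) (axisRight K x₀ hx₀)).f₁ c)) :
    (coverDatum K (prodCover K W V)).IsAddCoboundary c := by
  have hv : ∀ i j k (O : (prod K X Y).Opens) (h : O ≤ inter₂ (prodCover K W V) ((i, k), (j, k))),
      rs (X := prod K X Y) h (c ((i, k), (j, k))) = 0 := fun i j k O h =>
    (congrArg (rs (X := prod K X Y) h) (hvert i j k)).trans (map_zero _)
  have hle : ∀ i (q : κ × κ), box K (W i) (inter₂ V q) ≤
      inter₂ (prodCover K W V) ((i, q.1), (i, q.2)) := fun i q =>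
    le_inf (box_mono le_rfl inf_le_left) (box_mono le_rfl inf_le_right)
  have he : ∀ q : κ × κ, ∃ e : Γ(Y, inter₂ V q), ∀ i,
      rs (X := prod K X Y) (hle i q) (c ((i, q.1), (i, q.2))) =
        pb (p₂ K X Y) (box_le_right _ _) e := by
    intro q
    obtain ⟨s, hs, -⟩ := (prod K X Y).sheaf.existsUnique_gluing'
      (fun i => box K (W i) (inter₂ V q)) (box K ⊤ (inter₂ V q))
      (fun i => homOfLE (box_mono le_top le_rfl))
      (by
        intro y hy
        obtain ⟨i, hi⟩ := Opens.mem_iSup.mp (hcovX (show p₁ K X Y y ∈ (⊤ : X.Opens) from trivial))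
        exact Opens.mem_iSup.mpr ⟨i, hi, hy.2⟩)
      (fun i => rs (X := prod K X Y) (hle i q) (c ((i, q.1), (i, q.2))))
      (fun i j => by
        refine (rs_rs _ _ _).trans (Eq.trans ?_ (rs_rs _ _ _).symm)
        have hik : box K (W i) (inter₂ V q) ⊓ box K (W j) (inter₂ V q) ≤
            prodCover K W V (i, q.1) := (inf_le_left.trans (hle i q)).trans inf_le_left
        have hil : box K (W i) (inter₂ V q) ⊓ box K (W j) (inter₂ V q) ≤
            prodCover K W V (i, q.2) := (inf_le_left.trans (hle i q)).trans inf_le_right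
        have hjk : box K (W i) (inter₂ V q) ⊓ box K (W j) (inter₂ V q) ≤
            prodCover K W V (j, q.1) := (inf_le_right.trans (hle j q)).trans inf_le_left
        have hjl : box K (W i) (inter₂ V q) ⊓ box K (W j) (inter₂ V q) ≤
            prodCover K W V (j, q.2) := (inf_le_right.trans (hle j q)).trans inf_le_right
        have h1 := rs_cocycle (prodCover K W V) hc hik hil hjl
        have h2 := rs_cocycle (prodCover K W V) hc hik hjk hjl
        rw [hv i j q.2, add_zero] at h1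
        rw [hv i j q.1, zero_add] at h2
        exact h1.trans h2.symm)
    obtain ⟨w, hw⟩ := (boxHom_bijective (K := K) (hV₂ q) (isCompact_univ (X := X))
      (isQuasiSeparated_univ (α := X))).2 s
    obtain ⟨e, rfl⟩ : ∃ e, w = 1 ⊗ₜ e := by
      clear hw
      induction w with
      | zero => exact ⟨0, (tmul_zero _ _).symm⟩
      | tmul x b =>
        obtain ⟨r, rfl⟩ := hcX x
        exact ⟨r • b, by rw [Algebra.algebraMap_eq_smul_one, TensorProduct.smul_tmul]⟩
      | add x y hx hy =>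
        obtain ⟨e₁, rfl⟩ := hx
        obtain ⟨e₂, rfl⟩ := hy
        exact ⟨e₁ + e₂, (tmul_add _ _ _).symm⟩
    refine ⟨e, fun i => (hs i).symm.trans ?_⟩
    rw [← hw]
    show rs (box_mono le_top le_rfl) _ = _
    rw [boxHom_tmul, map_one, one_mul, rs_pb]
  choose e he using he
  obtain ⟨i₀, hi₀⟩ : ∃ i₀, (⊤ : (Spec (CommRingCat.of K)).Opens) ≤ x₀ ⁻¹ᵁ W i₀ := by
    obtain ⟨i₀, hi₀⟩ := Opens.mem_iSup.mp (hcovX (show x₀ (default : _) ∈ ⊤ from trivial))
    exact ⟨i₀, fun x _ => by rw [Subsingleton.elim x default]; exact hi₀⟩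
  obtain ⟨b, hb⟩ := hr
  let bY : ∀ k, Γ(Y, V k) := fun k =>
    rs (le_axisRight_preimage (hx₀ := hx₀) hi₀ :
      V k ≤ axisRight K x₀ hx₀ ⁻¹ᵁ prodCover K W V (i₀, k)) (b (i₀, k))
  have heb : ∀ q : κ × κ, e q =
      rs (X := Y) (inf_le_left : inter₂ V q ≤ V q.1) (bY q.1) - rs inf_le_right (bY q.2) := by
    intro q
    have h1 := congrArg (pb (axisRight (Y := Y) K x₀ hx₀) (V := inter₂ V q)
      (le_axisRight_preimage hi₀ : inter₂ V q ≤
        axisRight K x₀ hx₀ ⁻¹ᵁ box K (W i₀) (inter₂ V q))) (he q i₀)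
    rw [pb_rs, pb_pb, pb_congr axisRight_p₂, pb_id, rs_self] at h1
    rw [← h1]
    have h2 := rs_coboundary (fun i => axisRight (Y := Y) K x₀ hx₀ ⁻¹ᵁ prodCover K W V i) hb
        (p := ((i₀, q.1), (i₀, q.2))) (O := inter₂ V q)
        (inf_le_left.trans (le_axisRight_preimage hi₀))
        (inf_le_right.trans (le_axisRight_preimage hi₀))
    refine ((rs_pb (axisRight K x₀ hx₀)
      (W := inter₂ (prodCover K W V) ((i₀, q.1), (i₀, q.2))) _ _ _).symm.trans h2).trans ?_
    simp only [bY]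
    exact congrArg₂ (· - ·) (rs_rs _ _ _).symm (rs_rs _ _ _).symm
  refine ⟨fun q => pb (p₂ K X Y) (box_le_right _ _) (bY q.2), funext fun pr => ?_⟩
  obtain ⟨⟨i, k⟩, ⟨j, l⟩⟩ := pr
  set O := inter₂ (prodCover K W V) ((i, k), (j, l)) with hOdef
  have hO : O ≤ box K (W i) (inter₂ V (k, l)) := by
    show box K (W i) (V k) ⊓ box K (W j) (V l) ≤ _
    rw [box_inf]; exact box_mono inf_le_left le_rfl
  have h1 := rs_cocycle (prodCover K W V) hc (a := (i, k)) (b := (i, l)) (d := (j, l)) (O := O)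
    inf_le_left (hO.trans (box_mono le_rfl inf_le_right)) inf_le_right
  rw [hv i j l, add_zero, rs_self] at h1
  have h2 := congrArg (rs (X := prod K X Y) hO) (he (k, l) i)
  rw [rs_rs, heb, map_sub, map_sub, rs_pb, rs_pb] at h2
  refine (h1.symm.trans h2).trans ?_
  exact congrArg₂ (· - ·) ((pb_rs (p₂ K X Y) _ _ _).trans (rs_pb (p₂ K X Y) _ _ _).symm)
    ((pb_rs (p₂ K X Y) _ _ _).trans (rs_pb (p₂ K X Y) _ _ _).symm)

/-- A cocycle of `𝒪` on a product cover which is a coboundary on both axes is a coboundary. -/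
theorem kunneth
    (hW₂ : ∀ p, IsAffineOpen (inter₂ W p)) (hW : ∀ i, IsAffineOpen (W i))
    (hV : ∀ k, IsAffineOpen (V k)) (hV₂ : ∀ q, IsAffineOpen (inter₂ V q))
    (hcovX : ⊤ ≤ ⨆ i, W i) (hcovY : ⊤ ≤ ⨆ k, V k)
    [CompactSpace X] [QuasiSeparatedSpace X]
    (hcX : ∀ s : Γ(X, ⊤), ∃ r : K, s = algebraMap K Γ(X, ⊤) r)
    (hcY : ∀ s : Γ(Y, ⊤), ∃ r : K, s = algebraMap K Γ(Y, ⊤) r)
    (c : (coverDatum K (prodCover K W V)).R₁)
    (hc : (coverDatum K (prodCover K W V)).IsAddCocycle c)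
    (hl : (coverDatum K fun i => axisLeft (X := X) K y₀ hy₀ ⁻¹ᵁ prodCover K W V i).IsAddCoboundary
      ((coverHom K (prodCover K W V) (axisLeft K y₀ hy₀)).f₁ c))
    (hr : (coverDatum K fun i => axisRight (Y := Y) K x₀ hx₀ ⁻¹ᵁ prodCover K W V i).IsAddCoboundary
      ((coverHom K (prodCover K W V) (axisRight K x₀ hx₀)).f₁ c)) :
    (coverDatum K (prodCover K W V)).IsAddCoboundary c := by
  obtain ⟨A, hA⟩ := exists_horizontal W V hW₂ hW hV hV₂ hcovY hcY c hc hl
  let D := coverDatum K (prodCover K W V)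
  have h0 : ∀ x, D.d₀₁ (D.α x) = D.d₀₂ (D.α x) := fun x => congrArg (fun h => h x) D.h₀
  have h1 : ∀ x, D.d₀₁ (D.β x) = D.d₁₂ (D.α x) := fun x => congrArg (fun h => h x) D.h₁
  have h2 : ∀ x, D.d₁₂ (D.β x) = D.d₀₂ (D.β x) := fun x => congrArg (fun h => h x) D.h₂
  have hc' : D.IsAddCocycle (c - (D.α A - D.β A)) := by
    show D.d₀₁ _ + D.d₁₂ _ = D.d₀₂ _
    simp only [map_sub]
    rw [h0, h1, h2, ← show D.d₀₁ c + D.d₁₂ c = D.d₀₂ c from hc]
    abel
  obtain ⟨B, hB⟩ := exists_vertical W V hV₂ hcovX hcX (c - (D.α A - D.β A)) hc'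
    (fun i j k => sub_eq_zero.mpr (hA i j k)) (by
      obtain ⟨b, hb⟩ := hr
      refine ⟨b - (coverHom K (prodCover K W V) (axisRight K x₀ hx₀)).f₀ A, ?_⟩
      let F := coverHom K (prodCover K W V) (axisRight (Y := Y) K x₀ hx₀)
      have hα : ∀ x, F.f₁ (D.α x) = _ := fun x => congrArg (fun h => h x) F.hα
      have hβ : ∀ x, F.f₁ (D.β x) = _ := fun x => congrArg (fun h => h x) F.hβ
      show F.f₁ _ = _
      rw [map_sub, map_sub, hα, hβ, show F.f₁ c = _ from hb]
      simp only [map_sub, AlgHom.comp_apply]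
      abel)
  refine ⟨B + A, ?_⟩
  rw [map_add, map_add]
  exact (sub_eq_iff_eq_add.mp hB).trans (by abel)

end FLTA.AbelianVar.Cube
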