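import Fermat.Agent.AbelianVar.Geometry
import Fermat.Agent.AbelianVar.Cube.Frames
import Fermat.Agent.AbelianVar.Cube.Box

/-!
# From triviality on a box to the theorem of the cube

If the universal cube class is trivial on `(A × A) × V` for one nonempty open `V`,
then it is trivial on `(A × A) × A`.
-/

set_option autoImplicit false

universe u

open CategoryTheory CategoryTheory.Limits AlgebraicGeometry TopologicalSpace TensorProduct
open NeronModelInfra GoodReductionJacobian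

noncomputable section

namespace FLTA.AbelianVar

namespace LB

variable {X Y : Scheme.{u}}

/-- The pullback of a bundle along a map into an open with a frame is trivial. -/
theorem pull_mk_eq_zero_of_frame (ψ : X ⟶ Y) {L : LB Y} {W : Y.Opens} (s : Sec L W)
    (hs : s.Nowhere0) (h : ∀ x, ψ.base x ∈ W) : Pic.pull ψ (Pic.mk L) = 0 :=
  (pic_mk_eq_zero_iff _).2 ⟨Sec.pull ψ (fun x _ => h x) s, Sec.nowhere0_pull ψ _ hs⟩

/-- Pullback of functions to an open subscheme is bijective. -/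
theorem bijective_pb_opens_ι {W U : Y.Opens} (hU : U ≤ W) :
    Function.Bijective (pb W.ι (le_refl (W.ι ⁻¹ᵁ U))) := by
  have : IsIso (W.ι.app U) := W.ι.isIso_app U (by simpa using hU)
  simp only [pb, Scheme.Hom.appLE_eq_app]
  exact ConcreteCategory.bijective_of_isIso (W.ι.app U)

/-- A bundle which is trivial on an open subscheme has a frame there. -/
theorem exists_frame_of_pull_eq_zero {L : LB Y} (W : Y.Opens)
    (h : Pic.pull W.ι (Pic.mk L) = 0) : ∃ s : Sec L W, s.Nowhere0 := by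
  rw [Pic.pull_mk, pic_mk_eq_zero_iff] at h
  obtain ⟨s, hs⟩ := h
  let U : W.toScheme → Y.Opens := fun y => W ⊓ L.U (W.ι.base y)
  have hUW : ∀ y, U y ≤ W := fun y => inf_le_left
  choose φ hφ using fun y => (bijective_pb_opens_ι (hUW y)).2
    (s.f y (W.ι ⁻¹ᵁ U y) le_top (W.ι.preimage_mono inf_le_right))
  have hφu : ∀ y, IsUnit (φ y) := fun y => by
    let e := RingEquiv.ofBijective _ (bijective_pb_opens_ι (hUW y))
    have h1 : IsUnit (e (φ y)) := (hφ y).symm ▸ hs y _ _ _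
    simpa using h1.map e.symm
  have key : ∀ (y z : W.toScheme) (T : Y.Opens) (hy : T ≤ U y) (hz : T ≤ U z),
      rs hy (φ y) = L.g _ _ T (hy.trans inf_le_right) (hz.trans inf_le_right) * rs hz (φ z) := by
    intro y z T hy hz
    refine (bijective_pb_opens_ι (hy.trans (hUW y))).1 ?_
    rw [map_mul, pb_rs, pb_rs,
      ← rs_pb W.ι (le_refl (W.ι ⁻¹ᵁ U y)) (W.ι.preimage_mono hy),
      ← rs_pb W.ι (le_refl (W.ι ⁻¹ᵁ U z)) (W.ι.preimage_mono hz), hφ, hφ, s.f_res, s.f_res]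
    refine (s.comm y z _ le_top (W.ι.preimage_mono (hy.trans inf_le_right))
      (W.ι.preimage_mono (hz.trans inf_le_right))).symm.trans ?_
    congr 1
    exact pull_g_eq W.ι L _ _ le_rfl _ _
  let t : ∀ y, Sec L (U y) := fun y =>
    { f := fun x T hT hx => L.g x (W.ι.base y) T hx (hT.trans inf_le_right) * rs hT (φ y)
      f_res := fun x T T' hT hx h => by rw [map_mul, L.g_res, rs_rs]
      comm := fun x z T hT hx hz => by rw [← mul_assoc, L.g_comp] }
  obtain ⟨r, hr⟩ := Sec.exists_glue U hUW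
    (fun p hp => Opens.mem_iSup.2 ⟨⟨p, hp⟩, hp, L.mem p⟩) t fun y z => by
      ext x T hT hx
      show L.g x _ T hx _ * rs _ (φ y) = L.g x _ T hx _ * rs _ (φ z)
      rw [key y z T (hT.trans inf_le_left) (hT.trans inf_le_right), ← mul_assoc, L.g_comp]
  refine ⟨r, fun x T hT hx => ?_⟩
  refine isUnit_of_cover (fun y => T ⊓ U y) (fun y => inf_le_left)
    (cover_inf hT (fun p hp => Opens.mem_iSup.2 ⟨⟨p, hp⟩, hp, L.mem p⟩)) fun y => ?_
  rw [r.f_res x T (T ⊓ U y) hT hx inf_le_left]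
  have h1 := congrArg (fun u : Sec L (U y) => u.f x (T ⊓ U y) inf_le_right
    (inf_le_left.trans hx)) (hr y)
  rw [show r.f x (T ⊓ U y) _ _ = (t y).f x _ inf_le_right (inf_le_left.trans hx) from h1]
  exact (L.isUnit_g _ _).mul ((hφu y).map _)

end LB

namespace Cube

variable {K : Type u} [Field K] {X T : Scheme.{u}} [X.Over (Spec (CommRingCat.of K))]
  [T.Over (Spec (CommRingCat.of K))]

lemma pb_comp_eq_self {Y Z : Scheme.{u}} (σ : Y ⟶ Z) (q : Z ⟶ Y) (hσ : σ ≫ q = 𝟙 Y) {V : Y.Opens}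
    {W : Z.Opens} (h : V ≤ σ ⁻¹ᵁ W) (h' : W ≤ q ⁻¹ᵁ V) (b : Γ(Y, V)) :
    pb σ h (pb q h' b) = b := by
  have key : ∀ (g : Y ⟶ Y) (hg : g = 𝟙 Y) (h : V ≤ g ⁻¹ᵁ V), pb g h b = b := by
    rintro g rfl h
    simp only [pb, Scheme.Hom.appLE, Scheme.Hom.id_app]
    erw [Category.id_comp]
    exact rs_self _ _
  simp only [pb, ← CommRingCat.comp_apply, Scheme.Hom.appLE_comp_appLE]
  exact key _ hσ _

/-- On a proper integral scheme over an algebraically closed field, functions are constant. -/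
theorem exists_eq_algebraMap [IsAlgClosed K] [IsIntegral X]
    [IsProper (X ↘ Spec (CommRingCat.of K))] (s : Γ(X, ⊤)) :
    ∃ r : K, s = algebraMap K Γ(X, ⊤) r := by
  have h' := isIntegral_appTop_of_universallyClosed (X ↘ Spec (CommRingCat.of K))
  have : Algebra.IsIntegral K Γ(X, ⊤) := by
    refine ⟨fun a => ?_⟩
    have hh : (secAlgMap (X ↘ Spec (CommRingCat.of K)) (⊤ : X.Opens)).IsIntegral := by
      rw [Scheme.Hom.appTop, ← Scheme.Hom.appLE_eq_app] at h'
      exact RingHom.IsIntegral.trans _ _ (RingHom.isIntegral_of_surjective _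
        (Scheme.ΓSpecIso (CommRingCat.of K)).symm.commRingCatIsoToRingEquiv.surjective) h'
    exact hh a
  obtain ⟨r, hr⟩ := (IsAlgClosed.algebraMap_bijective_of_isIntegral (k := K) (K := Γ(X, ⊤))).2 s
  exact ⟨r, hr.symm⟩

variable [CompactSpace X] [QuasiSeparatedSpace X]

/-- A function on `X × V` restricting to one along a section is one. -/
theorem eq_one_of_section (hconst : ∀ s : Γ(X, ⊤), ∃ r : K, s = algebraMap K Γ(X, ⊤) r)
    (σ : T ⟶ prod K X T) (hσ : σ ≫ p₂ K X T = 𝟙 T) {V : T.Opens}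
    (φ : Γ(prod K X T, (p₂ K X T) ⁻¹ᵁ V))
    (h : pb σ (V := V) (by rw [← Scheme.Hom.comp_preimage, hσ]; rfl) φ = 1) : φ = 1 := by
  refine LB.rs_ext_cover (fun V' : {V' : T.affineOpens // V'.1 ≤ V} => (p₂ K X T) ⁻¹ᵁ V'.1.1)
    (fun V' => Scheme.Hom.preimage_mono _ V'.2) ?_ fun ⟨⟨V', hV'⟩, hle⟩ => ?_
  · intro p hp
    obtain ⟨_, ⟨U, hU, rfl⟩, hpU, hUV⟩ :=
      T.isBasis_affineOpens.exists_subset_of_mem_open hp V.isOpen
    exact Opens.mem_iSup.2 ⟨⟨⟨U, hU⟩, hUV⟩, hpU⟩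
  show rs (Scheme.Hom.preimage_mono _ hle) φ = rs (Scheme.Hom.preimage_mono _ hle) 1
  have hσV : ∀ {V : T.Opens}, V ≤ σ ⁻¹ᵁ ((p₂ K X T) ⁻¹ᵁ V) := fun {V} => by
    rw [← Scheme.Hom.comp_preimage, hσ]; rfl
  have hb : box K ⊤ V' = (p₂ K X T) ⁻¹ᵁ V' := by simp [box]
  obtain ⟨z, hz⟩ := (boxHom_bijective (K := K) (U := (⊤ : X.Opens)) hV'
    (by simpa using isCompact_univ) (by simpa using isQuasiSeparated_univ)).2
    (rs (box_le_right ⊤ V') (rs (Scheme.Hom.preimage_mono _ hle) φ))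
  obtain ⟨b, rfl⟩ : ∃ b, z = 1 ⊗ₜ b := by
    clear hz
    induction z with
    | zero => exact ⟨0, (tmul_zero _ _).symm⟩
    | tmul a b =>
      obtain ⟨r, rfl⟩ := hconst a
      exact ⟨r • b, by rw [Algebra.algebraMap_eq_smul_one, smul_tmul]⟩
    | add x y hx hy =>
      obtain ⟨b, rfl⟩ := hx
      obtain ⟨b', rfl⟩ := hy
      exact ⟨b + b', (tmul_add _ _ _).symm⟩
  rw [boxHom_tmul, map_one, one_mul] at hz
  have h2 : rs (Scheme.Hom.preimage_mono _ hle) φ =
      pb (p₂ K X T) (le_refl ((p₂ K X T) ⁻¹ᵁ V')) b := by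
    have h3 := congrArg (rs hb.ge) hz
    rw [rs_pb, rs_rs, rs_self] at h3
    exact h3.symm
  have hb1 : b = 1 := by
    have h4 := congrArg (pb σ (hσV (V := V'))) h2
    rw [pb_rs] at h4
    have h5 := congrArg (rs hle) h
    rw [rs_pb, map_one] at h5
    rw [h5] at h4
    have h6 : pb σ (hσV (V := V')) (pb (p₂ K X T) (le_refl ((p₂ K X T) ⁻¹ᵁ V')) b) = b :=
      pb_comp_eq_self σ _ hσ _ _ b
    rw [h6] at h4
    exact h4.symm
  rw [h2, hb1, map_one, map_one]

/-- Frames on `X × Vᵢ` glue when the bundle is trivial along a section. -/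
theorem pic_eq_zero_of_frames (hconst : ∀ s : Γ(X, ⊤), ∃ r : K, s = algebraMap K Γ(X, ⊤) r)
    (σ : T ⟶ prod K X T) (hσ : σ ≫ p₂ K X T = 𝟙 T) (L : LB (prod K X T))
    (hL : Pic.pull σ (Pic.mk L) = 0) {ι : Type*} (V : ι → T.Opens) (hcov : ⊤ ≤ ⨆ i, V i)
    (hV : ∀ i, ∃ s : LB.Sec L ((p₂ K X T) ⁻¹ᵁ V i), s.Nowhere0) : Pic.mk L = 0 := by
  rw [Pic.pull_mk, LB.pic_mk_eq_zero_iff] at hL
  obtain ⟨t, ht⟩ := hL
  choose s hs using hV
  have hσV : ∀ (V : T.Opens), V ≤ σ ⁻¹ᵁ ((p₂ K X T) ⁻¹ᵁ V) := fun V => by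
    rw [← Scheme.Hom.comp_preimage, hσ]; rfl
  let σs := fun i => LB.Sec.pull σ (hσV (V i)) (s i)
  have hσs : ∀ i, (σs i).Nowhere0 := fun i => LB.Sec.nowhere0_pull σ _ (hs i)
  choose c hc using fun i => (LB.Sec.existsUnique_eq_smul _ (hσs i)
    (LB.Sec.res (le_top : V i ≤ ⊤) t)).exists
  have hcu : ∀ i, IsUnit (c i) := fun i =>
    (LB.Sec.nowhere0_smul_iff _ (hσs i) _).1 (hc i ▸ fun x U hU hx => ht x U le_top hx)
  let s' := fun i => pb (p₂ K X T) (le_refl ((p₂ K X T) ⁻¹ᵁ V i)) (c i) • s i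
  have hs' : ∀ i, (s' i).Nowhere0 := fun i =>
    (LB.Sec.nowhere0_smul_iff _ (hs i) _).2 ((hcu i).map _)
  have hσs' : ∀ i, LB.Sec.pull σ (hσV (V i)) (s' i) = LB.Sec.res (le_top : V i ≤ ⊤) t := fun i => by
    rw [LB.Sec.pull_smul, hc i]
    congr 1
    exact pb_comp_eq_self σ _ hσ _ _ _
  obtain ⟨r, hr⟩ := LB.Sec.exists_glue (fun i => (p₂ K X T) ⁻¹ᵁ V i) (fun i => le_top)
    (fun p _ => by
      obtain ⟨i, hi⟩ := Opens.mem_iSup.1 (hcov (trivial : (p₂ K X T).base p ∈ (⊤ : T.Opens)))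
      exact Opens.mem_iSup.2 ⟨i, hi⟩) s' fun i j => by
    have hij : (p₂ K X T) ⁻¹ᵁ (V i ⊓ V j) ≤ (p₂ K X T) ⁻¹ᵁ V i :=
      Scheme.Hom.preimage_mono _ inf_le_left
    have hji : (p₂ K X T) ⁻¹ᵁ (V i ⊓ V j) ≤ (p₂ K X T) ⁻¹ᵁ V j :=
      Scheme.Hom.preimage_mono _ inf_le_right
    have hsi : (LB.Sec.res hij (s' i)).Nowhere0 := fun x U _ hx => hs' i x U _ hx
    have hsj : (LB.Sec.res hji (s' j)).Nowhere0 := fun x U _ hx => hs' j x U _ hx
    obtain ⟨φ, hφ, -⟩ := LB.Sec.existsUnique_eq_smul _ hsj (LB.Sec.res hij (s' i))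
    have h1 : φ = 1 := by
      refine eq_one_of_section hconst σ hσ φ ?_
      have hp := congrArg (LB.Sec.pull σ (hσV (V i ⊓ V j))) hφ
      rw [LB.Sec.pull_smul,
        LB.Sec.pull_res σ hij inf_le_left (hσV _) (hσV _) (s' i),
        LB.Sec.pull_res σ hji inf_le_right (hσV _) (hσV _) (s' j), hσs', hσs'] at hp
      have ht' : (LB.Sec.res (le_top : V i ⊓ V j ≤ ⊤) t).Nowhere0 :=
        fun x U _ hx => ht x U le_top hx
      exact ((LB.Sec.existsUnique_eq_smul _ ht' _).unique (one_smul _ _).symm hp).symm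
    rw [h1, one_smul] at hφ
    exact hφ
  refine (LB.pic_mk_eq_zero_iff L).2 ⟨r, fun x U hU hx => ?_⟩
  refine LB.isUnit_of_cover (fun i => U ⊓ (p₂ K X T) ⁻¹ᵁ V i) (fun i => inf_le_left)
    (LB.cover_inf hU fun p _ => by
      obtain ⟨i, hi⟩ := Opens.mem_iSup.1 (hcov (trivial : (p₂ K X T).base p ∈ (⊤ : T.Opens)))
      exact Opens.mem_iSup.2 ⟨i, hi⟩) fun i => ?_
  rw [r.f_res x U (U ⊓ (p₂ K X T) ⁻¹ᵁ V i) hU hx inf_le_left]
  have h1 := congrArg (fun v : LB.Sec L ((p₂ K X T) ⁻¹ᵁ V i) =>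
    v.f x (U ⊓ (p₂ K X T) ⁻¹ᵁ V i) inf_le_right (inf_le_left.trans hx)) (hr i)
  exact (h1 : r.f x _ _ _ = _) ▸ hs' i x _ inf_le_right (inf_le_left.trans hx)

end Cube

namespace CommLaw

variable {K : Type u} [Field K] {A : Scheme.{u}} {f : A ⟶ Spec (CommRingCat.of K)}
  {G : CommLaw K f}

local notation "𝟙K" => 𝟙 (Spec (CommRingCat.of K))

lemma const_add (a b : G.Pt 𝟙K) {T : Scheme.{u}} (t : T ⟶ Spec (CommRingCat.of K)) :
    G.const (a + b) t = G.const a t + G.const b t :=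
  map_add (G.comp t (Category.comp_id t)) a b

lemma const_base (a : G.Pt 𝟙K) {T : Scheme.{u}} (t : T ⟶ Spec (CommRingCat.of K)) (x : T) :
    (G.const a t).hom.base x = pt a := by
  simp only [const, comp_hom, Scheme.Hom.comp_apply, pt]
  exact congrArg _ (Subsingleton.elim (α := PrimeSpectrum K) _ _)

/-- `z ↦ w - z`. -/
def subFrom (G : CommLaw K f) (w : G.Pt 𝟙K) : A ⟶ A := (G.const w f - G.idPt).hom

lemma hom_comp_subFrom {T : Scheme.{u}} {t : T ⟶ Spec (CommRingCat.of K)} (x : G.Pt t)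
    (w : G.Pt 𝟙K) : x.hom ≫ G.subFrom w = (G.const w t - x).hom := by
  have hc : G.comp x.hom x.hom_comp (G.const w f) = G.const w t := by
    apply Pt.ext
    simp only [const, comp_hom]
    rw [← Category.assoc, x.hom_comp]
  rw [subFrom, ← G.comp_hom x.hom x.hom_comp, map_sub, comp_idPt, hc]

lemma subFrom_subFrom (w : G.Pt 𝟙K) : G.subFrom w ≫ G.subFrom w = 𝟙 A := by
  conv_lhs => arg 1; rw [subFrom]
  rw [hom_comp_subFrom, sub_sub_cancel]
  rfl

lemma pt_subFrom (x w : G.Pt 𝟙K) : (G.subFrom w).base (pt x) = pt (w - x) := by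
  have h : G.const w 𝟙K = w := by
    ext; simp [const]
  show (G.subFrom w).base (x.hom.base (IsLocalRing.closedPoint K)) = _
  erw [← Scheme.Hom.comp_apply, hom_comp_subFrom, h]
  rfl

variable [IsAlgClosed K] [IsIntegral A] [IsProper f]

omit [IsIntegral A] in
/-- Every nonempty open subset contains a rational point. -/
lemma exists_pt_mem {U : A.Opens} (hU : (U : Set A).Nonempty) : ∃ x : G.Pt 𝟙K, pt x ∈ U := by
  have : JacobsonSpace A := LocallyOfFiniteType.jacobsonSpace f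
  obtain ⟨y, hyU, hy⟩ := nonempty_inter_closedPoints hU U.isOpen.isLocallyClosed
  obtain ⟨x, rfl⟩ := exists_pt_eq (G := G) (mem_closedPoints_iff.mp hy)
  exact ⟨x, hyU⟩

/-- Two copies of an open neighbourhood of the origin add up to everything. -/
lemma exists_add_eq {V : A.Opens} (h0 : pt (0 : G.Pt 𝟙K) ∈ V) (w : G.Pt 𝟙K) :
    ∃ u v : G.Pt 𝟙K, pt u ∈ V ∧ pt v ∈ V ∧ u + v = w := by
  have hne : ((G.subFrom w ⁻¹ᵁ V : A.Opens) : Set A).Nonempty := ⟨(G.subFrom w).base (pt (0 : G.Pt 𝟙K)), by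
    show (G.subFrom w).base ((G.subFrom w).base _) ∈ V
    rw [← Scheme.Hom.comp_apply, subFrom_subFrom]
    exact h0⟩
  obtain ⟨x, hxV, hx⟩ := exists_pt_mem (G := G) (U := V ⊓ G.subFrom w ⁻¹ᵁ V)
    (nonempty_preirreducible_inter V.isOpen (G.subFrom w ⁻¹ᵁ V).isOpen ⟨_, h0⟩ hne)
  exact ⟨x, w - x, hxV, by rw [← pt_subFrom]; exact hx, add_sub_cancel _ _⟩

omit [IsAlgClosed K] [IsIntegral A] [IsProper f] in
/-- The fourth difference is symmetric. -/
lemma cube_add_right (D : Pic A) {T : Scheme.{u}} {t : T ⟶ Spec (CommRingCat.of K)}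
    (a b c w : G.Pt t) : G.cube D a b (c + w) =
      G.cube D a b w + G.cube D (a + w) b c - G.cube D w b c := by
  simp only [cube]
  abel_nf

/-- The theorem of the cube follows from its restriction to `(A × A) × V`. -/
theorem cube_eq_zero_of_local [IsIntegral (A2 f)] [IsProper (A2.str f)] (D : Pic A)
    (L : LB (A3 f)) (hL : Pic.mk L = G.cube D G.proj₁ G.proj₂ G.proj₃)
    (V : A.Opens) (hne : (V : Set A).Nonempty)
    (s : LB.Sec L (pullback.snd (A2.str f) f ⁻¹ᵁ V)) (hs : s.Nowhere0) :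
    G.cube D G.proj₁ G.proj₂ G.proj₃ = 0 := by
  have base : ∀ {T : Scheme.{u}} {t : T ⟶ Spec (CommRingCat.of K)} (a b c : G.Pt t),
      (∀ x, c.hom.base x ∈ V) → G.cube D a b c = 0 := by
    intro T t a b c hc
    have ha : G.comp _ (G.triple_str a b c) G.proj₁ = a :=
      Pt.ext ((pullback.lift_fst_assoc _ _ _ _).trans (pullback.lift_fst _ _ _))
    have hb : G.comp _ (G.triple_str a b c) G.proj₂ = b :=
      Pt.ext ((pullback.lift_fst_assoc _ _ _ _).trans (pullback.lift_snd _ _ _))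
    have hc' : G.comp _ (G.triple_str a b c) G.proj₃ = c := Pt.ext (pullback.lift_snd _ _ _)
    calc G.cube D a b c = Pic.pull (G.triple a b c) (Pic.mk L) := by
          rw [hL, ← G.cube_comp D _ (G.triple_str a b c), ha, hb, hc']
      _ = 0 := LB.pull_mk_eq_zero_of_frame _ s hs fun x => by
          show (pullback.snd (A2.str f) f).base ((G.triple a b c).base x) ∈ V
          rw [← Scheme.Hom.comp_apply, triple, pullback.lift_snd]
          exact hc x
  -- shift the open set to contain the origin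
  obtain ⟨v₀, hv₀⟩ := exists_pt_mem (G := G) hne
  obtain ⟨V', h0, base0⟩ : ∃ V' : A.Opens, pt (0 : G.Pt 𝟙K) ∈ V' ∧
      ∀ {T : Scheme.{u}} {t : T ⟶ Spec (CommRingCat.of K)} (a b c : G.Pt t),
        (∀ x, c.hom.base x ∈ V') → G.cube D a b c = 0 := by
    refine ⟨G.transl v₀ ⁻¹ᵁ V, ?_, fun {T t} a b c hc => ?_⟩
    · show (G.transl v₀).base (pt (0 : G.Pt 𝟙K)) ∈ V
      rw [transl_pt, zero_add]
      exact hv₀
    · have key : ∀ a' : G.Pt t, G.cube D a' b c = G.cube D (G.const v₀ t) b c := fun a' => by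
        have h := cube_add_right D (a' - G.const v₀ t) b c (G.const v₀ t)
        rw [base _ _ (c + G.const v₀ t) (fun x => by
            rw [← hom_comp_transl, Scheme.Hom.comp_apply]
            exact hc x),
          base _ _ (G.const v₀ t) (fun x => (const_base v₀ t x).symm ▸ hv₀),
          sub_add_cancel, zero_add] at h
        exact sub_eq_zero.mp h.symm
      have hzero : G.cube D (0 : G.Pt t) b c = 0 := by simp [cube]; abel
      rw [key a, ← key 0, hzero]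
  have base' : ∀ {T : Scheme.{u}} {t : T ⟶ Spec (CommRingCat.of K)} (a b c : G.Pt t)
      (w : G.Pt 𝟙K), (∀ x, c.hom.base x ∈ V') → G.cube D a b (c + G.const w t) = 0 := by
    intro T t a b c w hc
    obtain ⟨u, v, hu, hv, rfl⟩ := exists_add_eq h0 w
    rw [cube_add_right, base0 _ _ _ hc, base0 _ _ _ hc, const_add, cube_add_right,
      base0 _ _ (G.const v t) (fun x => (const_base v t x).symm ▸ hv),
      base0 _ _ (G.const u t) (fun x => (const_base u t x).symm ▸ hu),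
      base0 _ _ (G.const u t) (fun x => (const_base u t x).symm ▸ hu)]
    simp
  letI : (A2 f).Over (Spec (CommRingCat.of K)) := ⟨A2.str f⟩
  letI : A.Over (Spec (CommRingCat.of K)) := ⟨f⟩
  have : IsProper ((A2 f) ↘ Spec (CommRingCat.of K)) := ‹IsProper (A2.str f)›
  have : CompactSpace (A2 f) := (quasiCompact_iff_compactSpace (A2.str f)).mp inferInstance
  have : QuasiSeparatedSpace (A2 f) :=
    (quasiSeparated_iff_quasiSeparatedSpace (A2.str f)).mp inferInstance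
  let σ : A ⟶ A3 f := G.triple 0 0 G.idPt
  have hσ : σ ≫ pullback.snd (A2.str f) f = 𝟙 A := pullback.lift_snd _ _ _
  have hσL : Pic.pull σ (Pic.mk L) = 0 := by
    have ha : G.comp σ (G.triple_str _ _ _) G.proj₁ = (0 : G.Pt f) :=
      Pt.ext ((pullback.lift_fst_assoc _ _ _ _).trans (pullback.lift_fst _ _ _))
    have hb : G.comp σ (G.triple_str _ _ _) G.proj₂ = (0 : G.Pt f) :=
      Pt.ext ((pullback.lift_fst_assoc _ _ _ _).trans (pullback.lift_snd _ _ _))
    rw [hL, ← cube_comp G D σ (G.triple_str _ _ _), ha, hb]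
    simp [cube]
    abel
  rw [← hL]
  refine Cube.pic_eq_zero_of_frames (K := K) (X := A2 f) (T := A) Cube.exists_eq_algebraMap σ hσ L
    hσL (fun w : G.Pt 𝟙K => G.transl (-w) ⁻¹ᵁ V') ?_ fun w => ?_
  · intro p _
    by_contra hp
    have hcl : IsClosed ((⨆ w : G.Pt 𝟙K, G.transl (-w) ⁻¹ᵁ V' : A.Opens) : Set A)ᶜ :=
      (Opens.isOpen _).isClosed_compl
    have : JacobsonSpace A := LocallyOfFiniteType.jacobsonSpace f
    obtain ⟨y, hy, hy'⟩ := nonempty_inter_closedPoints ⟨p, hp⟩ hcl.isLocallyClosed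
    obtain ⟨x, rfl⟩ := exists_pt_eq (G := G) (mem_closedPoints_iff.mp hy')
    refine hy (Opens.mem_iSup.2 ⟨x, ?_⟩)
    show (G.transl (-x)).base (pt x) ∈ V'
    rw [transl_pt, add_neg_cancel]
    exact h0
  · refine LB.exists_frame_of_pull_eq_zero _ ?_
    let W : (A3 f).Opens := pullback.snd (A2.str f) f ⁻¹ᵁ (G.transl (-w) ⁻¹ᵁ V')
    show Pic.pull W.ι (Pic.mk L) = 0
    rw [hL, ← cube_comp G D W.ι rfl]
    let c := G.comp W.ι (rfl : W.ι ≫ A3.str f = _) G.proj₃
    have hc : c = (c + G.const (-w) _) + G.const w _ := by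
      rw [add_assoc, ← const_add, neg_add_cancel]
      exact (by rw [show G.const 0 (W.ι ≫ A3.str f) = 0 from
        map_zero (G.comp _ (Category.comp_id _)), add_zero])
    show G.cube D _ _ c = 0
    rw [hc]
    refine base' _ _ _ _ fun x => ?_
    rw [← hom_comp_transl, Scheme.Hom.comp_apply]
    exact x.2

end CommLaw

end FLTA.AbelianVar
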