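import Fermat.Agent.AbelianVar.Cube.Transition

/-! # From coordinates to a frame on a tube -/

set_option autoImplicit false

universe u

open CategoryTheory CategoryTheory.Limits AlgebraicGeometry TopologicalSpace TensorProduct

noncomputable section

namespace FLTA.AbelianVar.Cube

open LB

variable {K : Type u} [Field K] {X T : Scheme.{u}}
  [X.Over (Spec (CommRingCat.of K))] [T.Over (Spec (CommRingCat.of K))]

section Glue

variable {L : LB (prod K X T)} {ι : Type} {W : ι → X.Opens} {V : T.Opens}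

lemma pair_swap {W : (prod K X T).Opens} (s : Sec L W) (s' : Sec L.inv W) :
    Sec.pair (L := L.inv) s' s = Sec.pair s s' := by
  refine Sec.pair_ext (L := L) fun x U hU hx => ?_
  rw [Sec.pair_spec s s' x U hU hx]
  exact (Sec.pair_spec (L := L.inv) s' s x U hU hx).trans (mul_comm _ _)

/-- The locus where some `t i` and `t' i` are both frames. -/
def solOpen (t : ∀ i, Sec L (box K (W i) V)) (t' : ∀ i, Sec L.inv (box K (W i) V)) :
    (prod K X T).Opens :=
  ⨆ i, (prod K X T).basicOpen (Sec.pair (t i) (t' i))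

lemma basicOpen_le_solOpen (t : ∀ i, Sec L (box K (W i) V))
    (t' : ∀ i, Sec L.inv (box K (W i) V)) (i : ι) :
    (prod K X T).basicOpen (Sec.pair (t i) (t' i)) ≤ solOpen t t' :=
  le_iSup (fun i => (prod K X T).basicOpen (Sec.pair (t i) (t' i))) i

/-- Coordinates give a section. -/
theorem exists_sec_of_isSolOn (t : ∀ i, Sec L (box K (W i) V))
    (t' : ∀ i, Sec L.inv (box K (W i) V)) (φ : ∀ i, Γ(prod K X T, box K (W i) V))
    (hφ : IsSolOn t t' φ) :
    ∃ s : Sec L (solOpen t t'), ∀ i,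
      Sec.pair (Sec.res (basicOpen_le_solOpen t t' i) s)
          (Sec.res ((prod K X T).basicOpen_le _) (t' i)) =
        rs ((prod K X T).basicOpen_le (Sec.pair (t i) (t' i))) (φ i) := by
  let a := fun i => Sec.pair (t i) (t' i)
  let O := fun i => (prod K X T).basicOpen (a i)
  have hO : ∀ i, O i ≤ box K (W i) V := fun i => (prod K X T).basicOpen_le _
  have hu : ∀ i, IsUnit (rs (hO i) (a i)) := fun i =>
    (prod K X T).toRingedSpace.isUnit_res_basicOpen (a i)
  have hn : ∀ i, (Sec.res (hO i) (t i)).Nowhere0 ∧ (Sec.res (hO i) (t' i)).Nowhere0 := fun i => by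
    rw [← Sec.isUnit_pair_iff, ← Sec.rs_pair]
    exact hu i
  let c : ∀ i, Γ(prod K X T, O i) := fun i => ↑(hu i).unit⁻¹ * rs (hO i) (φ i)
  let σ : ∀ i, Sec L (O i) := fun i => c i • Sec.res (hO i) (t i)
  have hσ : ∀ i, Sec.pair (σ i) (Sec.res (hO i) (t' i)) = rs (hO i) (φ i) := fun i => by
    rw [Sec.pair_smul_left, ← Sec.rs_pair, mul_comm, ← mul_assoc, IsUnit.mul_val_inv, one_mul]
  obtain ⟨s, hs⟩ := Sec.exists_glue O (basicOpen_le_solOpen t t') le_rfl σ fun i j => by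
    have hi : O i ⊓ O j ≤ O i := inf_le_left
    have hj : O i ⊓ O j ≤ O j := inf_le_right
    have hij : O i ⊓ O j ≤ box K (inter₂ W (i, j)) V := by
      refine (inf_le_inf (hO i) (hO j)).trans ?_
      rw [box_inf, inf_idem]
    have hti : O i ⊓ O j ≤ box K (W i) V := hi.trans (hO i)
    have htj : O i ⊓ O j ≤ box K (W j) V := hj.trans (hO j)
    have he : Sec.pair (Sec.res hti (t i)) (Sec.res htj (t' j)) * rs hti (φ i) =
        rs hti (a i) * rs htj (φ j) := by
      have h := congrArg (rs hij) (hφ (i, j))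
      rw [map_mul, map_mul, crossPair, selfPair, rs_rs, rs_rs, rs_rs, Sec.rs_pair,
        Sec.res_res, Sec.res_res] at h
      exact h
    refine Sec.pair_left_inj (s' := Sec.res hj (Sec.res (hO j) (t' j)))
      (fun x U hU hx => (hn j).2 x U (hU.trans hj) hx) ?_
    have h2 : rs hi (↑(hu i).unit⁻¹) * rs hti (a i) = 1 := by
      rw [← rs_rs (hO i) hi, ← map_mul, IsUnit.val_inv_mul, map_one]
    calc Sec.pair (Sec.res hi (σ i)) (Sec.res hj (Sec.res (hO j) (t' j)))
        = rs hi (c i) * Sec.pair (Sec.res hti (t i)) (Sec.res htj (t' j)) := by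
          rw [Sec.res_smul, Sec.pair_smul_left]
          rfl
      _ = rs hi (↑(hu i).unit⁻¹) *
            (Sec.pair (Sec.res hti (t i)) (Sec.res htj (t' j)) * rs hti (φ i)) := by
          rw [map_mul, rs_rs]
          ring
      _ = rs htj (φ j) := by rw [he, ← mul_assoc, h2, one_mul]
      _ = rs hj (rs (hO j) (φ j)) := (rs_rs _ _ _).symm
      _ = _ := by rw [← hσ j, Sec.rs_pair]
  exact ⟨s, fun i => (congrArg (fun v : Sec L (O i) =>
    Sec.pair v (Sec.res (hO i) (t' i))) (hs i)).trans (hσ i)⟩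

end Glue

variable [CompactSpace X] [QuasiSeparatedSpace X]

/-- Functions on `X × V` come from `V`. -/
theorem exists_eq_pb_p₂ (hconst : ∀ s : Γ(X, ⊤), ∃ r : K, s = algebraMap K Γ(X, ⊤) r)
    {V : T.Opens} (hV : IsAffineOpen V) (φ : Γ(prod K X T, (p₂ K X T) ⁻¹ᵁ V)) :
    ∃ b, φ = pb (p₂ K X T) le_rfl b := by
  have hb : box K ⊤ V = (p₂ K X T) ⁻¹ᵁ V := by simp [box]
  obtain ⟨z, hz⟩ := (boxHom_bijective (K := K) (U := (⊤ : X.Opens)) hV
    (by simpa using isCompact_univ) (by simpa using isQuasiSeparated_univ)).2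
    (rs (box_le_right ⊤ V) φ)
  obtain ⟨b, rfl⟩ : ∃ b, z = 1 ⊗ₜ b := by
    clear hz
    induction z with
    | zero => exact ⟨0, (tmul_zero _ _).symm⟩
    | tmul a b =>
      obtain ⟨r, rfl⟩ := hconst a
      exact ⟨r • b, by rw [Algebra.algebraMap_eq_smul_one, smul_tmul]⟩
    | add x y hx hy =>
      obtain ⟨b, rfl⟩ := hx
      obtain ⟨b', rfl⟩ := hy
      exact ⟨b + b', (tmul_add _ _ _).symm⟩
  refine ⟨b, ?_⟩
  rw [boxHom_tmul, map_one, one_mul] at hz
  have h3 := congrArg (rs hb.ge) hz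
  rw [rs_pb, rs_rs, rs_self] at h3
  exact h3.symm

omit [CompactSpace X] [QuasiSeparatedSpace X] in
/-- The fibre over a rational point is the image of the axis. -/
lemma exists_axisLeft_eq (t₀ : Spec (CommRingCat.of K) ⟶ T)
    (ht₀ : t₀ ≫ (T ↘ Spec (CommRingCat.of K)) = 𝟙 _) (q : (prod K X T : Scheme))
    (p : Spec (CommRingCat.of K)) (h : (p₂ K X T).base q = t₀.base p) :
    ∃ x : X, (axisLeft (X := X) K t₀ ht₀).base x = q := by
  have outer : IsPullback (axisLeft (X := X) K t₀ ht₀ ≫ p₁ K X T)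
      (X ↘ Spec (CommRingCat.of K)) (X ↘ Spec (CommRingCat.of K))
      (t₀ ≫ (T ↘ Spec (CommRingCat.of K))) := by
    rw [axisLeft_p₁, ht₀]
    exact .of_horiz_isIso ⟨by simp⟩
  have sq := IsPullback.of_right outer (axisLeft_p₂ (X := X))
    (IsPullback.of_hasPullback _ _)
  obtain ⟨x, hx, -⟩ := Scheme.exists_preimage_of_isPullback sq q p h
  exact ⟨x, hx⟩

variable [IsAlgClosed K]

omit [CompactSpace X] [QuasiSeparatedSpace X] in
theorem exists_frame_of_isSolOn [AlgebraicGeometry.IsIntegral X] [AlgebraicGeometry.IsIntegral T]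
    [AlgebraicGeometry.IsIntegral (prod K X T)] [IsProper (X ↘ Spec (CommRingCat.of K))]
    [IsSeparated (T ↘ Spec (CommRingCat.of K))]
    {t₀ : Spec (CommRingCat.of K) ⟶ T} {ht₀ : t₀ ≫ (T ↘ Spec (CommRingCat.of K)) = 𝟙 _}
    {L : LB (prod K X T)} {ι : Type} [Finite ι] {W : ι → X.Opens} (hW : ∀ i, IsAffineOpen (W i))
    (hcov : ⊤ ≤ ⨆ i, W i) {V : T.Opens} (hV : IsAffineOpen V) (h₀ : ⊤ ≤ t₀ ⁻¹ᵁ V)
    (t : ∀ i, Sec L (box K (W i) V)) (t' : ∀ i, Sec L.inv (box K (W i) V))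
    (h1 : ∀ i, pb (axisLeft (X := X) K t₀ ht₀) (le_axisLeft_preimage (U := W i) h₀)
      (Sec.pair (t i) (t' i)) = 1)
    (φ : ∀ i, Γ(prod K X T, box K (W i) V)) (hφ : IsSolOn t t' φ) (hφ0 : φ ≠ 0)
    (φ' : ∀ i, Γ(prod K X T, box K (W i) V))
    (hφ' : IsSolOn (L := L.inv) t' t φ') (hφ'0 : φ' ≠ 0) :
    ∃ V' : T.Opens, (V' : Set T).Nonempty ∧
      ∃ s : Sec L ((p₂ K X T) ⁻¹ᵁ V'), s.Nowhere0 := by
  obtain ⟨s, hs⟩ := exists_sec_of_isSolOn t t' φ hφ
  obtain ⟨s₁, hs₁⟩ := exists_sec_of_isSolOn (L := L.inv) t' t φ' hφ'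
  let O := solOpen t t'
  have hOO : O ≤ solOpen (L := L.inv) t' t :=
    iSup_mono fun i => le_of_eq (by rw [pair_swap])
  let s' : Sec L.inv O := Sec.res hOO s₁
  have haxis : ∀ i, W i ≤ axisLeft (X := X) K t₀ ht₀ ⁻¹ᵁ
      (prod K X T).basicOpen (Sec.pair (t i) (t' i)) := fun i => by
    have h := congrArg X.basicOpen (h1 i)
    rw [X.basicOpen_of_isUnit isUnit_one] at h
    rw [pb, Scheme.basicOpen_appLE] at h
    exact h.ge.trans inf_le_right
  -- the tube
  let F : Set T := (p₂ K X T).base '' (O : Set (prod K X T : Scheme))ᶜ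
  have : CompactSpace X :=
    (quasiCompact_iff_compactSpace (X ↘ Spec (CommRingCat.of K))).mp inferInstance
  have : QuasiSeparatedSpace X :=
    (quasiSeparated_iff_quasiSeparatedSpace (X ↘ Spec (CommRingCat.of K))).mp inferInstance
  have hF : IsClosed F := (p₂ K X T).isClosedMap _ O.isOpen.isClosed_compl
  let p : Spec (CommRingCat.of K) := IsLocalRing.closedPoint K
  have hpF : t₀.base p ∈ (⟨Fᶜ, hF.isOpen_compl⟩ ⊓ V : T.Opens) := by
    refine ⟨?_, h₀ (trivial : p ∈ (⊤ : (Spec (CommRingCat.of K)).Opens))⟩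
    rintro ⟨q, hq, hqp⟩
    obtain ⟨x, rfl⟩ := exists_axisLeft_eq t₀ ht₀ q p hqp
    obtain ⟨i, hi⟩ := Opens.mem_iSup.1 (hcov (trivial : x ∈ (⊤ : X.Opens)))
    exact hq (basicOpen_le_solOpen t t' i (haxis i hi))
  obtain ⟨_, ⟨V₁, hV₁, rfl⟩, hpV₁, hV₁le⟩ :=
    T.isBasis_affineOpens.exists_subset_of_mem_open hpF (Opens.isOpen _)
  have hP : (p₂ K X T) ⁻¹ᵁ V₁ ≤ O := fun q hq => by
    by_contra h
    exact (hV₁le hq).1 ⟨q, h, rfl⟩
  obtain ⟨b, hb⟩ := exists_eq_pb_p₂ globalConst_of_proper hV₁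
    (Sec.pair (Sec.res hP s) (Sec.res hP s'))
  -- `⟨s, s'⟩` is not zero
  have hb0 : b ≠ 0 := by
    intro hb0
    obtain ⟨i, hi⟩ := Function.ne_iff.1 hφ0
    obtain ⟨k, hk⟩ := Function.ne_iff.1 hφ'0
    let O' := fun i => (prod K X T).basicOpen (Sec.pair (t i) (t' i))
    have hne : ∀ (i : ι) (x : Γ(prod K X T, box K (W i) V)), x ≠ 0 →
        ((O' i : (prod K X T).Opens) : Set (prod K X T : Scheme)).Nonempty := by
      intro i x hx
      have hbox : ((box K (W i) V : (prod K X T).Opens) : Set (prod K X T : Scheme)).Nonempty := by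
        by_contra h
        have h' : box K (W i) V ≤ ⊥ := fun q hq => (h ⟨q, hq⟩).elim
        refine hx (rs_ext_cover (fun _ : Empty => (⊥ : (prod K X T).Opens)) (fun e => e.elim)
          (h'.trans bot_le) fun e => e.elim)
      obtain ⟨q, hq⟩ := hbox
      exact ⟨_, haxis i (box_le_left (W i) V hq)⟩
    have hP0 : (((p₂ K X T) ⁻¹ᵁ V₁ : (prod K X T).Opens) : Set (prod K X T : Scheme)).Nonempty := by
      have x : X := Nonempty.some inferInstance
      refine ⟨(axisLeft (X := X) K t₀ ht₀).base x, ?_⟩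
      show (p₂ K X T).base _ ∈ V₁
      rw [← Scheme.Hom.comp_apply, axisLeft_p₂, Scheme.Hom.comp_apply,
        Subsingleton.elim (α := PrimeSpectrum K) ((X ↘ Spec (CommRingCat.of K)).base x) p]
      exact hpV₁
    let U := O' i ⊓ O' k ⊓ (p₂ K X T) ⁻¹ᵁ V₁
    have hU : Nonempty U := Set.nonempty_coe_sort.mpr <|
      nonempty_preirreducible_inter (O' i ⊓ O' k).isOpen ((p₂ K X T) ⁻¹ᵁ V₁).isOpen
        (nonempty_preirreducible_inter (O' i).isOpen (O' k).isOpen (hne i _ hi) (hne k _ hk)) hP0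
    have hUi : U ≤ O' i := inf_le_left.trans inf_le_left
    have hUk : U ≤ O' k := inf_le_left.trans inf_le_right
    have hUP : U ≤ (p₂ K X T) ⁻¹ᵁ V₁ := inf_le_right
    have hUk' : U ≤ (prod K X T).basicOpen (Sec.pair (L := L.inv) (t' k) (t k)) := by
      rw [pair_swap]
      exact hUk
    have hUbi : U ≤ box K (W i) V := hUi.trans ((prod K X T).basicOpen_le _)
    have hUbk : U ≤ box K (W k) V := hUk.trans ((prod K X T).basicOpen_le _)
    have hUO : U ≤ O := hUP.trans hP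
    have e1 : Sec.pair (Sec.res hUO s) (Sec.res hUbi (t' i)) = rs hUbi (φ i) := by
      have h := congrArg (rs hUi) (hs i)
      rw [Sec.rs_pair, rs_rs] at h
      exact h
    have e2 : Sec.pair (Sec.res hUbk (t k)) (Sec.res hUO s') = rs hUbk (φ' k) := by
      have h := congrArg (rs hUk') (hs₁ k)
      rw [Sec.rs_pair, rs_rs, pair_swap] at h
      exact h
    have e3 : Sec.pair (Sec.res hUO s) (Sec.res hUO s') = 0 := by
      have h := congrArg (rs hUP) hb
      rw [hb0, map_zero, map_zero, Sec.rs_pair] at h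
      exact h
    have h := Sec.pair_mul_pair (Sec.res hUO s) (Sec.res hUbk (t k)) (Sec.res hUO s')
      (Sec.res hUbi (t' i))
    rw [e3, zero_mul, e1, e2] at h
    rcases mul_eq_zero.mp h.symm with h | h
    · exact hi (map_injective_of_isIntegral (prod K X T) (homOfLE hUbi)
        (h.trans (map_zero _).symm))
    · exact hk (map_injective_of_isIntegral (prod K X T) (homOfLE hUbk)
        (h.trans (map_zero _).symm))
  refine ⟨T.basicOpen b, ?_, Sec.res ((p₂ K X T).preimage_mono (T.basicOpen_le b))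
    (Sec.res hP s), ?_⟩
  · rw [Set.nonempty_iff_ne_empty]
    intro h
    exact hb0 ((basicOpen_eq_bot_iff b).mp (SetLike.coe_injective (h.trans Opens.coe_bot.symm)))
  · refine ((Sec.isUnit_pair_iff _ (Sec.res ((p₂ K X T).preimage_mono (T.basicOpen_le b))
      (Sec.res hP s'))).mp ?_).1
    rw [← Sec.rs_pair, hb, rs_pb,
      ← pb_rs (p₂ K X T) (T.basicOpen_le b) (le_refl ((p₂ K X T) ⁻¹ᵁ T.basicOpen b))]
    exact (T.toRingedSpace.isUnit_res_basicOpen b).map _

end FLTA.AbelianVar.Cube
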