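import Fermat.Agent.AbelianVar.Cube.Formal
import Fermat.Agent.AbelianVar.Cube.Tube
import Fermat.Agent.AbelianVar.Cube.Bound
import Fermat.Agent.AbelianVar.Cube.Spread
import Fermat.Agent.AbelianVar.ProductGeometry

/-!
# The universal cube bundle is trivial on a tube
-/

set_option autoImplicit false

universe u

open CategoryTheory CategoryTheory.Limits AlgebraicGeometry TopologicalSpace TensorProduct

noncomputable section

namespace FLTA.AbelianVar

namespace Cube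

open LB

variable {K : Type u} [Field K]

section Lifts

variable {X T : Scheme.{u}} [X.Over (Spec (CommRingCat.of K))] [T.Over (Spec (CommRingCat.of K))]
  [IsSeparated (T ↘ Spec (CommRingCat.of K))]
  {t₀ : Spec (CommRingCat.of K) ⟶ T} {ht₀ : t₀ ≫ (T ↘ Spec (CommRingCat.of K)) = 𝟙 _}
  {ι : Type} {W : ι → X.Opens} {V : T.Opens}

/-- A bundle trivial on `X × {t₀}` has normalised local sections. -/
theorem exists_normalised_lifts {L : LB (prod K X T)}
    (h : Pic.pull (axisLeft (X := X) K t₀ ht₀) (Pic.mk L) = 0)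
    (hW : ∀ i, IsAffineOpen (W i)) (hV : IsAffineOpen V) (h₀ : ⊤ ≤ t₀ ⁻¹ᵁ V) :
    ∃ (t : ∀ i, Sec L (box K (W i) V)) (t' : ∀ i, Sec L.inv (box K (W i) V)),
      IsNormalised (ht₀ := ht₀) t t' h₀ := by
  rw [Pic.pull_mk, pic_mk_eq_zero_iff] at h
  obtain ⟨r, hr⟩ := h
  obtain ⟨r', hrr'⟩ := Sec.exists_dual r hr
  have := isClosedImmersion_axisLeft (X := X) (t₀ := t₀) (ht₀ := ht₀)
  choose t ht using fun i => Sec.exists_pull_eq (axisLeft (X := X) K t₀ ht₀)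
    (isAffineOpen_box (hW i) hV) (L := L) (Sec.res le_top r)
  choose t' ht' using fun i => Sec.exists_pull_eq (axisLeft (X := X) K t₀ ht₀)
    (isAffineOpen_box (hW i) hV) (L := L.inv)
    (Sec.invPull (axisLeft (X := X) K t₀ ht₀) (Sec.res le_top r'))
  refine ⟨t, t', fun i j U hi hj => ?_⟩
  have hUi : U ≤ axisLeft (X := X) K t₀ ht₀ ⁻¹ᵁ box K (W i) V :=
    hi.trans (le_axisLeft_preimage h₀)
  have hUj : U ≤ axisLeft (X := X) K t₀ ht₀ ⁻¹ᵁ box K (W j) V :=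
    hj.trans (le_axisLeft_preimage h₀)
  rw [Sec.pb_pair, Sec.pull_res (axisLeft (X := X) K t₀ ht₀) _ hUi le_rfl _ (t i),
    Sec.pull_res (axisLeft (X := X) K t₀ ht₀) _ hUj le_rfl _ (t' j), ht, ht']
  show Sec.pair (Sec.res (le_top : U ≤ ⊤) r) (Sec.res (le_top : U ≤ ⊤) r') = 1
  rw [← Sec.rs_pair, hrr', map_one]

end Lifts

lemma isClosedImmersion_axisRight {X Y : Scheme.{u}} [X.Over (Spec (CommRingCat.of K))]
    [Y.Over (Spec (CommRingCat.of K))] [IsSeparated (X ↘ Spec (CommRingCat.of K))]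
    {x₀ : Spec (CommRingCat.of K) ⟶ X} {hx₀ : x₀ ≫ (X ↘ Spec (CommRingCat.of K)) = 𝟙 _} :
    IsClosedImmersion (axisRight (Y := Y) K x₀ hx₀) := by
  have : IsClosedImmersion (axisRight (Y := Y) K x₀ hx₀ ≫ p₂ K X Y) := by
    rw [axisRight_p₂]; infer_instance
  exact MorphismProperty.of_postcomp @IsClosedImmersion (W' := @IsSeparated) _ (p₂ K X Y)
    inferInstance this

lemma isSeparated_scheme (X : Scheme.{u}) [X.Over (Spec (CommRingCat.of K))]
    [IsSeparated (X ↘ Spec (CommRingCat.of K))] : X.IsSeparated := by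
  refine ⟨?_⟩
  rw [← terminal.comp_from (X ↘ Spec (CommRingCat.of K))]
  infer_instance

lemma exists_finite_affine_cover (X : Scheme.{u}) [CompactSpace X] :
    ∃ (n : ℕ) (W : Fin n → X.Opens), (∀ i, IsAffineOpen (W i)) ∧ ⊤ ≤ ⨆ i, W i := by
  obtain ⟨s, hs⟩ := isCompact_univ.elim_finite_subcover
    (fun U : X.affineOpens => ((U : X.Opens) : Set X)) (fun U => U.1.isOpen) fun x _ => by
      obtain ⟨_, ⟨V, hV, rfl⟩, hxV, -⟩ :=
        X.isBasis_affineOpens.exists_subset_of_mem_open (Set.mem_univ x) isOpen_univ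
      exact Set.mem_iUnion.2 ⟨⟨V, hV⟩, hxV⟩
  refine ⟨_, fun i => ((Fintype.equivFin s).symm i).1.1, fun i => ((Fintype.equivFin s).symm i).1.2,
    fun x _ => ?_⟩
  obtain ⟨U, hU, hxU⟩ := Set.mem_iUnion₂.1 (hs (Set.mem_univ x))
  exact Opens.mem_iSup.2 ⟨Fintype.equivFin s ⟨U, hU⟩, by simpa using hxU⟩

/-- A bundle on `(Y × Z) × T` trivial on `(Y × Z) × {t₀}`, on `Y × {z₀} × T` and on
`{y₀} × Z × T` is trivial on a tube over a nonempty open subset of `T`. -/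
theorem exists_frame_of_axes [IsAlgClosed K] {Y Z T : Scheme.{u}}
    [Y.Over (Spec (CommRingCat.of K))] [Z.Over (Spec (CommRingCat.of K))]
    [T.Over (Spec (CommRingCat.of K))]
    [AlgebraicGeometry.IsIntegral Y] [AlgebraicGeometry.IsIntegral Z]
    [AlgebraicGeometry.IsIntegral T] [AlgebraicGeometry.IsIntegral (prod K Y Z)]
    [AlgebraicGeometry.IsIntegral (prod K (prod K Y Z) T)]
    [IsProper (Y ↘ Spec (CommRingCat.of K))] [IsProper (Z ↘ Spec (CommRingCat.of K))]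
    [IsProper (T ↘ Spec (CommRingCat.of K))]
    [IsProper ((prod K Y Z) ↘ Spec (CommRingCat.of K))] (g : ℕ)
    [SmoothOfRelativeDimension g ((prod K Y Z) ↘ Spec (CommRingCat.of K))]
    {y₀ : Spec (CommRingCat.of K) ⟶ Y} {hy₀ : y₀ ≫ (Y ↘ Spec (CommRingCat.of K)) = 𝟙 _}
    {z₀ : Spec (CommRingCat.of K) ⟶ Z} {hz₀ : z₀ ≫ (Z ↘ Spec (CommRingCat.of K)) = 𝟙 _}
    {t₀ : Spec (CommRingCat.of K) ⟶ T} {ht₀ : t₀ ≫ (T ↘ Spec (CommRingCat.of K)) = 𝟙 _}
    (L : LB (prod K (prod K Y Z) T))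
    (h0 : Pic.pull (axisLeft (X := prod K Y Z) K t₀ ht₀) (Pic.mk L) = 0)
    (hl : Pic.pull (mapFst K T (axisLeft (X := Y) K z₀ hz₀)) (Pic.mk L) = 0)
    (hr : Pic.pull (mapFst K T (axisRight (Y := Z) K y₀ hy₀)) (Pic.mk L) = 0) :
    ∃ V' : T.Opens, (V' : Set T).Nonempty ∧
      ∃ s : Sec L ((p₂ K (prod K Y Z) T) ⁻¹ᵁ V'), s.Nowhere0 := by
  have : CompactSpace Y :=
    QuasiCompact.compactSpace_of_compactSpace (Y ↘ Spec (CommRingCat.of K))
  have : CompactSpace Z :=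
    QuasiCompact.compactSpace_of_compactSpace (Z ↘ Spec (CommRingCat.of K))
  have := isSeparated_scheme (K := K) Y
  have := isSeparated_scheme (K := K) Z
  have := isSeparated_scheme (K := K) (prod K Y Z)
  have : IsLocallyNoetherian T :=
    LocallyOfFiniteType.isLocallyNoetherian (T ↘ Spec (CommRingCat.of K))
  obtain ⟨m, WY, hWY, hcY⟩ := exists_finite_affine_cover Y
  obtain ⟨n, WZ, hWZ, hcZ⟩ := exists_finite_affine_cover Z
  let W := prodCover K WY WZ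
  have hW : ∀ p, IsAffineOpen (W p) := fun p => isAffineOpen_box (hWY _) (hWZ _)
  have hW₂ : ∀ p, IsAffineOpen (inter₂ W p) := fun p => (hW _).inf (hW _)
  have hW₃ : ∀ p, IsAffineOpen (inter₃ W p) := fun p => ((hW _).inf (hW _)).inf (hW _)
  have hcov : ⊤ ≤ ⨆ p, W p := fun x _ => by
    obtain ⟨i, hi⟩ := Opens.mem_iSup.1 (hcY (trivial : p₁ K Y Z x ∈ (⊤ : Y.Opens)))
    obtain ⟨k, hk⟩ := Opens.mem_iSup.1 (hcZ (trivial : p₂ K Y Z x ∈ (⊤ : Z.Opens)))
    exact Opens.mem_iSup.2 ⟨(i, k), hi, hk⟩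
  -- an affine neighbourhood of the origin
  obtain ⟨_, ⟨V, hV, rfl⟩, htV, -⟩ := T.isBasis_affineOpens.exists_subset_of_mem_open
    (Set.mem_univ (t₀ (default : _))) isOpen_univ
  have h₀ : ⊤ ≤ t₀ ⁻¹ᵁ V := fun x _ => by rw [Subsingleton.elim x default]; exact htV
  have : Nonempty V := ⟨⟨_, htV⟩⟩
  have : IsNoetherianRing Γ(T, V) := IsLocallyNoetherian.component_noetherian ⟨V, hV⟩
  have := isClosedImmersion_axisLeft (X := Y) (t₀ := z₀) (ht₀ := hz₀)
  have := isClosedImmersion_axisRight (Y := Z) (x₀ := y₀) (hx₀ := hy₀)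
  have hcl : (coverDatum K fun i => axisLeft (X := Y) K z₀ hz₀ ⁻¹ᵁ W i).GlobalConst :=
    coverDatum_globalConst _ (fun x _ => by
      obtain ⟨i, hi⟩ := Opens.mem_iSup.1 (hcov (trivial : axisLeft (X := Y) K z₀ hz₀ x ∈ ⊤))
      exact Opens.mem_iSup.2 ⟨i, hi⟩) exists_eq_algebraMap
  have hcr : (coverDatum K fun i => axisRight (Y := Z) K y₀ hy₀ ⁻¹ᵁ W i).GlobalConst :=
    coverDatum_globalConst _ (fun x _ => by
      obtain ⟨i, hi⟩ := Opens.mem_iSup.1 (hcov (trivial : axisRight (Y := Z) K y₀ hy₀ x ∈ ⊤))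
      exact Opens.mem_iSup.2 ⟨i, hi⟩) exists_eq_algebraMap
  obtain ⟨t, t', hn⟩ := exists_normalised_lifts (W := W) h0 hW hV h₀
  have hK := kunneth (K := K) (y₀ := z₀) (hy₀ := hz₀) (x₀ := y₀) (hx₀ := hy₀) WY WZ
    (fun p => (hWY _).inf (hWY _)) hWY hWZ (fun p => (hWZ _).inf (hWZ _)) hcY hcZ
    exists_eq_algebraMap exists_eq_algebraMap
  obtain ⟨φ, hφ, hφ0⟩ := exists_isSolOn_ne_zero hW hW₂ hW₃ hcov hV hn
    (axisLeft (X := Y) K z₀ hz₀) (axisRight (Y := Z) K y₀ hy₀) hcl hcr hl hr hK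
    fun P Q hP hQ => exists_bound g hW hW₂ hcov hV h₀ t t' (IsNormalised.self hn) P Q hP hQ
  have hl' : Pic.pull (mapFst K T (axisLeft (X := Y) K z₀ hz₀)) (Pic.mk L.inv) = 0 := by
    rw [← Pic.neg_mk, map_neg, hl, neg_zero]
  have hr' : Pic.pull (mapFst K T (axisRight (Y := Z) K y₀ hy₀)) (Pic.mk L.inv) = 0 := by
    rw [← Pic.neg_mk, map_neg, hr, neg_zero]
  have hn' := IsNormalised.swap hn
  obtain ⟨φ', hφ', hφ'0⟩ := exists_isSolOn_ne_zero (L := L.inv) hW hW₂ hW₃ hcov hV hn'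
    (axisLeft (X := Y) K z₀ hz₀) (axisRight (Y := Z) K y₀ hy₀) hcl hcr hl' hr' hK
    fun P Q hP hQ => exists_bound (L := L.inv) g hW hW₂ hcov hV h₀ t' t
      (IsNormalised.self hn') P Q hP hQ
  exact exists_frame_of_isSolOn hW hcov hV h₀ t t' (IsNormalised.self hn) φ hφ hφ0 φ' hφ' hφ'0

end Cube

namespace CommLaw

open Cube

variable {K : Type u} [Field K] {A : Scheme.{u}} {f : A ⟶ Spec (CommRingCat.of K)}
  (G : CommLaw K f)

lemma zero_hom {T : Scheme.{u}} (t : T ⟶ Spec (CommRingCat.of K)) :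
    (0 : G.Pt t).hom = t ≫ (0 : G.Pt (𝟙 (Spec (CommRingCat.of K)))).hom := by
  rw [← map_zero (G.comp t (Category.comp_id t)), comp_hom]

/-- The universal cube bundle has a frame on `(A × A) × V` for some nonempty open `V`. -/
theorem exists_local_frame [IsAlgClosed K] [IsIntegral A] [IsProper f] (g : ℕ)
    [SmoothOfRelativeDimension g f] (D : Pic A) (M : LB (A3 f))
    (hM : Pic.mk M = G.cube D G.proj₁ G.proj₂ G.proj₃) :
    ∃ V : A.Opens, (V : Set A).Nonempty ∧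
      ∃ s : LB.Sec M (pullback.snd (A2.str f) f ⁻¹ᵁ V), s.Nowhere0 := by
  let _ : A.Over (Spec (CommRingCat.of K)) := ⟨f⟩
  have : IsProper (A ↘ Spec (CommRingCat.of K)) := ‹IsProper f›
  have : IsProper ((prod K A A) ↘ Spec (CommRingCat.of K)) :=
    (inferInstance : IsProper (A2.str f))
  have : SmoothOfRelativeDimension (g + g) ((prod K A A) ↘ Spec (CommRingCat.of K)) :=
    smoothOfRelativeDimension_A2 (f := f) g
  have : IsIntegral (prod K A A) := isIntegral_A2 (f := f) g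
  have : IsIntegral (prod K (prod K A A) A) := isIntegral_A3 (f := f) g
  let o := (0 : G.Pt (𝟙 (Spec (CommRingCat.of K)))).hom
  have ho : o ≫ (A ↘ Spec (CommRingCat.of K)) = 𝟙 _ :=
    (0 : G.Pt (𝟙 (Spec (CommRingCat.of K)))).hom_comp
  have key : ∀ {T : Scheme.{u}} (ψ : T ⟶ A3 f),
      (G.comp ψ rfl G.proj₁ = 0 ∨ G.comp ψ rfl G.proj₂ = 0 ∨ G.comp ψ rfl G.proj₃ = 0) →
      Pic.pull ψ (Pic.mk M) = 0 := by
    intro T ψ hψ
    rw [hM, ← G.cube_comp D ψ rfl]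
    rcases hψ with h | h | h <;> (rw [h]; simp [cube]; abel)
  refine exists_frame_of_axes (K := K) (Y := A) (Z := A) (T := A) (g + g) (y₀ := o) (hy₀ := ho)
    (z₀ := o) (hz₀ := ho) (t₀ := o) (ht₀ := ho) M ?_ ?_ ?_
  · refine key _ (.inr (.inr (Pt.ext ?_)))
    rw [comp_hom, zero_hom]
    show axisLeft (X := prod K A A) K o ho ≫ p₂ K (prod K A A) A = (_ ≫ p₂ K (prod K A A) A ≫ f) ≫ o
    rw [axisLeft_p₂_assoc, axisLeft_p₂]
    simp only [Category.assoc]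
    erw [reassoc_of% ho]
  · refine key _ (.inr (.inl (Pt.ext ?_)))
    rw [comp_hom, zero_hom]
    show mapFst K A (axisLeft (X := A) K o ho) ≫ p₁ K (prod K A A) A ≫ p₂ K A A =
      (_ ≫ pullback.snd (A2.str f) f ≫ f) ≫ o
    rw [← pullback.condition]
    show _ = (mapFst K A (axisLeft (X := A) K o ho) ≫ p₁ K (prod K A A) A ≫ p₁ K A A ≫ f) ≫ o
    rw [mapFst_p₁_assoc, axisLeft_p₂, mapFst_p₁_assoc, axisLeft_p₁_assoc]
    simp only [Category.assoc]
    rfl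
  · refine key _ (.inl (Pt.ext ?_))
    rw [comp_hom, zero_hom]
    show mapFst K A (axisRight (Y := A) K o ho) ≫ p₁ K (prod K A A) A ≫ p₁ K A A =
      (_ ≫ pullback.snd (A2.str f) f ≫ f) ≫ o
    rw [← pullback.condition]
    show _ = (mapFst K A (axisRight (Y := A) K o ho) ≫ p₁ K (prod K A A) A ≫ p₁ K A A ≫ f) ≫ o
    rw [mapFst_p₁_assoc, axisRight_p₁, mapFst_p₁_assoc, axisRight_p₁_assoc]
    simp only [Category.assoc]
    erw [reassoc_of% ho]

end CommLaw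

end FLTA.AbelianVar
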