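import Fermat.Agent.AbelianVar.Assembly
import Fermat.Agent.AbelianVar.Cube.Spread
import Fermat.Agent.AbelianVar.Cube.Local
import Fermat.Agent.AbelianVar.ProductGeometry

/-!
# The theorem of the cube for an abelian variety, and the number of torsion points
-/

set_option autoImplicit false

open CategoryTheory CategoryTheory.Limits AlgebraicGeometry NeronModelInfra GoodReductionJacobian

universe u

namespace FLTA.AbelianVar

/-- The number of `n`-torsion points of an abelian variety. -/
theorem natCard_isTorsionPoint (K : Type u) [Field K] [IsAlgClosed K] {A : Scheme.{u}}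
    (f : A ⟶ Spec (CommRingCat.of K)) (L : RelativeGroupLaw K f) (hc : L.IsCommutative)
    (hA : AbelianSchemePropertyBundle K f) (g : ℕ) [SmoothOfRelativeDimension g f]
    (n : ℕ) (hn : (n : K) ≠ 0) :
    Nat.card {x : SchemeHomOver (𝟙 (Spec (CommRingCat.of K))) f //
        L.IsTorsionPoint (𝟙 (Spec (CommRingCat.of K))) n x} = n ^ (2 * g) := by
  have := isProper_of_bundle hA
  have := isIntegral_abelian hA g ⟨L, hc⟩
  have := CommLaw.isIntegral_A2 (f := f) g
  refine natCard_isTorsionPoint_of_cube K f L hc hA g (fun D => ?_) n hn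
  set G : CommLaw K f := ⟨L, hc⟩
  obtain ⟨M, hM⟩ := Pic.mk_surjective (G.cube D G.proj₁ G.proj₂ G.proj₃)
  obtain ⟨V, hne, s, hs⟩ := G.exists_local_frame g D M hM
  exact CommLaw.cube_eq_zero_of_local D M hM V hne s hs

end FLTA.AbelianVar
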