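import Fermat.Agent.AbelianVar.Cube.Coeff

/-!
# Transition functions of a bundle on a product cover, from arbitrary local sections

For sections `t i` of `L` and `t' i` of `L⁻¹` on the boxes `W i × V`, a section `s` of `L` has
coordinates `φ i = ⟨s, t' i⟩` satisfying `⟨t i, t' j⟩ φ i = ⟨t i, t' i⟩ φ j`.
-/

set_option autoImplicit false

universe u

open CategoryTheory CategoryTheory.Limits AlgebraicGeometry TopologicalSpace TensorProduct

noncomputable section

namespace FLTA.AbelianVar.Cube

open LB

variable {K : Type u} [Field K] {X T : Scheme.{u}} [X.Over (Spec (CommRingCat.of K))]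
  [T.Over (Spec (CommRingCat.of K))] {L : LB (prod K X T)} {ι : Type} {W : ι → X.Opens}
  {V : T.Opens} (t : ∀ i, Sec L (box K (W i) V)) (t' : ∀ i, Sec L.inv (box K (W i) V))

/-- `⟨t i, t' j⟩` on a double box. -/
def crossPair (p : ι × ι) : Γ(prod K X T, box K (inter₂ W p) V) :=
  Sec.pair (Sec.res (box_mono (U := W p.1) inf_le_left le_rfl) (t p.1))
    (Sec.res (box_mono (U := W p.2) inf_le_right le_rfl) (t' p.2))

/-- `⟨t i, t' i⟩` on a double box. -/
def selfPair (p : ι × ι) : Γ(prod K X T, box K (inter₂ W p) V) :=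
  rs (box_mono (U := W p.1) inf_le_left le_rfl) (Sec.pair (t p.1) (t' p.1))

/-- Coordinates of a section. -/
def IsSolOn (φ : ∀ i, Γ(prod K X T, box K (W i) V)) : Prop :=
  ∀ p : ι × ι, crossPair t t' p * rs (box_mono (U := W p.1) inf_le_left le_rfl) (φ p.1) =
    selfPair t t' p * rs (box_mono (U := W p.2) inf_le_right le_rfl) (φ p.2)

/-- The coordinates of a section do satisfy the system. -/
lemma isSolOn_pair (σ : ∀ i, Sec L (box K (W i) V))
    (hσ : ∀ p : ι × ι, Sec.res (box_mono (U := W p.1) inf_le_left le_rfl) (σ p.1) =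
      Sec.res (box_mono (U := W p.2) inf_le_right le_rfl : box K (inter₂ W p) V ≤ _) (σ p.2)) :
    IsSolOn t t' fun i => Sec.pair (σ i) (t' i) := by
  intro p
  rw [crossPair, selfPair, Sec.rs_pair, Sec.rs_pair, Sec.rs_pair, ← hσ p,
    Sec.pair_mul_pair]

/-- The systems with coefficients and without are the same. -/
lemma isSolution_iff [Finite ι] (hW₂ : ∀ p, IsAffineOpen (inter₂ W p)) (hV : IsAffineOpen V)
    {P Q : (coverDatum K W).R₁ ⊗[K] Γ(T, V)} (hP : secs K (inter₂ W) V P = crossPair t t')
    (hQ : secs K (inter₂ W) V Q = selfPair t t') (a : (coverDatum K W).R₀ ⊗[K] Γ(T, V)) :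
    (coverDatum K W).IsSolution Γ(T, V) P Q a ↔ IsSolOn t t' (secs K W V a) := by
  have hl : ∀ p, secs K (inter₂ W) V (P * CechDatum.ext Γ(T, V) (coverDatum K W).α a) p =
      crossPair t t' p * rs (box_mono inf_le_left le_rfl) (secs K W V a p.1) := fun p => by
    refine (congrFun (map_mul (secs K (inter₂ W) V) P _) p).trans ?_
    exact congrArg₂ (· * ·) (congrFun hP p) (secs_α a p)
  have hr : ∀ p, secs K (inter₂ W) V (Q * CechDatum.ext Γ(T, V) (coverDatum K W).β a) p =
      selfPair t t' p * rs (box_mono inf_le_right le_rfl) (secs K W V a p.2) := fun p => by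
    refine (congrFun (map_mul (secs K (inter₂ W) V) Q _) p).trans ?_
    exact congrArg₂ (· * ·) (congrFun hQ p) (secs_β a p)
  constructor
  · intro h p
    rw [← hl, ← hr]
    exact congrArg (fun z => secs K (inter₂ W) V z p) h
  · intro h
    refine (secs_bijective hW₂ hV).1 (funext fun p => ?_)
    exact (hl p).trans ((h p).trans (hr p).symm)


end FLTA.AbelianVar.Cube
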